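import Fermat.Agent.LevelP.Break

/-!
# The break of a nontrivial cyclic extension of degree `p`

Without any smallness assumption: if `σ` moves some element of `L` then `L` has a uniformiser `π`
with `v π ^ p = v π₀`, moved by `σ` to `π (1 + η)` with `v η = v π ^ b`, `b ≥ 1`, and `σ` moves
integral elements of `L` by at most `v π ^ (b + 1)`.

Owner: helper46.
-/

set_option autoImplicit false

noncomputable section

namespace Fermat.Agent.LevelP

variable {K : Type*} [Field K]

namespace CyclicData

variable {A : ValuationSubring K} {σ : K ≃+* K} {L : Subfield K} {π₀ : K} {p : ℕ}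
  (D : CyclicData A σ L π₀ p)

include D

/-- A moved element forces the value group of `L` to be larger. -/
theorem exists_uniformiser_of_moved {x : K} (hx : x ∈ L) (hxA : x ∈ A) (hmove : σ x ≠ x) :
    ∃ π ∈ L, π ≠ 0 ∧ A.valuation π ^ p = A.valuation π₀ := by
  by_cases hall : ∀ z ∈ L, z ≠ 0 → ∃ k : ℤ, A.valuation z = A.valuation π₀ ^ k
  · exfalso
    have hsmall : ∀ (n : ℕ), ∀ z ∈ L, z ∈ A →
        A.valuation (σ z - z) ≤ A.valuation π₀ ^ n := by
      intro n
      induction n with
      | zero =>
        intro z hz hzA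
        rw [pow_zero]
        refine (A.valuation.map_sub _ _).trans (max_le ?_ ((A.valuation_le_one_iff z).2 hzA))
        rw [D.valuation_map]
        exact (A.valuation_le_one_iff z).2 hzA
      | succ n ih =>
        intro z hz hzA
        obtain ⟨a, haL, ha, hlt⟩ := D.residue_fixed z hz hzA
        have h1 : A.valuation (z - a) ≤ A.valuation π₀ := by
          rcases eq_or_ne (z - a) 0 with h | h
          · rw [h, map_zero]; exact zero_le
          obtain ⟨k, hk⟩ := hall _ (sub_mem hz haL) h
          rw [hk] at hlt ⊢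
          have hk1 : 1 ≤ k := by
            by_contra hneg
            refine hlt.not_ge ?_
            calc (1 : A.ValueGroup) = A.valuation π₀ ^ (0 : ℤ) := (zpow_zero _).symm
              _ ≤ _ := zpow_le_zpow_right_of_le_one₀ D.valuation_pos D.lt_one.le (by omega)
          calc A.valuation π₀ ^ k ≤ A.valuation π₀ ^ (1 : ℤ) :=
                zpow_le_zpow_right_of_le_one₀ D.valuation_pos D.lt_one.le hk1
            _ = _ := zpow_one _
        have hz'A : (z - a) / π₀ ∈ A := by
          rw [← A.valuation_le_one_iff, map_div₀]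
          exact (div_le_one₀ D.valuation_pos).2 h1
        have hdiff : σ z - z = π₀ * (σ ((z - a) / π₀) - (z - a) / π₀) := by
          rw [map_div₀, map_sub, ha, D.fixed]
          field_simp [D.ne_zero]
          ring
        rw [hdiff, map_mul, pow_succ']
        exact mul_le_mul_right (ih _ (div_mem (sub_mem hz haL) D.mem) hz'A) _
    obtain ⟨k, hk⟩ := hall _ (sub_mem (D.map_mem x hx) hx) (sub_ne_zero.2 hmove)
    have h := hsmall (k.toNat + 1) x hx hxA
    rw [hk, ← zpow_natCast,
      zpow_le_zpow_iff_right_of_lt_one₀ D.valuation_pos D.lt_one] at h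
    omega
  · push Not at hall
    obtain ⟨y, hy, hy0, hnot⟩ := hall
    obtain ⟨k, hk⟩ := D.exists_value_pow hy hy0
    have hpk : ¬ (p : ℤ) ∣ k := by
      rintro ⟨m, rfl⟩
      refine hnot m ?_
      rw [mul_comm, zpow_mul, zpow_natCast] at hk
      exact (pow_left_inj₀ zero_le zero_le D.prime.ne_zero).1 hk
    obtain ⟨a, b, hab⟩ : IsCoprime k (p : ℤ) := by
      refine (Prime.coprime_iff_not_dvd ?_).2 hpk |>.symm
      exact Nat.prime_iff_prime_int.1 D.prime
    refine ⟨y ^ a * π₀ ^ b, mul_mem (zpow_mem hy a) (zpow_mem D.mem b),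
      mul_ne_zero (zpow_ne_zero _ hy0) (zpow_ne_zero _ D.ne_zero), ?_⟩
    rw [map_mul, map_zpow₀, map_zpow₀, mul_pow, ← zpow_natCast, ← zpow_natCast,
      ← zpow_mul, ← zpow_mul, mul_comm a, zpow_mul, zpow_natCast, hk, ← zpow_mul,
      ← zpow_add₀ D.valuation_pos.ne']
    rw [show k * a + b * (p : ℤ) = 1 by rw [← hab]; ring, zpow_one]

/-- **The break**, with no bound. -/
theorem exists_break_of_moved {x : K} (hx : x ∈ L) (hmove : σ x ≠ x) :
    ∃ π ∈ L, ∃ η ∈ L, ∃ b : ℕ, 1 ≤ b ∧ π ≠ 0 ∧ A.valuation π ^ p = A.valuation π₀ ∧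
      A.valuation π < 1 ∧ σ π = π * (1 + η) ∧ A.valuation η = A.valuation π ^ b ∧
      (∀ z ∈ L, z ≠ 0 → ∃ n : ℤ, A.valuation z = A.valuation π ^ n) ∧
      ∀ z ∈ L, z ∈ A → A.valuation (σ z - z) ≤ A.valuation π ^ (b + 1) := by
  obtain ⟨x, hx, hxA, hmove⟩ : ∃ z, z ∈ L ∧ z ∈ A ∧ σ z ≠ z := by
    rcases A.mem_or_inv_mem x with h | h
    · exact ⟨x, hx, h, hmove⟩
    · exact ⟨x⁻¹, inv_mem hx, h, fun he => hmove (inv_injective (by rw [← map_inv₀]; exact he))⟩
  obtain ⟨π, hπL, hπ0, hπ⟩ := D.exists_uniformiser_of_moved hx hxA hmove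
  have hπ1 := D.valuation_uniformiser_lt_one hπ
  have hπpos : 0 < A.valuation π := zero_lt_iff.2 (A.valuation.ne_zero_iff.2 hπ0)
  have hπA : π ∈ A := (A.valuation_le_one_iff π).1 hπ1.le
  have hγ : ∀ i j : ℤ, A.valuation π ^ i ≤ A.valuation π ^ j ↔ j ≤ i := fun i j =>
    zpow_le_zpow_iff_right_of_lt_one₀ hπpos hπ1
  have hgroup : ∀ z ∈ L, z ≠ 0 → ∃ n : ℤ, A.valuation z = A.valuation π ^ n := by
    intro z hz hz0
    obtain ⟨k, hk⟩ := D.exists_value_pow hz hz0
    refine ⟨k, (pow_left_inj₀ zero_le zero_le D.prime.ne_zero).1 ?_⟩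
    rw [hk, ← hπ, ← zpow_natCast, ← zpow_natCast, ← zpow_mul, ← zpow_mul, mul_comm]
  set δ := A.valuation (σ π - π) with hδ
  have hne : σ π - π ≠ 0 := by
    intro h
    obtain ⟨k, hk⟩ := hgroup _ (sub_mem (D.map_mem x hx) hx) (sub_ne_zero.2 hmove)
    have h1 := D.valuation_map_sub_le hπL hπ (k.toNat + 1) hx hxA
    rw [h, map_zero, max_eq_right zero_le, hk, ← zpow_natCast, hγ] at h1
    omega
  obtain ⟨d, hd⟩ := hgroup _ (sub_mem (D.map_mem π hπL) hπL) hne
  -- residues of `σ π / π` are trivial
  have hunit : σ π / π ∈ A := by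
    rw [← A.valuation_le_one_iff, map_div₀, D.valuation_map, div_self hπpos.ne']
  have hδlt : δ < A.valuation π := by
    have hkey : ∀ z ∈ L, z ∈ A → A.valuation (σ z - z) < 1 := by
      intro z hz hzA
      obtain ⟨a, -, ha, hlt⟩ := D.residue_fixed z hz hzA
      have : σ z - z = σ (z - a) - (z - a) := by rw [map_sub, ha]; ring
      rw [this]
      exact A.valuation.map_sub_lt (by rwa [D.valuation_map]) hlt
    -- `u = σ π / π` is congruent to a fixed `a`, whose `p`-th power is congruent to the norm `1`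
    obtain ⟨a, haL, ha, hlt⟩ := D.residue_fixed _ (div_mem (D.map_mem π hπL) hπL) hunit
    have hcong : ∀ i : ℕ, A.valuation (σ^[i] π / π - a ^ i) < 1 := by
      intro i
      induction i with
      | zero => simp [hπ0]
      | succ i ih =>
        have hai : A.valuation a ≤ 1 := by
          have := A.valuation.map_sub (σ π / π) (σ π / π - a)
          rw [sub_sub_cancel] at this
          exact this.trans (max_le ((A.valuation_le_one_iff _).2 hunit) hlt.le)
        have hu : A.valuation (σ (σ^[i] π / π)) ≤ 1 := by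
          rw [D.valuation_map]
          have := A.valuation.map_add (σ^[i] π / π - a ^ i) (a ^ i)
          rw [sub_add_cancel] at this
          exact this.trans (max_le ih.le (by rw [map_pow]; exact pow_le_one₀ zero_le hai))
        have hsplit : σ^[i + 1] π / π - a ^ (i + 1) =
            σ (σ^[i] π / π) * (σ π / π - a) + σ (σ^[i] π / π - a ^ i) * a := by
          rw [Function.iterate_succ_apply', map_sub, map_div₀, map_pow, ha]
          have : σ π ≠ 0 := by simpa using hπ0
          field_simp
          ring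
        rw [hsplit]
        refine A.valuation.map_add_lt ?_ ?_
        · rw [map_mul]; exact mul_lt_one_of_nonneg_of_lt_one_right hu zero_le hlt
        · rw [map_mul, D.valuation_map]
          exact mul_lt_one_of_nonneg_of_lt_one_left zero_le ih hai
    have hap : A.valuation (1 - a ^ p) < 1 := by
      have := hcong p
      rwa [D.iterate_eq π hπL, div_self hπ0] at this
    have hchar : A.valuation (1 - a) < 1 := by
      have hp1 : A.valuation (p : K) < 1 := D.natCast_lt_one
      have haA : a ∈ A := by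
        rw [← A.valuation_le_one_iff]
        have := A.valuation.map_sub (σ π / π) (σ π / π - a)
        rw [sub_sub_cancel] at this
        exact this.trans (max_le ((A.valuation_le_one_iff _).2 hunit) hlt.le)
      have : CharP (IsLocalRing.ResidueField A) p := by
        refine (CharP.charP_iff_prime_eq_zero D.prime).2 ?_
        rw [← map_natCast (IsLocalRing.residue A), IsLocalRing.residue_eq_zero_iff,
          ← ValuationSubring.coe_mem_nonunits_iff, A.mem_nonunits_iff]
        simpa using hp1
      have hiff : ∀ w : A, IsLocalRing.residue A w = 0 ↔ A.valuation (w : K) < 1 := fun w => by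
        rw [IsLocalRing.residue_eq_zero_iff, ← ValuationSubring.coe_mem_nonunits_iff,
          A.mem_nonunits_iff]
      have : Fact p.Prime := ⟨D.prime⟩
      have h1 : (1 - IsLocalRing.residue A ⟨a, haA⟩) ^ p = 0 := by
        rw [sub_pow_char, one_pow, ← map_pow, ← map_one (IsLocalRing.residue A), ← map_sub, hiff]
        simpa using hap
      have h2 := (hiff (1 - ⟨a, haA⟩)).1 (by rw [map_sub, map_one]; exact eq_zero_of_pow_eq_zero h1)
      simpa using h2
    have : A.valuation (σ π / π - 1) < 1 := by
      have := A.valuation.map_sub_lt hlt hchar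
      rwa [show σ π / π - a - (1 - a) = σ π / π - 1 by ring] at this
    rw [div_sub_one hπ0, map_div₀, div_lt_one₀ hπpos] at this
    exact this
  have hd1 : 2 ≤ d := by
    by_contra hcon
    refine hδlt.not_ge ?_
    rw [hδ, hd, ← zpow_one (A.valuation π), ← zpow_mul, one_mul, hγ]
    omega
  obtain ⟨b, rfl⟩ : ∃ b : ℕ, d = b + 1 := ⟨(d - 1).toNat, by omega⟩
  have hδb : δ = A.valuation π ^ (b + 1) := by
    rw [hδ, hd, ← zpow_natCast]; norm_num
  refine ⟨π, hπL, σ π / π - 1, sub_mem (div_mem (D.map_mem π hπL) hπL) (one_mem L), b,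
    by omega, hπ0, hπ, hπ1, by field_simp; ring, ?_, hgroup, fun z hz hzA => ?_⟩
  · rw [div_sub_one hπ0, map_div₀, ← hδ, hδb, pow_succ, mul_div_assoc, div_self hπpos.ne', mul_one]
  · exact (D.valuation_map_sub_le hπL hπ (b + 1) hz hzA).trans (max_le hδb.le le_rfl)

end CyclicData

end Fermat.Agent.LevelP
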