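import Fermat.Agent.LevelP.Ordinary.Tame

/-!
# A class moved by a wild element

A `p`-torsion class trivial modulo `π` over a field of index `p` above the tame one cannot be
moved by the Galois group of that extension to a non-principal class of the tame field: below the
level `p` its first order term is killed by Frobenius, and moving it raises the level by the break,
while the moved class has level exactly `p` with first order term not killed by Frobenius. The break
may be arbitrary.

Owner: helper46.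
-/

set_option autoImplicit false

noncomputable section

namespace Fermat.Agent.LevelP

open AlgebraicCurve Fermat.Agent.Curve IsLocalRing

local notation "Qb" => AlgebraicClosure ℚ
local notation "Γℚ" => (AlgebraicClosure ℚ ≃ₐ[ℚ] AlgebraicClosure ℚ)

variable {p : ℕ} {A : ValuationSubring Qb} {F : Type*} [Field F] [Algebra Qb F]
  {Fb : Type*} [Field Fb] [Algebra (ResidueField A) Fb] {M : TwoCompData p A F Fb}

namespace TwoCompData

theorem valuation_act_eq_one {τ : Γℚ} (hτ : τ ∈ A.inertiaSubgroupIn ℚ) {i : Bool} {f : F}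
    (hf : (M.V i).valuation f = 1) : (M.V i).valuation (M.act τ • f) = 1 := by
  have hf0 : f ≠ 0 := (M.V i).valuation.ne_zero_iff.1 (by rw [hf]; exact one_ne_zero)
  have h1 := (ValuationSubring.valuation_le_one_iff _ _).2
    ((M.act_mem_iff i τ hτ f).2 (M.mem_of_valuation_eq_one hf))
  have h2 := (ValuationSubring.valuation_le_one_iff _ _).2
    ((M.act_mem_iff i τ hτ f⁻¹).2 (M.mem_of_valuation_eq_one (by rw [map_inv₀, hf, inv_one])))
  rw [smul_inv'', map_inv₀,
    inv_le_one₀ (zero_lt_iff.2 ((map_ne_zero _).2 ((smul_ne_zero_iff_ne _).2 hf0)))] at h2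
  exact le_antisymm h1 h2

/-- The translate of a representative, divided by it, represents `τ D - D` one break higher. -/
theorem Rep.act (L : Level p A) {τ : Γℚ} (hτ : τ ∈ A.inertiaSubgroupIn ℚ)
    (hnorm : ∀ σ ∈ L.H, τ⁻¹ * σ * τ ∈ L.H) {η : Qb} {b : ℕ} (hb : 1 ≤ b)
    (hτπ : τ L.π = L.π * (1 + η)) (hη : A.valuation η = A.valuation L.π ^ b)
    (hmove : ∀ z : Qb, (∀ σ ∈ L.H, σ z = z) → z ∈ A →
      A.valuation (τ z - z) ≤ A.valuation L.π ^ (b + 1))
    {D : Divisor Qb F} {m : ℕ} (hm : 0 < m) {g : F} {ψ : M.Pt → F} (h : M.Rep L D m g ψ) :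
    M.Rep L (M.act τ • D - D) (m + b) (M.act τ • g / g) (fun y => M.act τ • ψ y / ψ y) ∧
      ∀ y i, M.On y i → M.VCongr L.π i 1 (L.coeff (m + b) (M.act τ • ψ y / ψ y))
        (algebraMap Qb F ((m : Qb) * (η / L.π ^ b)) * L.coeff m (ψ y)) := by
  have hπF : algebraMap Qb F L.π ≠ 0 := (map_ne_zero _).2 L.ne_zero
  have hηA : η ∈ A := by
    rw [← A.valuation_le_one_iff, hη]
    exact pow_le_one₀ zero_le L.lt_one.le
  have hνA : η / L.π ^ b ∈ A := by
    rw [← A.valuation_le_one_iff, map_div₀, map_pow, hη,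
      div_self (pow_ne_zero _ L.valuation_ne_zero)]
  have key : ∀ y i, M.On y i → M.VCongr L.π i (m + b + 1) (M.act τ • ψ y / ψ y)
      (1 + algebraMap Qb F L.π ^ (m + b) *
        (algebraMap Qb F ((m : Qb) * (η / L.π ^ b)) * L.coeff m (ψ y))) := by
    intro y i hi
    set a := L.coeff m (ψ y) with ha
    have haV : a ∈ M.V i := h.coeff_mem hi
    set c := algebraMap Qb F ((m : Qb) * (η / L.π ^ b)) with hc
    have hcV : c ∈ M.V i := (M.algebraMap_mem_iff i _).2 (mul_mem (natCast_mem _ _) hνA)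
    obtain ⟨d₁, hd₁, hd₁e⟩ := M.vcongr_act L hτ hnorm hmove i (fixed_coeff L (h.fixed y)) haV
    obtain ⟨r, hr⟩ := exists_one_add_pow (⟨η, hηA⟩ : A) m
    have hr' : (1 + η) ^ m = 1 + m * η + η ^ 2 * (r : Qb) := by
      have := congrArg (Subtype.val : A → Qb) hr
      push_cast at this
      exact this
    obtain ⟨l, rfl⟩ : ∃ l, b = l + 1 := ⟨b - 1, by omega⟩
    have hψv : (M.V i).valuation (ψ y) = 1 :=
      (h.congr y i hi).valuation_eq_one L hm (map_one _)
    have hinv : (ψ y)⁻¹ ∈ M.V i :=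
      M.mem_of_valuation_eq_one (by rw [map_inv₀, hψv, inv_one])
    set νF := algebraMap Qb F (η / L.π ^ (l + 1)) with hνF
    have hνV : νF ∈ M.V i := (M.algebraMap_mem_iff i _).2 hνA
    have hrV : algebraMap Qb F (r : Qb) ∈ M.V i := (M.algebraMap_mem_iff i _).2 r.2
    have hτψ : M.act τ • ψ y = 1 + algebraMap Qb F L.π ^ m * algebraMap Qb F ((1 + η) ^ m) *
        (M.act τ • a) := by
      conv_lhs => rw [← one_add_coeff L m (ψ y)]
      rw [smul_add, smul_one, smul_mul', smul_pow', SemilinearAut.smul_algebraMap, M.baseAut_act,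
        hτπ, map_mul, mul_pow, map_pow, ← ha]
    obtain ⟨m', rfl⟩ : ∃ k, m = k + 1 := ⟨m - 1, by omega⟩
    refine ⟨(ψ y)⁻¹ * (algebraMap Qb F L.π ^ l * νF ^ 2 * algebraMap Qb F (r : Qb) * a
      + algebraMap Qb F ((1 + η) ^ (m' + 1)) * d₁ - algebraMap Qb F L.π ^ m' * c * a * a),
      mul_mem hinv (sub_mem (add_mem (mul_mem (mul_mem (mul_mem (pow_mem (M.pi_mem L i) l)
        (pow_mem hνV 2)) hrV) haV) (mul_mem ((M.algebraMap_mem_iff i _).2
        (pow_mem (add_mem (one_mem _) hηA) _)) hd₁))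
        (mul_mem (mul_mem (mul_mem (pow_mem (M.pi_mem L i) m') hcV) haV) haV)), ?_⟩
    have hηF : algebraMap Qb F η = algebraMap Qb F L.π ^ (l + 1) * νF := by
      rw [hνF, ← map_pow, ← map_mul, mul_div_cancel₀ _ (pow_ne_zero _ L.ne_zero)]
    have hrF := congrArg (algebraMap Qb F) hr'
    simp only [map_add, map_one, map_mul, map_natCast, map_pow] at hrF
    rw [hηF] at hrF
    have hcF : c = (m' + 1 : ℕ) * νF := by rw [hc, map_mul, map_natCast]
    have hψ := one_add_coeff L (m' + 1) (ψ y)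
    rw [← ha] at hψ
    rw [map_pow, map_add, map_one, hηF] at hτψ
    rw [map_pow, map_add, map_one, hηF]
    rw [div_sub' (h.ne_zero y), div_eq_iff (h.ne_zero y), hτψ]
    have hinv' : (ψ y)⁻¹ * ψ y = 1 := inv_mul_cancel₀ (h.ne_zero y)
    linear_combination
      (algebraMap Qb F L.π ^ (m' + 1) * a) * hrF
      + (algebraMap Qb F L.π ^ (m' + 1) * (1 + algebraMap Qb F L.π ^ (l + 1) * νF) ^ (m' + 1))
        * hd₁e
      + (1 + algebraMap Qb F L.π ^ (m' + 1 + (l + 1)) * (c * a)) * hψ
      + (algebraMap Qb F L.π ^ (m' + 1 + (l + 1) + 1) *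
        (algebraMap Qb F L.π ^ m' * c * a * a - algebraMap Qb F L.π ^ l * νF ^ 2 *
          algebraMap Qb F (r : Qb) * a
          - (1 + algebraMap Qb F L.π ^ (l + 1) * νF) ^ (m' + 1) * d₁)) * hinv'
      - (algebraMap Qb F L.π ^ (m' + 1) * a * algebraMap Qb F L.π ^ (l + 1)) * hcF
  refine ⟨⟨div_ne_zero ((smul_ne_zero_iff_ne _).2 h.g_ne) h.g_ne,
    fixed_div (fixed_act hnorm h.g_fixed) h.g_fixed, fun i => ?_,
    fun y => fixed_div (fixed_act hnorm (h.fixed y)) (h.fixed y),
    fun y => div_ne_zero ((smul_ne_zero_iff_ne _).2 (h.ne_zero y)) (h.ne_zero y),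
    fun y P hP => ?_, fun y i hi => ?_⟩, fun y i hi => ?_⟩
  · rw [map_div₀, valuation_act_eq_one hτ (h.g_unit i), h.g_unit i, div_one]
  · have hP' : M.sp ((M.act τ)⁻¹ • P) = y := by rw [← map_inv, M.sp_act τ⁻¹ (inv_mem hτ), hP]
    have h1 := SemilinearAut.ord_smul (M.act τ) ((M.act τ)⁻¹ • P) (ψ y)
    have h2 := SemilinearAut.ord_smul (M.act τ) ((M.act τ)⁻¹ • P) g
    rw [smul_inv_smul] at h1 h2
    rw [Fermat.Agent.Curve.ord_div P ((smul_ne_zero_iff_ne _).2 (h.ne_zero y)) (h.ne_zero y),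
      Fermat.Agent.Curve.ord_div P ((smul_ne_zero_iff_ne _).2 h.g_ne) h.g_ne, h1, h2,
      h.ord_eq y _ hP', h.ord_eq y P hP, Finsupp.sub_apply, SemilinearAut.divisor_smul_apply]
    ring
  · exact ((key y i hi).mono L.π_mem (Nat.le_succ _)).trans
      ⟨_, mul_mem ((M.algebraMap_mem_iff i _).2 (mul_mem (natCast_mem _ _) hνA))
        (h.coeff_mem hi), add_sub_cancel_left _ _⟩
  · obtain ⟨d, hd, e⟩ := key y i hi
    refine ⟨d, hd, mul_left_cancel₀ (pow_ne_zero (m + b) hπF) ?_⟩
    linear_combination e + one_add_coeff L (m + b) (M.act τ • ψ y / ψ y)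

/-- A nonzero residue class modulo `p` is a unit of `A`. -/
theorem valuation_natCast_eq_one (hp : p.Prime) (hA : A.LiesOverPrime p) {m : ℕ}
    (hm : ¬ p ∣ m) : A.valuation (m : Qb) = 1 := by
  refine le_antisymm ((A.valuation_le_one_iff _).2 (natCast_mem _ _)) (not_lt.1 fun hlt => ?_)
  haveI := EC.charP_residueField A hp hA
  refine hm ((CharP.cast_eq_zero_iff (ResidueField A) p m).1 ?_)
  rw [← map_natCast (residue A), IsLocalRing.residue_eq_zero_iff]
  refine (A.valuation_lt_one_iff _).2 ?_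
  simpa using hlt

variable [IsFunctionField1 Qb F] [IsFunctionField1 (ResidueField A) Fb]
  [IsAlgClosed (ResidueField A)]

/-- **No class is moved by a wild element to a non-principal class of the tame field.** -/
theorem no_wild_moved (hp : p.Prime) (hp3 : 3 ≤ p) (hA : A.LiesOverPrime p)
    (L₁ L : Level p A) (he₁ : L₁.e = p - 1) (he : L.e = p * (p - 1)) (hle : L.H ≤ L₁.H)
    (τ : Γℚ) (hτ : τ ∈ A.inertiaSubgroupIn ℚ) (hnorm : ∀ σ ∈ L.H, τ⁻¹ * σ * τ ∈ L.H)
    (η : Qb) (b : ℕ) (hb : 1 ≤ b) (hτπ : τ L.π = L.π * (1 + η))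
    (hη : A.valuation η = A.valuation L.π ^ b)
    (hmove : ∀ z : Qb, (∀ σ ∈ L.H, σ z = z) → z ∈ A →
      A.valuation (τ z - z) ≤ A.valuation L.π ^ (b + 1))
    {D : Divisor Qb F} (hD : M.DivFixed L.H D) (hpD : Divisor.IsPrincipal ((p : ℤ) • D))
    (hD1 : M.Trivial L D 1)
    {E : Divisor Qb F} (hEdeg : Divisor.degree E = 0) (hE : M.DivFixed L₁.H E)
    (hpE : Divisor.IsPrincipal ((p : ℤ) • E)) (hEnp : ¬ E.IsPrincipal) (hE1 : M.Trivial L₁ E 1)
    (hDE : Divisor.IsPrincipal (M.act τ • D - D - E)) : False := by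
  have hpos : 0 < p := hp.pos
  obtain ⟨gE, ψE, hψE⟩ := trivial_iff.1 hE1
  have heL : L.e = p * L₁.e := by rw [he, he₁]
  have hEL : M.DivFixed L.H E := fun σ hσ => hE σ (hle hσ)
  have hψEL := hψE.of_tame hle heL
  have hτD : M.DivFixed L.H (M.act τ • D - D) := fun σ hσ => by
    rw [smul_sub, divFixed_act hnorm hD σ hσ, hD σ hσ]
  set μ := L₁.π / L.π ^ p with hμdef
  have hμv : A.valuation μ = 1 := by
    rw [hμdef, map_div₀, map_pow, L₁.valuation_eq_pow L heL,
      div_self (pow_ne_zero _ L.valuation_ne_zero)]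
  have hμf : ∀ σ ∈ L.H, σ μ = μ := fun σ hσ => by
    rw [hμdef, map_div₀, map_pow, L₁.fixed σ (hle hσ), L.fixed σ hσ]
  -- the first order term of `E` is not killed by Frobenius over `L`
  have hnn : ¬ M.Null L fun y => L.coeff p (ψE y) ^ p := by
    intro hnull
    refine not_null_pow_coeff hp hp3 hA L₁ he₁ hEdeg hE hpE hEnp hψE ?_
    refine Null.descend (L := L) (Null.of_smul (x := μ ^ p)
      (by rw [map_pow, hμv, one_pow]) (fun σ hσ => by rw [map_pow, hμf σ hσ])
      (hnull.congr fun y i _ => ?_)) fun y => fixed_pow (fixed_coeff L₁ (hψE.fixed y)) p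
    rw [map_pow, ← mul_pow, hμdef, map_div₀, map_pow, Level.coeff, Level.coeff, pow_one,
      div_mul_div_comm, mul_comm (algebraMap Qb F L₁.π),
      mul_div_mul_right _ _ ((map_ne_zero _).2 L₁.ne_zero)]
    exact VCongr.refl _
  have hstep : ∀ m, 1 ≤ m → m ≤ p → M.Trivial L D m := by
    intro m hm
    induction m, hm using Nat.le_induction with
    | base => exact fun _ => hD1
    | succ m hm ih =>
      intro hmp
      obtain ⟨g, ψ, hψ⟩ := trivial_iff.1 (ih (by omega))
      have hpm : ¬ p ∣ m := Nat.not_dvd_of_pos_of_lt hm (by omega)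
      have hlt : p * m < L.e + m := by
        have h1 := Nat.mul_le_mul_left (p - 1) (show m + 1 ≤ p by omega)
        have h2 : p * m = (p - 1) * m + m := by
          conv_lhs => rw [← Nat.sub_add_cancel hp.one_le]
          ring
        rw [he, mul_comm p (p - 1)]
        rw [Nat.mul_add, mul_one] at h1
        omega
      have hF := hψ.null_pow_coeff hp hA hD hpD hm hlt
      obtain ⟨hψt, hcoef⟩ := hψ.act L hτ hnorm hb hτπ hη hmove hm
      set c := (m : Qb) * (η / L.π ^ b) with hc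
      have hcv : A.valuation c = 1 := by
        rw [hc, map_mul, valuation_natCast_eq_one hp hA hpm, map_div₀, map_pow, hη,
          div_self (pow_ne_zero _ L.valuation_ne_zero), one_mul]
      have hcA : c ∈ A := (A.valuation_le_one_iff _).1 hcv.le
      have hτπfix : ∀ σ ∈ L.H, σ η = η := fun σ hσ => by
        have hη' : η = τ L.π / L.π - 1 := by
          rw [hτπ, mul_div_cancel_left₀ _ L.ne_zero, add_sub_cancel_left]
        have h1 : σ (τ L.π) = τ L.π := by
          have h := L.fixed _ (hnorm σ hσ)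
          apply τ⁻¹.injective
          simpa [AlgEquiv.mul_apply, AlgEquiv.aut_inv] using h
        rw [hη', map_sub, map_div₀, h1, L.fixed σ hσ, map_one]
      have hcf : ∀ σ ∈ L.H, σ c = c := fun σ hσ => by
        rw [hc, map_mul, map_natCast, map_div₀, map_pow, hτπfix σ hσ, L.fixed σ hσ]
      rcases lt_trichotomy (m + b) p with hlt' | heq | hgt
      · refine hψ.trivial_succ hm (Null.of_smul hcv hcf
          ((hψt.null_of_trivial hp hA (D' := E) (trivial_iff.2 ⟨gE, ψE, hψEL⟩) (by omega) hlt'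
            hτD hEL hDE).congr fun y i hi => (hcoef y i hi).symm))
      · exfalso
        have hx : M.Null L fun y => L.coeff (m + b) (M.act τ • ψ y / ψ y) ^ p :=
          (hF.smul (x := c ^ p) (pow_mem hcA _) fun σ hσ => by
            rw [map_pow, hcf σ hσ]).congr fun y i hi => by
              rw [map_pow, ← mul_pow]
              exact (hcoef y i hi).pow (hψt.coeff_mem hi)
                (mul_mem ((M.algebraMap_mem_iff i _).2 hcA) (hψ.coeff_mem hi)) _
        have hdiff : M.Null L fun y =>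
            (L.coeff (m + b) (M.act τ • ψ y / ψ y) - L.coeff (m + b) (ψE y)) ^ p :=
          (hψt.null_sub hp hA (hψEL.mono heq.le) (by omega) hτD hEL hDE).pow hp
        refine hnn ((hx.sub hdiff).congr fun y i hi => ?_)
        rw [heq]
        have hX : L.coeff p (M.act τ • ψ y / ψ y) ∈ M.V i := heq ▸ hψt.coeff_mem hi
        have hY := hψEL.coeff_mem hi
        obtain ⟨r, hr⟩ := exists_add_pow_prime_eq hp
          (⟨_, sub_mem hX hY⟩ : M.V i) ⟨_, hY⟩
        have e := congrArg (Subtype.val : M.V i → F) hr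
        push_cast at e
        rw [sub_add_cancel] at e
        obtain ⟨d, hd, he'⟩ := vcongr_natCast_mul (M := M) L i
          (mul_mem (mul_mem (sub_mem hX hY) hY) r.2)
        exact ⟨-d, neg_mem hd, by linear_combination (-1 : F) * e - he'⟩
      · exfalso
        refine hnn ((hψEL.null_of_trivial hp hA (D' := M.act τ • D - D)
          (trivial_iff.2 ⟨_, _, hψt⟩) hpos hgt hEL hτD ?_).pow hp)
        exact neg_sub (M.act τ • D - D) E ▸ Divisor.principal.neg_mem hDE
  obtain ⟨g, ψ, hψ⟩ := trivial_iff.1 (hstep p (by omega) le_rfl)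
  obtain ⟨hψt, -⟩ := hψ.act L hτ hnorm hb hτπ hη hmove hpos
  refine hnn ((hψEL.null_of_trivial hp hA (D' := M.act τ • D - D)
    (trivial_iff.2 ⟨_, _, hψt⟩) hpos (by omega) hEL hτD ?_).pow hp)
  exact neg_sub (M.act τ • D - D) E ▸ Divisor.principal.neg_mem hDE

end TwoCompData

end Fermat.Agent.LevelP
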