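import Fermat.Agent.LevelP.Ordinary.Start
import Fermat.Agent.LevelP.Ordinary.Wild
import Fermat.Agent.LevelP.Ordinary.BreakGen

/-!
# Inertia on classes with `p`-th power residues

`PicPow x q`: the residues of a function with divisor `q • D`, `D` in the class `x`, are `q`-th
powers along both components. Inertia moves every class into these. The main theorem says that a
`p`-torsion class with this property, fixed by an inertia element acting nontrivially on `μ_p`,
whose translates differ from it by classes on which inertia acts through the cyclotomic character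
and which generate a cyclic group, is zero.

Owner: helper46.
-/

set_option autoImplicit false

noncomputable section

namespace Fermat.Agent.LevelP

open AlgebraicCurve Fermat.Agent.Curve IsLocalRing

local notation "Qb" => AlgebraicClosure ℚ
local notation "Γℚ" => (AlgebraicClosure ℚ ≃ₐ[ℚ] AlgebraicClosure ℚ)

theorem eq_zero_of_zsmul {G : Type*} [AddCommGroup G] {p : ℕ} (hp : p.Prime) {k : ℤ}
    (hk : ¬ (p : ℤ) ∣ k) {x : G} (hx : (p : ℤ) • x = 0) (hkx : k • x = 0) : x = 0 := by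
  obtain ⟨u, v, huv⟩ := (Nat.prime_iff_prime_int.1 hp).coprime_iff_not_dvd.2 hk
  rw [← one_smul ℤ x, ← huv, add_smul, mul_smul, mul_smul, hx, hkx, smul_zero, smul_zero, add_zero]

variable {p : ℕ} {A : ValuationSubring Qb} {F : Type*} [Field F] [Algebra Qb F]
  {Fb : Type*} [Field Fb] [Algebra (ResidueField A) Fb] (M : TwoCompData p A F Fb)

namespace TwoCompData

/-- Every representative of the class has `q`-th power residues. -/
def PicPow (x : Pic0 Qb F) (q : ℕ) : Prop :=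
  ∀ D : Divisor.degZero (K := Qb) (F := F), Pic0.mk D = x → M.PowResidue (D : Divisor Qb F) q

omit [Field Fb] [Algebra (ResidueField A) Fb] in
theorem mk_eq_zero_iff {D : Divisor.degZero (K := Qb) (F := F)} :
    Pic0.mk D = 0 ↔ Divisor.IsPrincipal (D : Divisor Qb F) := by
  rw [Pic0.mk, QuotientAddGroup.eq_zero_iff]
  rfl

omit [Field Fb] [Algebra (ResidueField A) Fb] in
theorem mk_eq_iff {D D' : Divisor.degZero (K := Qb) (F := F)} :
    Pic0.mk D = Pic0.mk D' ↔ Divisor.IsPrincipal ((D : Divisor Qb F) - (D' : Divisor Qb F)) := by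
  rw [← sub_eq_zero, show Pic0.mk D - Pic0.mk D' = Pic0.mk (D - D') from rfl, mk_eq_zero_iff]
  rfl

variable [IsFunctionField1 Qb F] [IsFunctionField1 (ResidueField A) Fb]
  [IsAlgClosed (ResidueField A)]

omit [IsFunctionField1 (ResidueField A) Fb] in
/-- Two normalised functions with the same divisor differ in residue by a `q`-th power. -/
theorem residueAt_eq_mul_pow {q : ℕ} (hq : 0 < q) {i : Bool} {f f' : F} (hf : f ≠ 0)
    (hf' : f' ≠ 0) (hord : ∀ P : Place Qb F, P.ord f' = P.ord f)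
    (hv : (M.V i).valuation f = 1) (hv' : (M.V i).valuation f' = 1) :
    ∃ h : Fb, M.residueAt i f' = h ^ q * M.residueAt i f := by
  have halg : IsAlgebraic Qb (f' / f) := isAlgebraic_of_forall_ord_nonneg fun P => by
    rw [Fermat.Agent.Curve.ord_div P hf' hf, hord P, sub_self]
  obtain ⟨c, hc⟩ := minpoly.mem_range_of_degree_eq_one Qb _
    (IsAlgClosed.degree_eq_one_of_irreducible _ (minpoly.irreducible halg.isIntegral))
  have hcv : (M.V i).valuation (algebraMap Qb F c) = 1 := by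
    rw [hc, map_div₀, hv, hv', div_one]
  have hcA : c ∈ A := (M.algebraMap_mem_iff i c).1 (M.mem_of_valuation_eq_one hcv)
  obtain ⟨r, hr⟩ := IsAlgClosed.exists_pow_nat_eq (residue A ⟨c, hcA⟩) hq
  refine ⟨algebraMap (ResidueField A) Fb r, ?_⟩
  rw [show f' = algebraMap Qb F c * f by rw [hc, div_mul_cancel₀ _ hf],
    residueAt_mul (M.mem_of_valuation_eq_one hcv) (M.mem_of_valuation_eq_one hv),
    M.residueAt_algebraMap i hcA, ← hr, map_pow]

omit [IsFunctionField1 (ResidueField A) Fb] in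
/-- One normalised function decides. -/
theorem powResidue_of_exists {q : ℕ} (hq : 0 < q) {D : Divisor Qb F}
    (h : ∀ i, ∃ f : F, f ≠ 0 ∧ (∀ P, ((q : ℤ) • D) P = P.ord f) ∧ (M.V i).valuation f = 1 ∧
      ∃ u : Fb, u ^ q = M.residueAt i f) : M.PowResidue D q := by
  intro i f' hf' hord' hv'
  obtain ⟨f, hf, hord, hv, u, hu⟩ := h i
  obtain ⟨r, hr⟩ :=
    M.residueAt_eq_mul_pow hq hf hf' (fun P => (hord' P).symm.trans (hord P)) hv hv'
  exact ⟨r * u, by rw [mul_pow, hu, hr]⟩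

omit [IsFunctionField1 Qb F] [IsFunctionField1 (ResidueField A) Fb]
  [IsAlgClosed (ResidueField A)] in
theorem exists_scalar (i : Bool) {f : F} (hf : f ≠ 0) :
    ∃ c : Qb, c ≠ 0 ∧ (M.V i).valuation (algebraMap Qb F c * f) = 1 := by
  obtain ⟨c, hc, -, hv⟩ := M.exists_scale i ⊥ bot_le f hf fun σ hσ => by
    rw [Subgroup.mem_bot.1 hσ, map_one, one_smul]
  exact ⟨c, hc, hv⟩

omit [IsFunctionField1 (ResidueField A) Fb] in
/-- The condition only depends on the class. -/
theorem powResidue_of_principal {q : ℕ} (hq : 0 < q) {D D' : Divisor Qb F}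
    (hD : Divisor.IsPrincipal ((q : ℤ) • D)) (h : M.PowResidue D q)
    (hDD : Divisor.IsPrincipal (D' - D)) : M.PowResidue D' q := by
  obtain ⟨f, hf, hford⟩ := hD
  obtain ⟨a, ha, haord⟩ := hDD
  refine M.powResidue_of_exists hq fun i => ?_
  obtain ⟨c, hc, hcv⟩ := M.exists_scalar i hf
  obtain ⟨c', hc', hc'v⟩ := M.exists_scalar i ha
  have hc0 := (map_ne_zero (algebraMap Qb F)).2 hc
  have hc0' := (map_ne_zero (algebraMap Qb F)).2 hc'
  obtain ⟨u, hu⟩ := h i _ (mul_ne_zero hc0 hf) (fun P => by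
    rw [P.ord_mul hc0 hf, Fermat.Agent.Curve.ord_algebraMap, zero_add, hford P]) hcv
  refine ⟨algebraMap Qb F c * f * (algebraMap Qb F c' * a) ^ q,
    mul_ne_zero (mul_ne_zero hc0 hf) (pow_ne_zero q (mul_ne_zero hc0' ha)), fun P => ?_,
    by rw [map_mul, hcv, map_pow, hc'v, one_pow, one_mul],
    u * M.residueAt i (algebraMap Qb F c' * a), ?_⟩
  · rw [P.ord_mul (mul_ne_zero hc0 hf) (pow_ne_zero q (mul_ne_zero hc0' ha)),
      P.ord_mul hc0 hf, Fermat.Agent.Curve.ord_pow, P.ord_mul hc0' ha,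
      Fermat.Agent.Curve.ord_algebraMap, Fermat.Agent.Curve.ord_algebraMap, ← haord P, ← hford P,
      Finsupp.smul_apply, Finsupp.smul_apply, Finsupp.sub_apply, smul_eq_mul, smul_eq_mul]
    ring
  · rw [residueAt_mul (M.mem_of_valuation_eq_one hcv)
      (pow_mem (M.mem_of_valuation_eq_one hc'v) q),
      residueAt_pow (M.mem_of_valuation_eq_one hc'v), mul_pow, hu]

omit [IsFunctionField1 (ResidueField A) Fb] in
theorem picPow_mk {q : ℕ} (hq : 0 < q) {D : Divisor.degZero (K := Qb) (F := F)}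
    (hD : Divisor.IsPrincipal ((q : ℤ) • (D : Divisor Qb F)))
    (h : M.PowResidue (D : Divisor Qb F) q) : M.PicPow (Pic0.mk D) q :=
  fun _ hD' => M.powResidue_of_principal hq hD h (mk_eq_iff.1 hD')

omit [IsFunctionField1 (ResidueField A) Fb] in
/-- **Inertia moves every torsion class into the classes with power residues.** -/
theorem picPow_act_sub {q : ℕ} (hq : 0 < q) {σ : Γℚ} (hσ : σ ∈ A.inertiaSubgroupIn ℚ)
    {x : Pic0 Qb F} (hx : (q : ℤ) • x = 0) : M.PicPow (M.act σ • x - x) q := by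
  obtain ⟨D, rfl⟩ := Pic0.mk_surjective x
  have hD : Divisor.IsPrincipal ((q : ℤ) • (D : Divisor Qb F)) :=
    (mk_eq_zero_iff (D := (q : ℤ) • D)).1 hx
  obtain ⟨f, hf, hford⟩ := hD
  show M.PicPow (Pic0.mk (SemilinearAut.degZeroSMulHom (M.act σ) D - D)) q
  have key : ∀ i, ∃ g : F, g ≠ 0 ∧
      (∀ P, ((q : ℤ) • (M.act σ • (D : Divisor Qb F) - (D : Divisor Qb F))) P = P.ord g) ∧
      (M.V i).valuation g = 1 ∧ ∃ u : Fb, u ^ q = M.residueAt i g := by
    intro i
    obtain ⟨c, hc, hcv⟩ := M.exists_scalar i hf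
    have hc0 := (map_ne_zero (algebraMap Qb F)).2 hc
    set g₀ := algebraMap Qb F c * f with hg₀
    have hg0 : g₀ ≠ 0 := mul_ne_zero hc0 hf
    have hσv := valuation_act_eq_one (M := M) hσ hcv
    refine ⟨M.act σ • g₀ / g₀, div_ne_zero ((smul_ne_zero_iff_ne _).2 hg0) hg0, fun P => ?_,
      by rw [map_div₀, hσv, hcv, div_one], 1, ?_⟩
    · have h := SemilinearAut.ord_smul (M.act σ) ((M.act σ)⁻¹ • P) g₀
      rw [smul_inv_smul] at h
      have hg0ord : ∀ P : Place Qb F, P.ord g₀ = ((q : ℤ) • (D : Divisor Qb F)) P := fun P => by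
        rw [hg₀, P.ord_mul hc0 hf, Fermat.Agent.Curve.ord_algebraMap, zero_add, hford P]
      rw [Fermat.Agent.Curve.ord_div P ((smul_ne_zero_iff_ne _).2 hg0) hg0, h, hg0ord, hg0ord,
        Finsupp.smul_apply, Finsupp.smul_apply, Finsupp.smul_apply, Finsupp.sub_apply,
        SemilinearAut.divisor_smul_apply, smul_eq_mul, smul_eq_mul, smul_eq_mul]
      ring
    · rw [one_pow, div_eq_mul_inv, residueAt_mul (M.mem_of_valuation_eq_one hσv)
        (M.mem_of_valuation_eq_one (by rw [map_inv₀, hcv, inv_one])), residueAt_inv hcv,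
        residueAt_act hσ (M.mem_of_valuation_eq_one hcv),
        mul_inv_cancel₀ (residueAt_ne_zero hcv)]
  obtain ⟨g, hg, hgord, -, -⟩ := key false
  exact M.picPow_mk hq ⟨g, hg, fun P => hgord P⟩ (M.powResidue_of_exists hq key)

/-- A class over a level with `p`-th power residues gives one trivial modulo the uniformiser. -/
theorem exists_trivial_rep (hp : p.Prime) (hA : A.LiesOverPrime p)
    (hr : ∀ y, M.IsNode y → ¬ p ∣ M.r y) (L : Level p A)
    {x : Pic0 Qb F} (hx : (p : ℤ) • x = 0) (hW : M.PicPow x p)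
    (hfix : ∀ σ ∈ L.H, M.act σ • x = x) :
    ∃ D : Divisor.degZero (K := Qb) (F := F), M.DivFixed L.H (D : Divisor Qb F) ∧
      Pic0.mk D = (M.nodeProd : ℤ) • x ∧
      Divisor.IsPrincipal ((p : ℤ) • (D : Divisor Qb F)) ∧ M.Trivial L (D : Divisor Qb F) 1 := by
  obtain ⟨D₀, rfl⟩ := Pic0.mk_surjective x
  obtain ⟨D₁, hD₁f, hD₁⟩ := M.descend_class L.H L.le_inertia _ D₀.2 fun σ hσ =>
    (mk_eq_iff (D := SemilinearAut.degZeroSMulHom (M.act σ) D₀)).1 (hfix σ hσ)
  have hpD₀ : Divisor.IsPrincipal ((p : ℤ) • (D₀ : Divisor Qb F)) :=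
    (mk_eq_zero_iff (D := (p : ℤ) • D₀)).1 hx
  have hpD₁ : Divisor.IsPrincipal ((p : ℤ) • D₁) := by
    have h := Divisor.principal.add_mem hpD₀ (Divisor.principal.zsmul_mem hD₁ (p : ℤ))
    rwa [← smul_add, add_sub_cancel] at h
  have hres : M.PowResidue D₁ p :=
    M.powResidue_of_principal hp.pos hpD₀ (hW D₀ rfl) hD₁
  obtain ⟨D', hD'f, hD', htriv⟩ := M.exists_trivial_one hp hA hr L hD₁f hpD₁ hres
  have hpr : Divisor.IsPrincipal (D' - (M.nodeProd : ℤ) • (D₀ : Divisor Qb F)) := by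
    have h := Divisor.principal.add_mem hD' (Divisor.principal.zsmul_mem hD₁ (M.nodeProd : ℤ))
    rwa [smul_sub, sub_add_sub_cancel] at h
  have hdeg : D' ∈ Divisor.degZero (K := Qb) (F := F) := by
    obtain ⟨f, hf, hford⟩ := hpr
    rw [Divisor.mem_degZero]
    have h0 : Divisor.degree (D' - (M.nodeProd : ℤ) • (D₀ : Divisor Qb F)) = 0 := by
      rw [show D' - (M.nodeProd : ℤ) • (D₀ : Divisor Qb F) = divisorOf f from Finsupp.ext hford,
        degree_divisorOf]
    rwa [map_sub, map_zsmul, Divisor.mem_degZero.1 D₀.2, smul_zero, sub_zero] at h0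
  refine ⟨⟨D', hdeg⟩, hD'f, ?_, ?_, htriv⟩
  · exact (mk_eq_iff (D' := (M.nodeProd : ℤ) • D₀)).2 hpr
  · have h := Divisor.principal.add_mem (Divisor.principal.zsmul_mem hpr (p : ℤ))
      (Divisor.principal.zsmul_mem hpD₀ (M.nodeProd : ℤ))
    rwa [smul_sub, smul_comm (p : ℤ) (M.nodeProd : ℤ), sub_add_cancel] at h

/-- The exponent of `p` in the square of the product of the orders at the nodes. -/
def nodeExp : ℕ := (M.nodeProd * M.nodeProd).factorization p

/-- The part prime to `p` of the square of the product of the orders at the nodes. -/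
def nodeUnit : ℕ := M.nodeProd * M.nodeProd / p ^ M.nodeExp

omit [IsFunctionField1 Qb F] [IsFunctionField1 (ResidueField A) Fb]
  [IsAlgClosed (ResidueField A)] in
theorem not_dvd_nodeUnit (hp : p.Prime) : ¬ p ∣ M.nodeUnit := by
  refine Nat.not_dvd_ordCompl hp (mul_ne_zero ?_ ?_) <;>
    exact Finset.prod_ne_zero_iff.2 fun y hy =>
      (M.r_pos y (M.finite_node.mem_toFinset.1 hy).1 (M.finite_node.mem_toFinset.1 hy).2).ne'

omit [IsFunctionField1 Qb F] [IsFunctionField1 (ResidueField A) Fb]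
  [IsAlgClosed (ResidueField A)] in
theorem nodeUnit_mul : M.nodeUnit * p ^ M.nodeExp = M.nodeProd * M.nodeProd :=
  Nat.div_mul_cancel (Nat.ordProj_dvd _ p)

/-- A class divisible by `p ^ N` among classes with power residues, `N` the exponent of the
nodes, gives one trivial modulo the uniformiser; no hypothesis on the nodes. -/
theorem exists_trivial_rep_pow (hp : p.Prime) (hA : A.LiesOverPrime p) (L : Level p A)
    {y y' : Pic0 Qb F} (hy : (p : ℤ) • y = 0) (hy' : ((p ^ M.nodeExp : ℕ) : ℤ) • y' = y)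
    (hW : M.PicPow y' (p ^ (M.nodeExp + 1))) (hfix : ∀ σ ∈ L.H, M.act σ • y' = y') :
    ∃ D : Divisor.degZero (K := Qb) (F := F), M.DivFixed L.H (D : Divisor Qb F) ∧
      Pic0.mk D = (M.nodeUnit : ℤ) • y ∧
      Divisor.IsPrincipal ((p : ℤ) • (D : Divisor Qb F)) ∧ M.Trivial L (D : Divisor Qb F) 1 := by
  obtain ⟨D₀, rfl⟩ := Pic0.mk_surjective y'
  set q := p ^ (M.nodeExp + 1) with hq
  have hqy : (q : ℤ) • Pic0.mk D₀ = 0 := by
    rw [hq, pow_succ', Nat.cast_mul, mul_zsmul, hy', hy]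
  obtain ⟨D₁, hD₁f, hD₁⟩ := M.descend_class L.H L.le_inertia _ D₀.2 fun σ hσ =>
    (mk_eq_iff (D := SemilinearAut.degZeroSMulHom (M.act σ) D₀)).1 (hfix σ hσ)
  have hqD₀ : Divisor.IsPrincipal ((q : ℤ) • (D₀ : Divisor Qb F)) :=
    (mk_eq_zero_iff (D := (q : ℤ) • D₀)).1 hqy
  have hqD₁ : Divisor.IsPrincipal ((q : ℤ) • D₁) := by
    have h := Divisor.principal.add_mem hqD₀ (Divisor.principal.zsmul_mem hD₁ (q : ℤ))
    rwa [← smul_add, add_sub_cancel] at h
  have hres : M.PowResidue D₁ q :=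
    M.powResidue_of_principal (pow_pos hp.pos _) hqD₀ (hW D₀ rfl) hD₁
  obtain ⟨D', hD'f, hD', htriv⟩ := M.exists_trivial_one_pow hp hA
    (fun z hz d hd => hd.trans (mul_dvd_mul_left d (Int.natCast_dvd_natCast.2
      (Finset.dvd_prod_of_mem _ (M.finite_node.mem_toFinset.2 hz)))))
    (c := M.nodeProd) L hD₁f hqD₁ hres
  set k : ℤ := ((M.nodeProd * M.nodeProd : ℕ) : ℤ) with hk
  have hpr : Divisor.IsPrincipal (D' - k • (D₀ : Divisor Qb F)) := by
    have h := Divisor.principal.add_mem hD' (Divisor.principal.zsmul_mem hD₁ k)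
    rwa [smul_sub, sub_add_sub_cancel] at h
  have hdeg : D' ∈ Divisor.degZero (K := Qb) (F := F) := by
    obtain ⟨f, hf, hford⟩ := hpr
    rw [Divisor.mem_degZero]
    have h0 : Divisor.degree (D' - k • (D₀ : Divisor Qb F)) = 0 := by
      rw [show D' - k • (D₀ : Divisor Qb F) = divisorOf f from Finsupp.ext hford,
        degree_divisorOf]
    rwa [map_sub, map_zsmul, Divisor.mem_degZero.1 D₀.2, smul_zero, sub_zero] at h0
  have hmk : Pic0.mk ⟨D', hdeg⟩ = (M.nodeUnit : ℤ) • y := by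
    rw [← hy', ← mul_zsmul, ← Nat.cast_mul, M.nodeUnit_mul, ← hk]
    exact (mk_eq_iff (D' := k • D₀)).2 hpr
  refine ⟨⟨D', hdeg⟩, hD'f, hmk, ?_, htriv⟩
  exact (mk_eq_zero_iff (D := (p : ℤ) • ⟨D', hdeg⟩)).1 (by
    show (p : ℤ) • Pic0.mk _ = 0
    rw [hmk, ← mul_zsmul, mul_comm, mul_zsmul, hy, zsmul_zero])

/-- The maximal unramified field as a level. -/
def unramifiedLevel (hp : p.Prime) (hA : A.LiesOverPrime p) : Level p A where
  H := A.inertiaSubgroupIn ℚ
  π := p
  e := 1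
  le_inertia := le_rfl
  fixed σ _ := map_natCast σ p
  ne_zero := Nat.cast_ne_zero.2 hp.ne_zero
  lt_one := EC.Mult.valuation_natCast_lt_one hA
  value _ hx hfix := EC.Mult.exists_zpow_of_inertia_fixed hp hA hx hfix
  e_pos := one_pos
  pow_e := pow_one _

/-- The tame field as a level. -/
def tameLevel (hp : p.Prime) (hA : A.LiesOverPrime p) {ζ : Qb} (hζ : IsPrimitiveRoot ζ p) :
    Level p A where
  H := wildGroup A ζ
  π := ζ - 1
  e := p - 1
  le_inertia _ hσ := hσ.1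
  fixed σ hσ := by rw [map_sub, map_one]; exact congrArg (· - 1) hσ.2
  ne_zero := sub_ne_zero.2 (hζ.ne_one hp.one_lt)
  lt_one := by
    rw [← pow_lt_one_iff_of_nonneg (n := p - 1) zero_le (by have := hp.two_le; omega),
      valuation_zeta_sub_one_pow hp hA hζ]
    exact EC.Mult.valuation_natCast_lt_one hA
  value _ hx hfix := exists_zpow_of_wildGroup_fixed hp hA hζ hx hfix
  e_pos := by have := hp.two_le; omega
  pow_e := valuation_zeta_sub_one_pow hp hA hζ

/-- **The residual lemma.** -/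
theorem eq_zero_of_picPow (hp : p.Prime) (hp3 : 3 ≤ p) (hA : A.LiesOverPrime p)
    (hr : ∀ y, M.IsNode y → ¬ p ∣ M.r y)
    {ζ : Qb} (hζ : IsPrimitiveRoot ζ p) (y : Pic0 Qb F) (hy : (p : ℤ) • y = 0)
    (hW : M.PicPow y p)
    (hfin : ∃ K : IntermediateField ℚ Qb, FiniteDimensional ℚ K ∧
      ∀ σ ∈ A.inertiaSubgroupIn ℚ, (∀ a ∈ K, σ a = a) → M.act σ • y = y)
    (hσ₀ : ∃ σ₀ ∈ A.inertiaSubgroupIn ℚ, σ₀ ζ ≠ ζ ∧ M.act σ₀ • y = y)
    (hχ : ∀ σ ∈ A.inertiaSubgroupIn ℚ, ∀ τ ∈ A.inertiaSubgroupIn ℚ, ∀ a : ℕ, σ ζ = ζ ^ a →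
      M.act σ • (M.act τ • y - y) = a • (M.act τ • y - y))
    (hcyc : ∀ σ ∈ wildGroup A ζ, ∀ τ ∈ wildGroup A ζ, M.act τ • y - y ≠ 0 →
      ∃ n : ℤ, M.act σ • y - y = n • (M.act τ • y - y)) : y = 0 := by
  have hnk : ¬ (p : ℤ) ∣ (M.nodeProd : ℤ) := fun h =>
    M.not_dvd_nodeProd hp hr (Int.natCast_dvd_natCast.1 h)
  have hpt : ∀ σ, (p : ℤ) • (M.act σ • y - y) = 0 := fun σ => by
    rw [zsmul_sub, ← SemilinearAut.smul_zsmul, hy, sub_zero]
    exact smul_zero (A := Pic0 Qb F) (M.act σ)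
  have hwild : ∀ σ ∈ wildGroup A ζ, ∀ τ ∈ A.inertiaSubgroupIn ℚ,
      M.act σ • (M.act τ • y - y) = M.act τ • y - y := fun σ hσ τ hτ =>
    (hχ σ hσ.1 τ hτ 1 (by rw [pow_one]; exact hσ.2)).trans (one_smul ℕ _)
  by_cases hall : ∀ τ ∈ wildGroup A ζ, M.act τ • y = y
  · -- unramified
    obtain ⟨σ₀, hσ₀I, hσ₀ζ, hσ₀y⟩ := hσ₀
    haveI : NeZero p := ⟨hp.ne_zero⟩
    have hfix : ∀ σ ∈ A.inertiaSubgroupIn ℚ, M.act σ • y = y := by
      intro σ hσ
      have hcomm : (σ₀ * σ)⁻¹ * (σ * σ₀) ∈ wildGroup A ζ := by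
        refine ⟨(A.inertiaSubgroupIn ℚ).mul_mem ((A.inertiaSubgroupIn ℚ).inv_mem
          ((A.inertiaSubgroupIn ℚ).mul_mem hσ₀I hσ)) ((A.inertiaSubgroupIn ℚ).mul_mem hσ hσ₀I), ?_⟩
        show ((σ₀ * σ)⁻¹ * (σ * σ₀)) ζ = ζ
        rw [AlgEquiv.mul_apply, AlgEquiv.aut_inv, AlgEquiv.symm_apply_eq, AlgEquiv.mul_apply,
          AlgEquiv.mul_apply]
        obtain ⟨i, -, hi⟩ := hζ.eq_pow_of_pow_eq_one
          (show (σ ζ) ^ p = 1 by rw [← map_pow, hζ.pow_eq_one, map_one])
        obtain ⟨j, -, hj⟩ := hζ.eq_pow_of_pow_eq_one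
          (show (σ₀ ζ) ^ p = 1 by rw [← map_pow, hζ.pow_eq_one, map_one])
        rw [← hj, map_pow, ← hi, map_pow, ← hj, ← pow_mul, ← pow_mul, mul_comm]
      have h1 := hall _ hcomm
      rw [map_mul, mul_smul, map_inv, inv_smul_eq_iff, map_mul, map_mul, mul_smul, mul_smul,
        hσ₀y] at h1
      obtain ⟨a, -, ha⟩ := hζ.eq_pow_of_pow_eq_one
        (show (σ₀ ζ) ^ p = 1 by rw [← map_pow, hζ.pow_eq_one, map_one])
      have h2 := hχ σ₀ hσ₀I σ hσ a ha.symm
      rw [smul_sub, ← h1, hσ₀y] at h2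
      have ha1 : ¬ (p : ℤ) ∣ (a : ℤ) - 1 := fun hd => hσ₀ζ (by
        obtain ⟨l, hl⟩ := hd
        rw [← ha, ← zpow_natCast, show (a : ℤ) = p * l + 1 by omega, zpow_add_one₀
          (hζ.ne_zero hp.ne_zero), zpow_mul, zpow_natCast, hζ.pow_eq_one, one_zpow, one_mul])
      refine sub_eq_zero.1 (eq_zero_of_zsmul hp ha1 (hpt σ) ?_)
      rw [sub_smul, one_smul, natCast_zsmul, ← h2, sub_self]
    obtain ⟨D, hDf, hDk, hpD, htriv⟩ :=
      M.exists_trivial_rep hp hA hr (unramifiedLevel hp hA) hy hW hfix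
    refine eq_zero_of_zsmul hp hnk hy ?_
    rw [← hDk, mk_eq_zero_iff]
    exact isPrincipal_of_unramified hp hp3 hA _ rfl D.2 hDf hpD htriv
  · exfalso
    push Not at hall
    obtain ⟨τ, hτ, hτy⟩ := hall
    have ht : M.act τ • y - y ≠ 0 := sub_ne_zero.2 hτy
    -- the cocycle on wild inertia is a homomorphism
    let c : wildGroup A ζ →* Multiplicative (Pic0 Qb F) :=
      { toFun := fun σ => Multiplicative.ofAdd (M.act (σ : Γℚ) • y - y)
        map_one' := by simp
        map_mul' := fun σ σ' => by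
          rw [← ofAdd_add]
          congr 1
          rw [Subgroup.coe_mul, map_mul, mul_smul]
          have h := hwild σ σ.2 σ' σ'.2.1
          rw [smul_sub] at h
          rw [← h]
          abel }
    have hcp : c ⟨τ, hτ⟩ ^ p = 1 := by
      show Multiplicative.ofAdd (M.act τ • y - y) ^ p = 1
      rw [← ofAdd_nsmul, ← natCast_zsmul, hpt, ofAdd_zero]
    have hgen : ∀ σ, c σ ∈ Subgroup.zpowers (c ⟨τ, hτ⟩) := fun σ => by
      obtain ⟨n, hn⟩ := hcyc σ σ.2 τ hτ ht
      exact Subgroup.mem_zpowers_iff.2 ⟨n, by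
        show Multiplicative.ofAdd (M.act τ • y - y) ^ n = Multiplicative.ofAdd _
        rw [← ofAdd_zsmul, hn]⟩
    have C := cyclicData_of_hom hp hA hζ c ⟨τ, hτ⟩ hcp hgen
    set H := c.ker.map (wildGroup A ζ).subtype with hH
    have hHy : ∀ σ ∈ H, M.act σ • y = y := by
      rintro _ ⟨σ, hσ, rfl⟩
      exact sub_eq_zero.1 (Multiplicative.ofAdd.injective
        ((MonoidHom.mem_ker.1 hσ).trans ofAdd_zero.symm))
    -- some element of the fixed field is moved
    obtain ⟨x, hxL, hxmove⟩ : ∃ x ∈ fixedSubfield H, τ x ≠ x := by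
      by_contra hcon
      push Not at hcon
      obtain ⟨K, hK, hKy⟩ := hfin
      haveI := hK
      let K' := IntermediateField.normalClosure ℚ K Qb
      haveI : IsAlgClosure ℚ Qb := ⟨inferInstance, AlgebraicClosure.isAlgebraic ℚ⟩
      haveI : Normal ℚ Qb := IsAlgClosure.normal ℚ Qb
      haveI : Normal ℚ K' := normalClosure.normal ℚ K Qb
      set res := AlgEquiv.restrictNormalHom (F := ℚ) (K₁ := Qb) K'
      have hres : res τ ∈ H.map res := by
        rw [← IntermediateField.fixingSubgroup_fixedField (H.map res),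
          IntermediateField.mem_fixingSubgroup_iff]
        intro z hz
        refine Subtype.ext ?_
        have hz' : (z : Qb) ∈ fixedSubfield H := mem_fixedSubfield.2 fun σ hσ => by
          have h := hz ⟨res σ, Subgroup.mem_map_of_mem res hσ⟩
          have h2 := congrArg Subtype.val h
          exact (AlgEquiv.restrictNormalHom_apply (F := ℚ) K' σ z).symm.trans h2
        exact (AlgEquiv.restrictNormalHom_apply (F := ℚ) K' τ z).trans (hcon _ hz')
      obtain ⟨h, hh, heq⟩ := hres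
      have hhI : h ∈ A.inertiaSubgroupIn ℚ := by
        obtain ⟨σ, -, rfl⟩ := hh
        exact σ.2.1
      refine hτy ?_
      have hfix : M.act (h⁻¹ * τ) • y = y := hKy _ (mul_mem (inv_mem hhI) hτ.1) fun a ha => by
        have ha' : a ∈ K' := K.le_normalClosure ha
        have h3 : AlgEquiv.restrictNormalHom (F := ℚ) K' (h⁻¹ * τ) = 1 := by
          rw [map_mul, map_inv]
          show (res h)⁻¹ * res τ = 1
          rw [heq, inv_mul_cancel]
        have h4 := AlgEquiv.restrictNormalHom_apply (F := ℚ) K' (h⁻¹ * τ) ⟨a, ha'⟩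
        exact ((congrArg (fun g : K' ≃ₐ[ℚ] K' => ((g ⟨a, ha'⟩ : K') : Qb)) h3).symm.trans h4).symm
      rw [map_mul, mul_smul, map_inv, inv_smul_eq_iff] at hfix
      rw [hfix, hHy h hh]
    obtain ⟨π, hπL, η, -, b, hb, hπ0, hπp, hπ1, hτπ, hη, hgroup, hmove⟩ :=
      C.exists_break_of_moved hxL hxmove
    let L : Level p A :=
      { H := H
        π := π
        e := p * (p - 1)
        le_inertia := by rintro _ ⟨σ, -, rfl⟩; exact σ.2.1
        fixed := mem_fixedSubfield.1 hπL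
        ne_zero := hπ0
        lt_one := hπ1
        value := fun z hz hfix => hgroup z (mem_fixedSubfield.2 hfix) hz
        e_pos := Nat.mul_pos hp.pos (by omega)
        pow_e := by rw [pow_mul, hπp]; exact valuation_zeta_sub_one_pow hp hA hζ }
    have hnorm : ∀ σ ∈ H, τ⁻¹ * σ * τ ∈ H := by
      rintro _ ⟨σ, hσ, rfl⟩
      refine ⟨(⟨τ, hτ⟩ : wildGroup A ζ)⁻¹ * σ * (⟨τ, hτ⟩ : wildGroup A ζ), ?_, ?_⟩
      · rw [SetLike.mem_coe, MonoidHom.mem_ker, map_mul, map_mul, map_inv,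
          MonoidHom.mem_ker.1 hσ, mul_one, inv_mul_cancel]
      · simp
    obtain ⟨D, hDf, hDk, hpD, hD1⟩ := M.exists_trivial_rep hp hA hr L hy hW hHy
    obtain ⟨E, hEf, hEk, hpE, hE1⟩ :=
      M.exists_trivial_rep hp hA hr (tameLevel hp hA hζ) (hpt τ) (M.picPow_act_sub hp.pos hτ.1 hy)
        fun σ hσ => hwild σ hσ τ hτ.1
    have hEnp : ¬ Divisor.IsPrincipal (E : Divisor Qb F) := fun hpr => by
      have h0 : Pic0.mk E = 0 := (mk_eq_zero_iff (D := E)).2 hpr
      rw [hEk] at h0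
      exact ht (eq_zero_of_zsmul hp hnk (hpt τ) h0)
    have hDE : Pic0.mk (SemilinearAut.degZeroSMulHom (M.act τ) D) - Pic0.mk D - Pic0.mk E = 0 := by
      rw [← SemilinearAut.pic0_smul_mk, hDk, hEk, SemilinearAut.smul_zsmul, zsmul_sub, sub_self]
    have hDE' : Divisor.IsPrincipal
        (M.act τ • (D : Divisor Qb F) - (D : Divisor Qb F) - (E : Divisor Qb F)) :=
      (mk_eq_zero_iff (D := SemilinearAut.degZeroSMulHom (M.act τ) D - D - E)).1 hDE
    exact M.no_wild_moved hp hp3 hA (tameLevel hp hA hζ) L rfl rfl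
      (by rintro _ ⟨σ, -, rfl⟩; exact σ.2) τ hτ.1 hnorm η b hb hτπ hη
      (fun z hz hzA => hmove z (mem_fixedSubfield.2 hz) hzA) hDf hpD hD1 E.2 hEf hpE hEnp hE1 hDE'

end TwoCompData

end Fermat.Agent.LevelP
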