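import Fermat.Agent.LevelP.Ordinary.PNewCore
import Fermat.Agent.RT.LocalAtP.StrictOrdinary
import Fermat.Agent.Density.Conj
import Mathlib.RingTheory.DiscreteValuationRing.Basic
import Mathlib.LinearAlgebra.Matrix.Charpoly.LinearMap
import Mathlib.LinearAlgebra.Matrix.NonsingularInverse

/-!
# Strict ordinarity of a lattice inside the new torsion of two-component data

A plane over a discrete valuation ring whose reductions modulo `p ^ n` embed in powers of the
`p ^ n`-torsion classes which are new at `p`, residually ordinary at the place: the submodule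
carried into classes with power residues contains every `(R σ - 1) v` for inertia and every
`(R σ ^ 2 - 1) v` for decomposition; if it were larger than a line modulo some `p ^ n`, some
nonzero new class with `p`-th power residues would be fixed by an inertia element moving `ζ`.
So the plane satisfies the strict ordinary equations.

Owner: helper46.
-/

set_option autoImplicit false

noncomputable section

namespace Fermat.Agent.LevelP

open AlgebraicCurve Fermat.Agent.Curve IsLocalRing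
open scoped Pointwise

local notation "Qb" => AlgebraicClosure ℚ
local notation "Γℚ" => (AlgebraicClosure ℚ ≃ₐ[ℚ] AlgebraicClosure ℚ)

/-- The ordinary equation at a place with respect to `σ₀`. -/
def OrdEqn {O : Type*} [CommRing O] (A : ValuationSubring Qb) (σ₀ : Γℚ)
    (R : Γℚ →* Matrix (Fin 2) (Fin 2) O) : Prop :=
  ∀ σ ∈ A.inertiaSubgroupIn ℚ, ((R σ₀).det • 1 - R σ₀) * (R σ - 1) = 0

/-- The determinant is the cyclotomic character modulo `p`. -/
def DetModP {O : Type*} [CommRing O] (p : ℕ) (ζ : Qb)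
    (R : Γℚ →* Matrix (Fin 2) (Fin 2) O) : Prop :=
  ∀ (σ : Γℚ) (a : ℕ), σ ζ = ζ ^ a → (p : O) ∣ (R σ).det - a

namespace TwoCompData

variable {p : ℕ} {A : ValuationSubring Qb} {F : Type*} [Field F] [Algebra Qb F]
  {Fb : Type*} [Field Fb] [Algebra (ResidueField A) Fb] (M : TwoCompData p A F Fb)
  [IsFunctionField1 Qb F] [IsFunctionField1 (ResidueField A) Fb] [IsAlgClosed (ResidueField A)]

omit [IsFunctionField1 (ResidueField A) Fb] in
theorem powResidue_add {q : ℕ} (hq : 0 < q) {D D' : Divisor Qb F}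
    (hD : Divisor.IsPrincipal ((q : ℤ) • D)) (hD' : Divisor.IsPrincipal ((q : ℤ) • D'))
    (h : M.PowResidue D q) (h' : M.PowResidue D' q) : M.PowResidue (D + D') q := by
  obtain ⟨f, hf, hford⟩ := hD
  obtain ⟨f', hf', hford'⟩ := hD'
  refine M.powResidue_of_exists hq fun i => ?_
  obtain ⟨c, hc, hcv⟩ := M.exists_scalar i hf
  obtain ⟨c', hc', hcv'⟩ := M.exists_scalar i hf'
  have hc0 := (map_ne_zero (algebraMap Qb F)).2 hc
  have hc0' := (map_ne_zero (algebraMap Qb F)).2 hc'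
  obtain ⟨u, hu⟩ := h i _ (mul_ne_zero hc0 hf) (fun P => by
    rw [P.ord_mul hc0 hf, Fermat.Agent.Curve.ord_algebraMap, zero_add, hford P]) hcv
  obtain ⟨u', hu'⟩ := h' i _ (mul_ne_zero hc0' hf') (fun P => by
    rw [P.ord_mul hc0' hf', Fermat.Agent.Curve.ord_algebraMap, zero_add, hford' P]) hcv'
  refine ⟨_, mul_ne_zero (mul_ne_zero hc0 hf) (mul_ne_zero hc0' hf'), fun P => ?_,
    by rw [map_mul, hcv, hcv', one_mul], u * u', ?_⟩
  · rw [P.ord_mul (mul_ne_zero hc0 hf) (mul_ne_zero hc0' hf'), P.ord_mul hc0 hf,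
      P.ord_mul hc0' hf', Fermat.Agent.Curve.ord_algebraMap, Fermat.Agent.Curve.ord_algebraMap,
      ← hford P, ← hford' P, smul_add, Finsupp.add_apply]
    ring
  · rw [residueAt_mul (M.mem_of_valuation_eq_one hcv) (M.mem_of_valuation_eq_one hcv'), mul_pow,
      hu, hu']

omit [IsFunctionField1 (ResidueField A) Fb] in
theorem powResidue_neg {q : ℕ} (hq : 0 < q) {D : Divisor Qb F}
    (hD : Divisor.IsPrincipal ((q : ℤ) • D)) (h : M.PowResidue D q) : M.PowResidue (-D) q := by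
  obtain ⟨f, hf, hford⟩ := hD
  refine M.powResidue_of_exists hq fun i => ?_
  obtain ⟨c, hc, hcv⟩ := M.exists_scalar i hf
  have hc0 := (map_ne_zero (algebraMap Qb F)).2 hc
  obtain ⟨u, hu⟩ := h i _ (mul_ne_zero hc0 hf) (fun P => by
    rw [P.ord_mul hc0 hf, Fermat.Agent.Curve.ord_algebraMap, zero_add, hford P]) hcv
  refine ⟨_, inv_ne_zero (mul_ne_zero hc0 hf), fun P => ?_, by rw [map_inv₀, hcv, inv_one],
    u⁻¹, ?_⟩
  · rw [P.ord_inv, P.ord_mul hc0 hf, Fermat.Agent.Curve.ord_algebraMap, zero_add, ← hford P,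
      smul_neg, Finsupp.neg_apply]
  · rw [residueAt_inv hcv, inv_pow, hu]

omit [IsFunctionField1 (ResidueField A) Fb] in
theorem picPow_add {q : ℕ} (hq : 0 < q) {x x' : Pic0 Qb F} (hx : (q : ℤ) • x = 0)
    (hx' : (q : ℤ) • x' = 0) (h : M.PicPow x q) (h' : M.PicPow x' q) : M.PicPow (x + x') q := by
  obtain ⟨D, rfl⟩ := Pic0.mk_surjective x
  obtain ⟨D', rfl⟩ := Pic0.mk_surjective x'
  have hD : Divisor.IsPrincipal ((q : ℤ) • (D : Divisor Qb F)) :=
    (mk_eq_zero_iff (D := (q : ℤ) • D)).1 hx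
  have hD' : Divisor.IsPrincipal ((q : ℤ) • (D' : Divisor Qb F)) :=
    (mk_eq_zero_iff (D := (q : ℤ) • D')).1 hx'
  refine M.picPow_mk (D := D + D') hq ?_ (M.powResidue_add hq hD hD' (h D rfl) (h' D' rfl))
  show Divisor.IsPrincipal ((q : ℤ) • ((D : Divisor Qb F) + (D' : Divisor Qb F)))
  rw [smul_add]
  exact Divisor.principal.add_mem hD hD'

omit [IsFunctionField1 (ResidueField A) Fb] in
theorem picPow_neg {q : ℕ} (hq : 0 < q) {x : Pic0 Qb F} (hx : (q : ℤ) • x = 0)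
    (h : M.PicPow x q) : M.PicPow (-x) q := by
  obtain ⟨D, rfl⟩ := Pic0.mk_surjective x
  have hD : Divisor.IsPrincipal ((q : ℤ) • (D : Divisor Qb F)) :=
    (mk_eq_zero_iff (D := (q : ℤ) • D)).1 hx
  refine M.picPow_mk (D := -D) hq ?_ (M.powResidue_neg hq hD (h D rfl))
  show Divisor.IsPrincipal ((q : ℤ) • (-(D : Divisor Qb F)))
  rw [smul_neg]
  exact Divisor.principal.neg_mem hD

omit [IsFunctionField1 (ResidueField A) Fb] in
theorem picPow_zero {q : ℕ} (hq : 0 < q) : M.PicPow (0 : Pic0 Qb F) q := by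
  refine M.picPow_mk (D := 0) hq ?_ (M.powResidue_of_exists hq fun i => ⟨1, one_ne_zero,
    fun P => ?_, map_one _, 1, ?_⟩)
  · show Divisor.IsPrincipal ((q : ℤ) • (0 : Divisor Qb F))
    rw [smul_zero]
    exact Divisor.principal.zero_mem
  · rw [P.ord_one]
    show ((q : ℤ) • (0 : Divisor Qb F)) P = 0
    rw [smul_zero, Finsupp.zero_apply]
  · rw [one_pow, M.residueAt_one]

omit [IsFunctionField1 (ResidueField A) Fb] in
/-- For classes killed by `p ^ a`, `p ^ n`-th power residues are `p ^ a`-th power residues. -/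
theorem picPow_of_picPow_pow (hp : p.Prime) (hA : A.LiesOverPrime p) {a n : ℕ} (hn : a ≤ n)
    {x : Pic0 Qb F} (hx : ((p ^ a : ℕ) : ℤ) • x = 0) (h : M.PicPow x (p ^ n)) :
    M.PicPow x (p ^ a) := by
  haveI := charP_fibreField hp hA Fb
  haveI : Fact p.Prime := ⟨hp⟩
  obtain ⟨D, rfl⟩ := Pic0.mk_surjective x
  obtain ⟨f, hf, hford⟩ := (mk_eq_zero_iff (D := ((p ^ a : ℕ) : ℤ) • D)).1 hx
  refine M.picPow_mk (pow_pos hp.pos a) ⟨f, hf, hford⟩
    (M.powResidue_of_exists (pow_pos hp.pos a) fun i => ?_)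
  obtain ⟨c, hc, hcv⟩ := M.exists_scalar i hf
  have hc0 := (map_ne_zero (algebraMap Qb F)).2 hc
  have hg0 : algebraMap Qb F c * f ≠ 0 := mul_ne_zero hc0 hf
  have hgord : ∀ P : Place Qb F,
      (((p ^ a : ℕ) : ℤ) • (D : Divisor Qb F)) P = P.ord (algebraMap Qb F c * f) := fun P => by
    rw [P.ord_mul hc0 hf, Fermat.Agent.Curve.ord_algebraMap, zero_add, ← hford P]
    rfl
  obtain ⟨u, hu⟩ := h D rfl i ((algebraMap Qb F c * f) ^ p ^ (n - a)) (pow_ne_zero _ hg0)
    (fun P => by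
      rw [Fermat.Agent.Curve.ord_pow, ← hgord P, Finsupp.smul_apply, Finsupp.smul_apply,
        smul_eq_mul, smul_eq_mul, ← mul_assoc, ← Nat.cast_mul, ← pow_add, Nat.sub_add_cancel hn])
    (by rw [map_pow, hcv, one_pow])
  refine ⟨_, hg0, hgord, hcv, u, iterateFrobenius_inj Fb p (n - a) ?_⟩
  simp only [iterateFrobenius_def]
  rw [← pow_mul, ← pow_add, Nat.add_sub_cancel' hn, hu,
    residueAt_pow (M.mem_of_valuation_eq_one hcv)]

variable {O : Type} [CommRing O] [IsDomain O] [IsDiscreteValuationRing O]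

/-- The plane modulo `p ^ n` sits in powers of the torsion classes, compatibly with Galois. -/
def EmbedsLevel (Q : Pic0 Qb F → Prop) (R : Γℚ →* Matrix (Fin 2) (Fin 2) O) (n : ℕ) : Prop :=
  ∃ (m : ℕ) (f : (Fin 2 → O) →+ (Fin m → Pic0 Qb F)),
    (∀ v, f v = 0 ↔ ∃ w, v = ((p : O) ^ n) • w) ∧ (∀ v j, p ^ n • f v j = 0) ∧
      (∀ σ v j, f ((R σ).mulVec v) j = M.act σ • f v j) ∧ ∀ v j, Q (f v j)

omit [IsFunctionField1 Qb F] [IsFunctionField1 (ResidueField A) Fb]
  [IsAlgClosed (ResidueField A)] [IsDomain O] [IsDiscreteValuationRing O] in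
theorem EmbedsLevel.conj {M : TwoCompData p A F Fb} {Q : Pic0 Qb F → Prop}
    {R : Γℚ →* Matrix (Fin 2) (Fin 2) O} {n : ℕ} (h : M.EmbedsLevel Q R n) (P : (Matrix (Fin 2) (Fin 2) O)ˣ)
    {R' : Γℚ →* Matrix (Fin 2) (Fin 2) O}
    (hR : ∀ σ, (P : Matrix (Fin 2) (Fin 2) O) * R' σ = R σ * P) : M.EmbedsLevel Q R' n := by
  obtain ⟨m, f, hker, htor, heq, hQ⟩ := h
  refine ⟨m, f.comp (Matrix.mulVecLin (P : Matrix (Fin 2) (Fin 2) O)).toAddMonoidHom,
    fun v => ?_, fun v j => htor _ j,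
    fun σ v j => ?_, fun v j => hQ _ j⟩
  · show f ((P : Matrix (Fin 2) (Fin 2) O).mulVec v) = 0 ↔ _
    rw [hker]
    constructor
    · rintro ⟨w, hw⟩
      refine ⟨(↑P⁻¹ : Matrix (Fin 2) (Fin 2) O).mulVec w, ?_⟩
      have h := congrArg (↑P⁻¹ : Matrix (Fin 2) (Fin 2) O).mulVec hw
      rwa [Matrix.mulVec_mulVec, Units.inv_mul, Matrix.one_mulVec, Matrix.mulVec_smul] at h
    · rintro ⟨w, rfl⟩
      exact ⟨(P : Matrix (Fin 2) (Fin 2) O).mulVec w, Matrix.mulVec_smul _ _ _⟩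
  · show f ((P : Matrix (Fin 2) (Fin 2) O).mulVec ((R' σ).mulVec v)) j =
      M.act σ • f ((P : Matrix (Fin 2) (Fin 2) O).mulVec v) j
    rw [Matrix.mulVec_mulVec, hR, ← Matrix.mulVec_mulVec, heq]

/-- **The core**: in adapted coordinates the operators carrying the plane into classes with power
residues have second row zero. -/
theorem row_eq_zero (hp : p.Prime) (hp3 : 3 ≤ p) (hA : A.LiesOverPrime p)
    {ζ : Qb}
    (hζ : IsPrimitiveRoot ζ p) [CharZero O] (hpO : (p : O) ∈ maximalIdeal O)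
    {σ₀ : Γℚ} (hσ₀ : σ₀ ∈ A.inertiaSubgroupIn ℚ) (hσ₀ζ : σ₀ ζ ≠ ζ)
    {R : Γℚ →* Matrix (Fin 2) (Fin 2) O} {Q : Pic0 Qb F → Prop}
    (hQ : ∀ x, Q x → ∀ k : ℤ, M.PNew (k • x))
    (hemb : ∀ n, M.EmbedsLevel Q R n)
    (hfin : ∀ y : Pic0 Qb F, ∃ K : IntermediateField ℚ Qb, FiniteDimensional ℚ K ∧
      ∀ σ : Γℚ, (∀ a ∈ K, σ a = a) → M.act σ • y = y)
    (hR₀ : residue O (R σ₀ 0 1) = 0) (hR₀' : residue O (R σ₀ 1 1) = 1)
    (hline : ∀ c : O, ∃ (σ : Γℚ) (w : Fin 2 → O), σ ∈ A.inertiaSubgroupIn ℚ ∧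
      (R σ).mulVec w - w = c • ![1, 0])
    (Φ : Matrix (Fin 2) (Fin 2) O)
    (hΦ : ∀ (n m : ℕ) (f : (Fin 2 → O) →+ (Fin m → Pic0 Qb F)),
      (∀ v j, p ^ n • f v j = 0) → (∀ σ v j, f ((R σ).mulVec v) j = M.act σ • f v j) →
      (∀ v j, Q (f v j)) → ∀ v j, M.PicPow (f (Φ.mulVec v) j) (p ^ n)) :
    Φ 1 0 = 0 ∧ Φ 1 1 = 0 := by
  obtain ⟨ϖ, hϖ⟩ := IsDiscreteValuationRing.exists_irreducible O
  have hp0 : (p : O) ≠ 0 := Nat.cast_ne_zero.2 hp.ne_zero
  obtain ⟨e, u, hu⟩ := IsDiscreteValuationRing.associated_pow_irreducible hp0 hϖ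
  have he : 0 < e := by
    rcases Nat.eq_zero_or_pos e with rfl | h
    · exact absurd hpO (IsLocalRing.notMem_maximalIdeal.2
        ((isUnit_of_mul_isUnit_left (y := (u : O)) (by rw [hu, pow_zero]; exact isUnit_one))))
    · exact h
  have hpk : ∀ k : ℕ, ϖ ^ (e * k) ∣ (p : O) ^ k ∧ (p : O) ^ k ∣ ϖ ^ (e * k) := fun k => by
    rw [pow_mul, ← hu, mul_pow, ← Units.val_pow_eq_pow_val]
    exact ⟨Units.mul_right_dvd.2 dvd_rfl, dvd_mul_right _ _⟩
  -- every entry of the second row is divisible by every power of `p`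
  suffices key : ∀ (v : Fin 2 → O) (n : ℕ), 0 < n → (p : O) ^ n ∣ (Φ.mulVec v) 1 by
    have hzero : ∀ v : Fin 2 → O, (Φ.mulVec v) 1 = 0 := fun v => by
      by_contra hne
      obtain ⟨k, w, hw⟩ := IsDiscreteValuationRing.associated_pow_irreducible hne hϖ
      have hd : ϖ ^ (e * (k + 1)) ∣ (Φ.mulVec v) 1 :=
        (hpk (k + 1)).1.trans (key v (k + 1) k.succ_pos)
      have h2 : ϖ ^ (k + 1) ∣ ϖ ^ k := by
        rw [← hw]
        exact (pow_dvd_pow ϖ (Nat.le_mul_of_pos_left (k + 1) he)).trans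
          (hd.trans (dvd_mul_right _ _))
      exact absurd ((pow_dvd_pow_iff hϖ.ne_zero hϖ.not_isUnit).1 h2) (by omega)
    exact ⟨by simpa [Matrix.mulVec, dotProduct, Fin.sum_univ_two] using hzero ![1, 0],
      by simpa [Matrix.mulVec, dotProduct, Fin.sum_univ_two] using hzero ![0, 1]⟩
  intro v₁ n₀ hn₀
  by_contra hndvd₀
  -- work at a level higher by the exponent of the nodes
  set N := M.nodeExp with hN
  set n := n₀ + N with hn_def
  have hn : 0 < n := by omega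
  set c := (Φ.mulVec v₁) 1 with hcdef
  obtain ⟨m, f, hker, htor, heq, hfQ⟩ := hemb n
  have hq : 0 < p ^ n := pow_pos hp.pos n
  have htorZ : ∀ v j, ((p ^ n : ℕ) : ℤ) • f v j = 0 := fun v j => by
    rw [natCast_zsmul]; exact htor v j
  -- the classes with power residues
  let X : AddSubgroup (Fin 2 → O) :=
    { carrier := {v | ∀ j, M.PicPow (f v j) (p ^ n)}
      zero_mem' := fun j => by
        rw [map_zero]
        exact M.picPow_zero hq
      add_mem' := fun {a b} ha hb j => by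
        rw [map_add, Pi.add_apply]
        exact M.picPow_add hq (htorZ _ j) (htorZ _ j) (ha j) (hb j)
      neg_mem' := fun {a} ha j => by
        rw [map_neg, Pi.neg_apply]
        exact M.picPow_neg hq (htorZ _ j) (ha j) }
  have hX : ∀ σ ∈ A.inertiaSubgroupIn ℚ, ∀ v, (R σ).mulVec v - v ∈ X := fun σ hσ v j => by
    rw [map_sub, Pi.sub_apply, heq]
    exact M.picPow_act_sub hq hσ (htorZ v j)
  have hXc : ∀ x : O, x • (![0, c] : Fin 2 → O) ∈ X := fun x => by
    obtain ⟨τ, w, hτ, hw⟩ := hline (x * (Φ.mulVec v₁) 0)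
    have h := X.sub_mem (show Φ.mulVec (x • v₁) ∈ X from hΦ n m f htor heq hfQ _) (hX τ hτ w)
    rw [Matrix.mulVec_smul, hw] at h
    convert h using 1
    funext i
    fin_cases i <;> simp [hcdef, Matrix.vecHead, Matrix.vecTail]
  -- `ϖ ^ (n e - 1) e₁` is a multiple of `c e₁` divisible by `p ^ N`
  obtain ⟨r₀, hcr₀⟩ : c ∣ ϖ ^ (n₀ * e - 1) := by
    have hc0 : c ≠ 0 := fun h => hndvd₀ (by rw [h]; exact dvd_zero _)
    obtain ⟨k, w, hw⟩ := IsDiscreteValuationRing.associated_pow_irreducible hc0 hϖ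
    have hk : k ≤ n₀ * e - 1 := by
      by_contra hcon
      refine hndvd₀ ?_
      have h1 : ϖ ^ (e * n₀) ∣ c := by
        refine dvd_trans (pow_dvd_pow ϖ (show e * n₀ ≤ k by rw [Nat.mul_comm]; omega)) ?_
        rw [← hw]
        exact Units.mul_right_dvd.2 dvd_rfl
      rw [pow_mul, ← hu, mul_pow, ← Units.val_pow_eq_pow_val] at h1
      exact (dvd_mul_right _ _).trans h1
    refine dvd_trans ?_ (pow_dvd_pow ϖ hk)
    rw [← hw]
    exact dvd_mul_right _ _
  set ε := ϖ ^ (n * e - 1) with hε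
  have hne : 1 ≤ n * e := Nat.mul_pos hn he
  have hpϖ : (p : O) ^ n ∣ ε * ϖ := by
    rw [hε, ← pow_succ, Nat.sub_add_cancel hne, Nat.mul_comm, pow_mul, ← hu, mul_pow]
    exact dvd_mul_right _ _
  have hnot : ¬ (p : O) ^ n ∣ ε := by
    intro h
    have h1 : ϖ ^ (e * n) ∣ ε := by
      refine dvd_trans ?_ h
      rw [pow_mul, ← hu, mul_pow, ← Units.val_pow_eq_pow_val]
      exact Units.mul_right_dvd.2 dvd_rfl
    rw [hε, pow_dvd_pow_iff hϖ.ne_zero hϖ.not_isUnit, Nat.mul_comm] at h1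
    omega
  -- `φ` factors through the residual plane
  have hφ : ∀ v : Fin 2 → O, (∀ i, residue O (v i) = 0) → f (ε • v) = 0 := fun v hv => by
    rw [hker]
    have hd : ∀ i, ∃ w, ε * v i = (p : O) ^ n * w := fun i => by
      have hmem := (IsLocalRing.residue_eq_zero_iff _).1 (hv i)
      rw [hϖ.maximalIdeal_eq, Ideal.mem_span_singleton] at hmem
      obtain ⟨t, ht⟩ := hmem
      obtain ⟨w, hw⟩ := hpϖ
      exact ⟨w * t, by rw [ht, ← mul_assoc, hw, mul_assoc]⟩
    choose w hw using hd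
    exact ⟨w, funext fun i => by simpa using hw i⟩
  have hφeq : ∀ v v' : Fin 2 → O, (∀ i, residue O (v i) = residue O (v' i)) →
      f (ε • v) = f (ε • v') := fun v v' h => by
    rw [← sub_eq_zero, ← map_sub, ← smul_sub]
    exact hφ _ fun i => by rw [Pi.sub_apply, map_sub, h i, sub_self]
  have hres0 : ∀ i, residue O (((R σ₀).mulVec ![0, 1]) i) = residue O ((![0, 1] : Fin 2 → O) i) :=
    fun i => by
      fin_cases i
      · simpa [Matrix.mulVec, dotProduct, Fin.sum_univ_two] using hR₀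
      · simpa [Matrix.mulVec, dotProduct, Fin.sum_univ_two] using hR₀'
  -- a nonzero coordinate
  obtain ⟨j, hj⟩ : ∃ j, f (ε • ![0, 1]) j ≠ 0 := by
    by_contra hcon
    push Not at hcon
    obtain ⟨w, hw⟩ := (hker _).1 (funext hcon)
    exact hnot ⟨w 1, by simpa using congrFun hw 1⟩
  set y := f (ε • ![0, 1]) j with hy_def
  set ε₀ := ϖ ^ (n₀ * e - 1) * (u : O) ^ N with hε₀
  set y' := f (ε₀ • ![0, 1]) j with hy'_def
  have hεε₀ : (p : O) ^ N * ε₀ = ε := by
    have hn₀e : 1 ≤ n₀ * e := Nat.mul_pos hn₀ he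
    have hexp : n * e - 1 = e * N + (n₀ * e - 1) := by
      rw [hn_def, Nat.add_mul, Nat.mul_comm N e]
      omega
    rw [hε₀, hε, hexp, pow_add, pow_mul, ← hu, mul_pow]
    ring
  have hy' : ((p ^ M.nodeExp : ℕ) : ℤ) • y' = y := by
    rw [natCast_zsmul, hy'_def, ← Pi.smul_apply, ← map_nsmul, ← Nat.cast_smul_eq_nsmul O,
      smul_smul, Nat.cast_pow, hεε₀]
  have hpy : (p : ℤ) • y = 0 := by
    rw [hy_def, natCast_zsmul, ← Pi.smul_apply, ← map_nsmul]
    refine congrFun ((hker _).2 ?_) j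
    have hd : (p : O) ^ n ∣ (p : O) * ε := by
      refine hpϖ.trans ?_
      rw [mul_comm ε]
      exact mul_dvd_mul_right ((dvd_pow_self ϖ (show e * 1 ≠ 0 by omega)).trans
        ((hpk 1).1.trans (by rw [pow_one]))) ε
    obtain ⟨w, hw⟩ := hd
    refine ⟨w • ![0, 1], ?_⟩
    rw [← Nat.cast_smul_eq_nsmul O, smul_smul, smul_smul, hw]
  have hy'tor : ((p ^ (N + 1) : ℕ) : ℤ) • y' = 0 := by
    rw [pow_succ', Nat.cast_mul, mul_zsmul, hy', hpy]
  have hW : M.PicPow y' (p ^ (N + 1)) := by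
    refine M.picPow_of_picPow_pow hp hA (a := N + 1) (n := n) (by omega) hy'tor ?_
    have h := hXc (r₀ * (u : O) ^ N) j
    rwa [show (r₀ * (u : O) ^ N) • (![0, c] : Fin 2 → O) = ε₀ • ![0, 1] by
      funext i; fin_cases i <;> simp [hε₀, hcr₀] <;> ring] at h
  refine hj (eq_zero_of_pNew hp hp3 hA hζ y hpy hy' hW (hQ y (hfQ _ j)) (hfin y') hσ₀ hσ₀ζ ?_)
  rw [hy_def, ← heq, Matrix.mulVec_smul]
  exact congrFun (hφeq _ _ hres0) j

/-- **Strict ordinarity of the plane.** -/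
theorem strictOrdEqns_of_embedsLevel (hp : p.Prime) (hp3 : 3 ≤ p) (hA : A.LiesOverPrime p)
    {ζ : Qb}
    (hζ : IsPrimitiveRoot ζ p) [CharZero O] (hpO : (p : O) ∈ maximalIdeal O)
    {σ₀ : Γℚ} (hσ₀ : σ₀ ∈ A.inertiaSubgroupIn ℚ) (hσ₀ζ : σ₀ ζ ≠ ζ)
    {R : Γℚ →* Matrix (Fin 2) (Fin 2) O}
    (hdetn : ∀ (σ : Γℚ) (n a : ℕ), RT.ActsByExp p n σ a →
      (R σ).det - (a : O) ∈ Ideal.span {((p ^ n : ℕ) : O)})
    {Q : Pic0 Qb F → Prop} (hQ : ∀ x, Q x → ∀ k : ℤ, M.PNew (k • x))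
    (hQfrob : ∀ x, Q x → ∀ q : ℕ, 0 < q → (q : ℤ) • x = 0 →
      ∀ σ ∈ A.decompositionSubgroup ℚ,
        M.PicPow (M.act σ • (M.act σ • (M.act σ • x - x)) - (M.act σ • x - x)) q)
    (hemb : ∀ n, M.EmbedsLevel Q R n)
    (hfin : ∀ y : Pic0 Qb F, ∃ K : IntermediateField ℚ Qb, FiniteDimensional ℚ K ∧
      ∀ σ : Γℚ, (∀ a ∈ K, σ a = a) → M.act σ • y = y)
    (hres : OrdEqn A σ₀ ((RingHom.mapMatrix (residue O)).toMonoidHom.comp R)) :
    RT.StrictOrdEqns p A σ₀ R := by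
  haveI : NeZero p := ⟨hp.ne_zero⟩
  set S := (RingHom.mapMatrix (residue O)).toMonoidHom.comp R with hS
  obtain ⟨a₀, -, ha₀⟩ := hζ.eq_pow_of_pow_eq_one
    (show (σ₀ ζ) ^ p = 1 by rw [← map_pow, hζ.pow_eq_one, map_one])
  have hSdet : ∀ σ, (S σ).det = residue O (R σ).det := fun σ => (RingHom.map_det _ _).symm
  have hdet : DetModP p ζ R := fun σ a ha => by
    refine Ideal.mem_span_singleton.1 ?_
    simpa using hdetn σ 1 a fun μ hμ => by
      obtain ⟨i, -, rfl⟩ := hζ.eq_pow_of_pow_eq_one (by simpa using hμ)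
      rw [map_pow, ha, ← pow_mul, ← pow_mul, mul_comm]
  -- `d - 1` is a unit
  have hd1 : residue O (R σ₀).det ≠ 1 := by
    intro h
    obtain ⟨t, ht⟩ := hdet σ₀ a₀ ha₀.symm
    have h1 : ((a₀ : ℤ) - 1 : ℤ) • (1 : ResidueField O) = 0 := by
      rw [zsmul_one, Int.cast_sub, Int.cast_natCast, Int.cast_one, ← h,
        ← map_natCast (residue O) a₀, ← map_sub, ← neg_sub, ht, map_neg, map_mul,
        (IsLocalRing.residue_eq_zero_iff _).2 hpO, zero_mul, neg_zero]
    have h2 : (p : ℤ) • (1 : ResidueField O) = 0 := by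
      rw [zsmul_one, Int.cast_natCast, ← map_natCast (residue O), (IsLocalRing.residue_eq_zero_iff _).2 hpO]
    refine one_ne_zero (eq_zero_of_zsmul hp (fun hd => hσ₀ζ ?_) h2 h1)
    obtain ⟨l, hl⟩ := hd
    rw [← ha₀, ← zpow_natCast, show (a₀ : ℤ) = p * l + 1 by omega, zpow_add_one₀
      (hζ.ne_zero hp.ne_zero), zpow_mul, zpow_natCast, hζ.pow_eq_one, one_zpow, one_mul]
  -- the trace at `σ₀`
  set d := residue O (R σ₀).det with hd
  have h0 := hres σ₀ hσ₀
  rw [hSdet, ← hd] at h0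
  have hCH : S σ₀ * S σ₀ - (S σ₀).trace • S σ₀ + (S σ₀).det • 1 = 0 := by
    ext i j
    fin_cases i <;> fin_cases j <;>
      simp [Matrix.mul_apply, Fin.sum_univ_two, Matrix.trace_fin_two, Matrix.det_fin_two] <;> ring
  rw [hSdet, ← hd] at hCH
  have htr : (S σ₀).trace = d + 1 := by
    have h1 : (d + 1 - (S σ₀).trace) • S σ₀ = 0 := by
      have h2 : (d + 1 - (S σ₀).trace) • S σ₀ =
          (d • (1 : Matrix (Fin 2) (Fin 2) (ResidueField O)) - S σ₀) * (S σ₀ - 1) +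
            (S σ₀ * S σ₀ - (S σ₀).trace • S σ₀ + d • 1) := by
        simp only [sub_mul, mul_sub, mul_one, smul_mul_assoc, one_mul, sub_smul, add_smul, one_smul]
        abel
      rw [h2, h0, hCH, add_zero]
    by_contra hne
    have hne' : d + 1 - (S σ₀).trace ≠ 0 := sub_ne_zero.2 (Ne.symm hne)
    have h2 := congrArg Matrix.det ((smul_eq_zero.1 h1).resolve_left hne')
    rw [hSdet, Matrix.det_zero] at h2
    have hu : IsUnit (R σ₀) := isUnit_iff_exists.2 ⟨R σ₀⁻¹,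
      by rw [← map_mul, mul_inv_cancel, map_one], by rw [← map_mul, inv_mul_cancel, map_one]⟩
    exact (IsUnit.map (residue O) ((Matrix.isUnit_iff_isUnit_det _).1 hu)).ne_zero h2
  -- adapted basis
  set E := R σ₀ - 1 with hE
  set G := (R σ₀).det • (1 : Matrix (Fin 2) (Fin 2) O) - R σ₀ with hG
  have hne : ∀ X : Matrix (Fin 2) (Fin 2) O, residue O X.trace ≠ 0 →
      ∃ w : Fin 2 → O, ∃ i, residue O (X.mulVec w i) ≠ 0 := by
    intro X hX
    rw [Matrix.trace_fin_two, map_add] at hX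
    by_cases h00 : residue O (X 0 0) = 0
    · rw [h00, zero_add] at hX
      exact ⟨![0, 1], 1, by simpa [Matrix.mulVec, dotProduct, Fin.sum_univ_two] using hX⟩
    · exact ⟨![1, 0], 0, by simpa [Matrix.mulVec, dotProduct, Fin.sum_univ_two] using h00⟩
  have hS₀ : ∀ i j, S σ₀ i j = residue O (R σ₀ i j) := fun i j => rfl
  rw [Matrix.trace_fin_two, hS₀, hS₀] at htr
  obtain ⟨v₀, i₀, hv₀⟩ := hne E (by
    rw [hE, Matrix.trace_sub, Matrix.trace_one, map_sub, Matrix.trace_fin_two, map_add, htr,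
      Fintype.card_fin, map_natCast]
    intro h
    exact hd1 (by push_cast at h; linear_combination h))
  obtain ⟨v₁, i₁, hv₁⟩ := hne G (by
    rw [hG, Matrix.trace_sub, Matrix.trace_smul, Matrix.trace_one, map_sub, smul_eq_mul, map_mul,
      Matrix.trace_fin_two, map_add, htr, Fintype.card_fin, map_natCast, ← hd]
    intro h
    exact hd1 (by push_cast at h; linear_combination h))
  -- residual eigenvectors
  have hmulres : ∀ (σ : Γℚ) (w : Fin 2 → O), (fun i => residue O ((R σ).mulVec w i)) =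
      (S σ).mulVec (fun i => residue O (w i)) := fun σ w => by
    funext i
    exact RingHom.map_mulVec (residue O) (R σ) w i
  set b₀ : Fin 2 → ResidueField O := fun i => residue O (E.mulVec v₀ i) with hb₀def
  set b₁ : Fin 2 → ResidueField O := fun i => residue O (G.mulVec v₁ i) with hb₁def
  have hE0 : E.mulVec v₀ = (R σ₀).mulVec v₀ - v₀ := by
    rw [hE, Matrix.sub_mulVec, Matrix.one_mulVec]
  have hb₀ : (S σ₀).mulVec b₀ = d • b₀ := by
    have h1 : b₀ = (S σ₀ - 1).mulVec (fun i => residue O (v₀ i)) := by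
      rw [hb₀def, hE0, Matrix.sub_mulVec, Matrix.one_mulVec, ← hmulres]
      funext i
      simp
    rw [h1, Matrix.mulVec_mulVec]
    have h2 : S σ₀ * (S σ₀ - 1) = d • (S σ₀ - 1) := by
      have h3 := h0
      rw [sub_mul, smul_mul_assoc, one_mul, sub_eq_zero] at h3
      exact h3.symm
    rw [h2, Matrix.smul_mulVec]
  have hb₁ : (S σ₀).mulVec b₁ = b₁ := by
    have h1 : b₁ = (d • 1 - S σ₀).mulVec (fun i => residue O (v₁ i)) := by
      rw [hb₁def, hG, Matrix.sub_mulVec, Matrix.sub_mulVec, Matrix.smul_mulVec,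
        Matrix.one_mulVec, Matrix.smul_mulVec, Matrix.one_mulVec, ← hmulres]
      funext i
      simp [hd]
    rw [h1, Matrix.mulVec_mulVec]
    have h2 : S σ₀ * (d • 1 - S σ₀) = d • 1 - S σ₀ := by
      have hh := h0
      simp only [mul_sub, sub_mul, mul_one, smul_mul_assoc, one_mul] at hh
      simp only [mul_sub, mul_smul_comm, mul_one]
      rw [← sub_eq_zero, ← hh]
      try abel
    rw [h2]
  set P : Matrix (Fin 2) (Fin 2) O :=
    Matrix.of fun i j => if j = 0 then E.mulVec v₀ i else G.mulVec v₁ i with hP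
  have hPdet : IsUnit P.det := by
    refine isUnit_of_map_unit (residue O) _ (Ne.isUnit fun h0' => ?_)
    have hdet0 : b₀ 0 * b₁ 1 - b₁ 0 * b₀ 1 = 0 := by
      rw [Matrix.det_fin_two, map_sub, map_mul, map_mul] at h0'
      simpa [hP, hb₀def, hb₁def] using h0'
    -- then the two eigenvectors are proportional
    have hkill : ∀ k, b₁ k • b₀ - b₀ k • b₁ = 0 := fun k => by
      funext l
      fin_cases k <;> fin_cases l <;> simp <;>
        first
          | linear_combination hdet0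
          | linear_combination (-1 : ResidueField O) * hdet0
          | ring
    have h2 := congrArg (S σ₀).mulVec (hkill i₁)
    rw [Matrix.mulVec_sub, Matrix.mulVec_smul, Matrix.mulVec_smul, hb₀, hb₁,
      Matrix.mulVec_zero] at h2
    have h3 : ((d - 1) * b₁ i₁) • b₀ = 0 := by
      have h4 := h2
      rw [← sub_eq_zero.1 (hkill i₁), smul_smul, ← sub_smul] at h4
      rwa [show (d - 1) * b₁ i₁ = b₁ i₁ * d - b₁ i₁ by ring]
    exact hv₀ (congrFun ((smul_eq_zero.1 h3).resolve_left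
      (mul_ne_zero (sub_ne_zero.2 hd1) hv₁)) i₀)
  obtain ⟨U, hU⟩ := (Matrix.isUnit_iff_isUnit_det P).2 hPdet
  let R' : Γℚ →* Matrix (Fin 2) (Fin 2) O :=
    { toFun := fun σ => (↑U⁻¹ : Matrix (Fin 2) (Fin 2) O) * R σ * (U : Matrix (Fin 2) (Fin 2) O)
      map_one' := by simp
      map_mul' := fun σ τ => by simp [mul_assoc] }
  have hconj : ∀ σ, (U : Matrix (Fin 2) (Fin 2) O) * R' σ = R σ * U := fun σ => by
    show (U : Matrix (Fin 2) (Fin 2) O) * ((↑U⁻¹ : Matrix (Fin 2) (Fin 2) O) * R σ * (U : Matrix (Fin 2) (Fin 2) O)) = _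
    rw [← mul_assoc, ← mul_assoc, Units.mul_inv, one_mul]
  set S' := (RingHom.mapMatrix (residue O)).toMonoidHom.comp R' with hS'
  set V := (RingHom.mapMatrix (residue O)) (U : Matrix (Fin 2) (Fin 2) O) with hV
  set W := (RingHom.mapMatrix (residue O)) (↑U⁻¹ : Matrix (Fin 2) (Fin 2) O) with hW
  have hWV : W * V = 1 := by rw [hW, hV, ← map_mul, Units.inv_mul, map_one]
  have hVW : V * W = 1 := by rw [hW, hV, ← map_mul, Units.mul_inv, map_one]
  have hSS' : ∀ σ, S' σ = W * S σ * V := fun σ => by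
    show RingHom.mapMatrix (residue O) ((↑U⁻¹ : Matrix (Fin 2) (Fin 2) O) * R σ * (U : Matrix (Fin 2) (Fin 2) O)) = _
    rw [map_mul, map_mul]
    rfl
  have hdet' : ∀ σ, (R' σ).det = (R σ).det := fun σ => Matrix.det_units_conj' U (R σ)
  -- the residual matrix at `σ₀` is `diag (d, 1)`
  have hS'₀ : S' σ₀ = Matrix.diagonal ![d, 1] := by
    rw [hSS', mul_assoc]
    have hV0 : ∀ i, V i 0 = b₀ i := fun i => by
      show residue O ((U : Matrix (Fin 2) (Fin 2) O) i 0) = residue O (E.mulVec v₀ i)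
      rw [hU, hP]; rfl
    have hV1 : ∀ i, V i 1 = b₁ i := fun i => by
      show residue O ((U : Matrix (Fin 2) (Fin 2) O) i 1) = residue O (G.mulVec v₁ i)
      rw [hU, hP]; rfl
    have h : S σ₀ * V = V * Matrix.diagonal ![d, 1] := by
      ext i j
      rw [Matrix.mul_diagonal, Matrix.mul_apply, Fin.sum_univ_two]
      have hcol0 := congrFun hb₀ i
      have hcol1 := congrFun hb₁ i
      rw [Matrix.mulVec, dotProduct, Fin.sum_univ_two] at hcol0 hcol1
      fin_cases j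
      · show S σ₀ i 0 * V 0 0 + S σ₀ i 1 * V 1 0 = V i 0 * d
        rw [hV0, hV0, hV0, hcol0, Pi.smul_apply, smul_eq_mul, mul_comm]
      · show S σ₀ i 0 * V 0 1 + S σ₀ i 1 * V 1 1 = V i 1 * 1
        rw [hV1, hV1, hV1, hcol1, mul_one]
    rw [h, ← mul_assoc, hWV, one_mul]
  have hd10 : d - 1 ≠ 0 := sub_ne_zero.2 hd1
  have hres' : ∀ σ ∈ A.inertiaSubgroupIn ℚ,
      residue O (R' σ 1 0) = 0 ∧ residue O (R' σ 1 1) = 1 := by
    intro σ hσ
    have h : (d • 1 - S' σ₀) * (S' σ - 1) = 0 := by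
      have e1 : d • (1 : Matrix (Fin 2) (Fin 2) (ResidueField O)) - W * S σ₀ * V =
          W * (d • 1 - S σ₀) * V := by
        rw [mul_sub, sub_mul, mul_smul_comm, smul_mul_assoc, mul_one, hWV]
      have e2 : W * S σ * V - 1 = W * (S σ - 1) * V := by
        rw [mul_sub, sub_mul, mul_one, hWV]
      have h1 := hres σ hσ
      rw [hSdet, ← hd] at h1
      rw [hSS', hSS', e1, e2, show W * (d • 1 - S σ₀) * V * (W * (S σ - 1) * V) =
        W * ((d • 1 - S σ₀) * (V * W) * (S σ - 1)) * V by simp only [mul_assoc], hVW, mul_one, h1,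
        mul_zero, zero_mul]
    rw [hS'₀] at h
    have hS'e : ∀ i j, S' σ i j = residue O (R' σ i j) := fun i j => rfl
    have h10 := congrFun (congrFun h 1) 0
    have h11 := congrFun (congrFun h 1) 1
    simp [Matrix.mul_apply, Fin.sum_univ_two, hd10] at h10 h11
    rw [hS'e] at h10 h11
    exact ⟨h10, sub_eq_zero.1 h11⟩
  have hline : ∀ c : O, ∃ (σ : Γℚ) (w : Fin 2 → O), σ ∈ A.inertiaSubgroupIn ℚ ∧
      (R' σ).mulVec w - w = c • ![1, 0] := by
    intro c
    refine ⟨σ₀, c • (↑U⁻¹ : Matrix (Fin 2) (Fin 2) O).mulVec v₀, hσ₀, ?_⟩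
    rw [Matrix.mulVec_smul, ← smul_sub]
    congr 1
    show ((↑U⁻¹ : Matrix (Fin 2) (Fin 2) O) * R σ₀ * U).mulVec _ - _ = _
    rw [Matrix.mulVec_mulVec, mul_assoc, Units.mul_inv, mul_one, ← Matrix.mulVec_mulVec,
      ← Matrix.mulVec_sub, ← hE0]
    have hcol : E.mulVec v₀ = (U : Matrix (Fin 2) (Fin 2) O).mulVec ![1, 0] := by
      funext i
      simp [hU, hP, Matrix.mulVec, dotProduct, Fin.sum_univ_two]
    rw [hcol, Matrix.mulVec_mulVec, Units.inv_mul, Matrix.one_mulVec]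
  have hR'0 : residue O (R' σ₀ 0 1) = 0 := by
    have h01 := congrFun (congrFun hS'₀ 0) 1
    simpa [hS'] using h01
  have hemb' : ∀ n, M.EmbedsLevel Q R' n := fun n => (hemb n).conj U hconj
  have htorZ : ∀ {n m : ℕ} {f : (Fin 2 → O) →+ (Fin m → Pic0 Qb F)},
      (∀ v j, p ^ n • f v j = 0) → ∀ v j, ((p ^ n : ℕ) : ℤ) • f v j = 0 := fun h v j => by
    rw [natCast_zsmul]; exact h v j
  -- inertia
  have hI : ∀ σ ∈ A.inertiaSubgroupIn ℚ, R' σ 1 0 = 0 ∧ R' σ 1 1 = 1 := fun σ hσ => by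
    obtain ⟨h1, h2⟩ := M.row_eq_zero hp hp3 hA hζ hpO hσ₀ hσ₀ζ hQ hemb' hfin hR'0
      (hres' σ₀ hσ₀).2 hline (R' σ - 1) fun n m f ht heq _ v j => by
        rw [Matrix.sub_mulVec, Matrix.one_mulVec, map_sub, Pi.sub_apply, heq]
        exact M.picPow_act_sub (pow_pos hp.pos n) hσ (htorZ ht v j)
    exact ⟨by simpa using h1, by simpa [sub_eq_zero] using h2⟩
  -- squares of decomposition
  have hsq : ∀ σ ∈ A.decompositionSubgroup ℚ, ((R' σ * R' σ - 1) * (R' σ - 1)) 1 1 = 0 :=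
    fun σ hσ => (M.row_eq_zero hp hp3 hA hζ hpO hσ₀ hσ₀ζ hQ hemb' hfin hR'0
      (hres' σ₀ hσ₀).2 hline ((R' σ * R' σ - 1) * (R' σ - 1)) fun n m f ht heq hQf v j => by
        rw [← Matrix.mulVec_mulVec, Matrix.sub_mulVec, Matrix.one_mulVec, Matrix.sub_mulVec,
          Matrix.one_mulVec, map_sub, Pi.sub_apply, ← Matrix.mulVec_mulVec, heq, heq, map_sub,
          Pi.sub_apply, heq]
        exact hQfrob _ (hQf v j) _ (pow_pos hp.pos n) (htorZ ht v j) σ hσ).2
  have hD : ∀ σ ∈ A.decompositionSubgroup ℚ, R' σ 1 0 = 0 := fun σ hσ => by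
    obtain ⟨h3, h4⟩ := hI σ₀ hσ₀
    have hconjI : σ * σ₀ * σ⁻¹ ∈ A.inertiaSubgroupIn ℚ := by
      have hA' : σ⁻¹ • A = A :=
        MulAction.mem_stabilizer_iff.1 ((A.decompositionSubgroup ℚ).inv_mem hσ)
      simpa using Density.conj_inv_mem_inertiaSubgroupIn (a := σ⁻¹) (show σ₀ ∈ _ by rwa [hA'])
    obtain ⟨h1, h2⟩ := hI _ hconjI
    have e : R' (σ * σ₀ * σ⁻¹) * R' σ = R' σ * R' σ₀ := by
      rw [← map_mul, ← map_mul, inv_mul_cancel_right]
    have e10 := congrFun (congrFun e 1) 0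
    rw [Matrix.mul_apply, Matrix.mul_apply, Fin.sum_univ_two, Fin.sum_univ_two, h1, h2, h3] at e10
    have hu : IsUnit (R' σ₀ 0 0 - 1) := by
      refine isUnit_of_map_unit (residue O) _ (Ne.isUnit ?_)
      have h00 : residue O (R' σ₀ 0 0) = d := by
        have := congrFun (congrFun hS'₀ 0) 0
        simpa [hS'] using this
      rw [map_sub, map_one, h00]
      exact hd10
    refine hu.mul_left_eq_zero.1 ?_
    linear_combination -e10
  refine RT.StrictOrdEqns.conj U hconj ?_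
  obtain ⟨h3, h4⟩ := hI σ₀ hσ₀
  refine ⟨?_, fun σ hσ => ?_, fun σ hσ => ?_, fun σ hσ n a ha => ?_⟩
  · rw [Matrix.trace_fin_two, Matrix.det_fin_two, h3, h4]
    ring
  · have h1 := hD σ hσ
    ext i j
    fin_cases i <;> fin_cases j <;>
      simp [Matrix.mul_apply, Fin.sum_univ_two, Matrix.det_fin_two, h1, h3, h4]
  · obtain ⟨h1, h2⟩ := hI σ hσ
    ext i j
    fin_cases i <;> fin_cases j <;>
      simp [Matrix.mul_apply, Fin.sum_univ_two, Matrix.det_fin_two, h1, h2, h3, h4]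
  · have h1 := hD σ hσ
    have h2 := hsq σ hσ
    have h2 : R' σ 1 1 * R' σ 1 1 - 1 = 0 := by
      have e : (R' σ 1 1 * R' σ 1 1 - 1) * (R' σ 1 1 - 1) = 0 := by
        rw [← h2]
        simp [Matrix.mul_apply, Fin.sum_univ_two, h1]
      rcases mul_eq_zero.1 e with h | h
      · exact h
      · rw [sub_eq_zero.1 h, mul_one, sub_self]
    have hd' := hdetn σ n a ha
    rw [← hdet' σ, Matrix.det_fin_two, h1, mul_zero, sub_zero] at hd'
    have := Ideal.mul_mem_left _ ((R' σ₀ 0 0 - 1) * R' σ 1 1) hd'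
    convert this using 1
    simp [Matrix.mul_apply, Fin.sum_univ_two, Matrix.trace_fin_two, Matrix.det_fin_two, h1, h3, h4]
    linear_combination -((R' σ₀ 0 0 - 1) * R' σ 0 0) * h2

end TwoCompData

end Fermat.Agent.LevelP
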