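import Fermat.Agent.LevelP.Model.Data
import Fermat.Agent.EC.Mult.Ramification

/-!
# Levels over finite extensions of the maximal unramified field

For a normal number field `K` the fixed field of `inertia ∩ Gal(ℚ̄/K)` is discretely valued.

Owner: helper46.
-/

set_option autoImplicit false

noncomputable section

namespace Fermat.Agent.LevelP

local notation "Qb" => AlgebraicClosure ℚ
local notation "Γℚ" => (AlgebraicClosure ℚ ≃ₐ[ℚ] AlgebraicClosure ℚ)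

variable {p : ℕ} {A : ValuationSubring Qb}

/-- A bound `n` on the ramification of the fixed field of inertia inside the stabiliser of a normal
number field. -/
theorem exists_index (hp : p.Prime) (hA : A.LiesOverPrime p) (K₀ : IntermediateField ℚ Qb)
    [FiniteDimensional ℚ K₀] :
    ∃ n : ℕ, 0 < n ∧ ∀ x : Qb, x ≠ 0 →
      (∀ σ ∈ A.inertiaSubgroupIn ℚ ⊓
        (IntermediateField.normalClosure ℚ K₀ Qb).fixingSubgroup, σ x = x) →
      ∃ k : ℤ, A.valuation x ^ n = A.valuation (p : Qb) ^ k := by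
  classical
  haveI : IsAlgClosure ℚ Qb := ⟨inferInstance, AlgebraicClosure.isAlgebraic ℚ⟩
  haveI : Normal ℚ Qb := IsAlgClosure.normal ℚ Qb
  let K := IntermediateField.normalClosure ℚ K₀ Qb
  haveI : Normal ℚ K := normalClosure.normal ℚ K₀ Qb
  let res : A.inertiaSubgroupIn ℚ →* (K ≃ₐ[ℚ] K) :=
    (AlgEquiv.restrictNormalHom (F := ℚ) (K₁ := Qb) K).comp (A.inertiaSubgroupIn ℚ).subtype
  haveI : Finite (K ≃ₐ[ℚ] K) := inferInstance
  haveI : Fintype res.range := Fintype.ofFinite _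
  refine ⟨Nat.card res.range, Nat.card_pos, fun x hx hfix => ?_⟩
  choose s hs using fun r : res.range => r.2
  let N : Qb := ∏ r : res.range, (s r : Γℚ) x
  have hcong : ∀ τ τ' : A.inertiaSubgroupIn ℚ, res τ = res τ' → (τ : Γℚ) x = (τ' : Γℚ) x := by
    intro τ τ' h
    have h1 : (τ'⁻¹ * τ : A.inertiaSubgroupIn ℚ) ∈ res.ker := by
      rw [MonoidHom.mem_ker, map_mul, map_inv, h, inv_mul_cancel]
    have h2 := hfix ((τ'⁻¹ * τ : A.inertiaSubgroupIn ℚ) : Γℚ) ⟨(τ'⁻¹ * τ).2, fun ⟨a, ha⟩ => by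
      have h3 := AlgEquiv.restrictNormalHom_apply (F := ℚ) K
        ((τ'⁻¹ * τ : A.inertiaSubgroupIn ℚ) : Γℚ) ⟨a, ha⟩
      have h4 : AlgEquiv.restrictNormalHom (F := ℚ) K
          ((τ'⁻¹ * τ : A.inertiaSubgroupIn ℚ) : Γℚ) = 1 := h1
      exact ((congrArg (fun g : K ≃ₐ[ℚ] K => ((g ⟨a, ha⟩ : K) : Qb)) h4).symm.trans h3).symm⟩
    apply_fun (fun y => (τ' : Γℚ) y) at h2
    rw [← AlgEquiv.mul_apply] at h2
    simpa [← Subgroup.coe_mul] using h2
  have hNfix : ∀ τ ∈ A.inertiaSubgroupIn ℚ, τ N = N := by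
    intro τ hτ
    rw [map_prod]
    let t : res.range := ⟨res ⟨τ, hτ⟩, ⟨_, rfl⟩⟩
    refine Fintype.prod_equiv (Equiv.mulLeft t) _ _ fun r => ?_
    rw [← AlgEquiv.mul_apply]
    exact hcong (⟨τ, hτ⟩ * s r) (s (t * r)) (by rw [map_mul, hs, hs]; rfl)
  have hval : A.valuation N = A.valuation x ^ Nat.card res.range := by
    rw [map_prod, Finset.prod_congr rfl fun r _ => EC.Mult.valuation_apply
      (EC.Mult.mem_decompositionSubgroup_of_mem_inertia (s r).2) x, Finset.prod_const,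
      Finset.card_univ, ← Nat.card_eq_fintype_card]
  have hN0 : N ≠ 0 := Finset.prod_ne_zero_iff.2 fun r _ => (map_ne_zero _).2 hx
  obtain ⟨k, hk⟩ := EC.Mult.exists_zpow_of_inertia_fixed hp hA hN0 hNfix
  exact ⟨k, hval ▸ hk⟩

/-- A level fixing a given number field. -/
theorem exists_level (hp : p.Prime) (hA : A.LiesOverPrime p) (K₀ : IntermediateField ℚ Qb)
    [FiniteDimensional ℚ K₀] :
    ∃ L : Level p A, (∀ σ ∈ L.H, ∀ a ∈ K₀, σ a = a) ∧
      ∀ σ ∈ A.inertiaSubgroupIn ℚ, ∀ τ ∈ L.H, σ⁻¹ * τ * σ ∈ L.H := by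
  classical
  haveI : IsAlgClosure ℚ Qb := ⟨inferInstance, AlgebraicClosure.isAlgebraic ℚ⟩
  haveI : Normal ℚ Qb := IsAlgClosure.normal ℚ Qb
  let K := IntermediateField.normalClosure ℚ K₀ Qb
  haveI : Normal ℚ K := normalClosure.normal ℚ K₀ Qb
  obtain ⟨n, hn, hidx⟩ := exists_index hp hA K₀
  set H := A.inertiaSubgroupIn ℚ ⊓ K.fixingSubgroup with hH
  set w := A.valuation (p : Qb) with hw
  have hw1 : w < 1 := EC.Mult.valuation_natCast_lt_one hA
  have hw0 : 0 < w := zero_lt_iff.2 (A.valuation.ne_zero_iff.2 (Nat.cast_ne_zero.2 hp.ne_zero))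
  let P : ℕ → Prop := fun k => 0 < k ∧ ∃ z : Qb, z ≠ 0 ∧ (∀ σ ∈ H, σ z = z) ∧
    A.valuation z ^ n = w ^ (k : ℤ)
  have hP : P n := ⟨hn, (p : Qb), Nat.cast_ne_zero.2 hp.ne_zero, fun σ _ => map_natCast σ p,
    by rw [zpow_natCast]⟩
  obtain ⟨hk0, π, hπ0, hπfix, hπv⟩ := Nat.find_spec ⟨n, hP⟩
  set k₀ := Nat.find ⟨n, hP⟩ with hk₀
  have hπpos : 0 < A.valuation π := zero_lt_iff.2 (A.valuation.ne_zero_iff.2 hπ0)
  have hdvd : ∀ (z : Qb) (k : ℤ), z ≠ 0 → (∀ σ ∈ H, σ z = z) → A.valuation z ^ n = w ^ k →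
      A.valuation z = A.valuation π ^ (k / k₀) ∧ k % (k₀ : ℤ) = 0 := by
    intro z k hz hzfix hk
    set q := k / (k₀ : ℤ) with hq
    have hv : A.valuation (z / π ^ q) ^ n = w ^ (k % (k₀ : ℤ)) := by
      rw [map_div₀, map_zpow₀, div_pow, hk, ← zpow_natCast, ← zpow_mul, mul_comm q, zpow_mul,
        zpow_natCast, hπv, ← zpow_mul, ← zpow_sub₀ hw0.ne', Int.emod_def, hq]
    have hr0 : k % (k₀ : ℤ) = 0 := by
      by_contra hne
      have h0 := Int.emod_nonneg k (show (k₀ : ℤ) ≠ 0 by omega)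
      have h1 := Int.emod_lt_of_pos k (show (0 : ℤ) < k₀ by omega)
      refine Nat.find_min ⟨n, hP⟩ (show (k % (k₀ : ℤ)).toNat < k₀ by omega)
        ⟨by omega, z / π ^ q, div_ne_zero hz (zpow_ne_zero _ hπ0), fun σ hσ => by
          rw [map_div₀, map_zpow₀, hzfix σ hσ, hπfix σ hσ], ?_⟩
      rw [hv, Int.toNat_of_nonneg h0]
    refine ⟨?_, hr0⟩
    rw [hr0, zpow_zero, pow_eq_one_iff_of_nonneg zero_le hn.ne', map_div₀, map_zpow₀] at hv
    exact eq_of_div_eq_one hv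
  obtain ⟨hpv, hpk⟩ := hdvd (p : Qb) n (Nat.cast_ne_zero.2 hp.ne_zero)
    (fun σ _ => map_natCast σ p) (by rw [zpow_natCast])
  have hk0n : k₀ ≤ n := Nat.find_le hP
  have hdiv : ((n : ℤ) / (k₀ : ℤ)) = ((n / k₀ : ℕ) : ℤ) := (Int.natCast_div n k₀).symm
  refine ⟨{ H := H
            π := π
            e := n / k₀
            le_inertia := inf_le_left
            fixed := hπfix
            ne_zero := hπ0
            lt_one := ?_
            value := fun x hx hxfix => ?_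
            e_pos := Nat.div_pos hk0n hk0
            pow_e := by rw [← zpow_natCast, ← hdiv, ← hpv] }, fun σ hσ a ha => ?_, ?_⟩
  · rw [← pow_lt_one_iff_of_nonneg (n := n) zero_le hn.ne', hπv, zpow_natCast]
    exact pow_lt_one₀ zero_le hw1 hk0.ne'
  · obtain ⟨k, hk⟩ := hidx x hx hxfix
    exact ⟨_, (hdvd x k hx hxfix hk).1⟩
  · exact hσ.2 ⟨a, K₀.le_normalClosure ha⟩
  · rintro σ hσ τ ⟨hτI, hτK⟩
    refine ⟨(A.inertiaSubgroupIn ℚ).mul_mem ((A.inertiaSubgroupIn ℚ).mul_mem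
      ((A.inertiaSubgroupIn ℚ).inv_mem hσ) hτI) hσ, fun ⟨a, ha⟩ => ?_⟩
    have hb : σ a ∈ K := by
      rw [← AlgEquiv.restrictNormalHom_apply (F := ℚ) K σ ⟨a, ha⟩]
      exact SetLike.coe_mem _
    show (σ⁻¹ * τ * σ) a = a
    rw [AlgEquiv.mul_apply, AlgEquiv.mul_apply, AlgEquiv.aut_inv, AlgEquiv.symm_apply_eq]
    exact hτK ⟨σ a, hb⟩

end Fermat.Agent.LevelP
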