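import Fermat.Agent.LevelP.Ordinary.Residual
import Fermat.Agent.LevelP.Ordinary.FiniteLevel
import Fermat.Agent.Curve.Fibre

/-!
# `p`-torsion classes with power residues which are new at `p`

A class is `PNew` when the functions with divisor `p • D` normalised to `1 + π ^ (p m) G₀` have the
residues of `G₀` `p`-th powers; for `X₀(pM)` this holds for classes killed by both pushforwards to
`X₀(M)`. A representative modulo `π ^ m` of such a class with `p m < e + m` then improves, so a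
class with `p`-th power residues is trivial modulo `π ^ (e / (p - 1))` and inertia acts on it by the
cyclotomic character modulo `p`.

Owner: helper46.
-/

set_option autoImplicit false

noncomputable section

namespace Fermat.Agent.LevelP

open AlgebraicCurve Fermat.Agent.Curve IsLocalRing

local notation "Qb" => AlgebraicClosure ℚ
local notation "Γℚ" => (AlgebraicClosure ℚ ≃ₐ[ℚ] AlgebraicClosure ℚ)

variable {p : ℕ} {A : ValuationSubring Qb} {F : Type*} [Field F] [Algebra Qb F]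
  {Fb : Type*} [Field Fb] [Algebra (ResidueField A) Fb]

namespace TwoCompData

variable (M : TwoCompData p A F Fb)

/-- `f` times `p`-th powers, if `≡ 1` modulo `π ^ (p m)` up to a constant, has `p`-th power first
order residues. -/
def PNewFun (L : Level p A) (f : F) : Prop :=
  ∀ (g : F) (c : Qb) (G₀ : F) (m : ℕ), g ≠ 0 → M.Fixed L.H g → c ≠ 0 → (∀ σ ∈ L.H, σ c = c) →
    M.Fixed L.H G₀ → (∀ i, G₀ ∈ M.V i) → 0 < m → p * m < L.e + m →
    f * g ^ p = algebraMap Qb F c * (1 + algebraMap Qb F L.π ^ (p * m) * G₀) →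
      ∀ i, ∃ v : Fb, v ^ p = M.residueAt i G₀

/-- Every function with divisor `p` times a representative is `PNewFun`. -/
def PNew (x : Pic0 Qb F) : Prop :=
  ∀ D : Divisor.degZero (K := Qb) (F := F), Pic0.mk D = x →
    ∀ (L : Level p A) (f : F), f ≠ 0 → M.DivFixed L.H (D : Divisor Qb F) → M.Fixed L.H f →
      (∀ P, ((p : ℤ) • (D : Divisor Qb F)) P = P.ord f) → M.PNewFun L f

variable {M} [IsFunctionField1 Qb F] [IsFunctionField1 (ResidueField A) Fb]
  [IsAlgClosed (ResidueField A)]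

omit [IsFunctionField1 Qb F] [IsAlgClosed (ResidueField A)] in
theorem mem_of_pow_mem (Q : Place (ResidueField A) Fb) {x : Fb} {n : ℕ} (hn : n ≠ 0)
    (h : x ^ n ∈ Q.toValuationSubring) : x ∈ Q.toValuationSubring := by
  rw [← ValuationSubring.valuation_le_one_iff, map_pow, pow_le_one_iff hn] at h
  exact (ValuationSubring.valuation_le_one_iff _ _).1 h

omit [IsFunctionField1 Qb F] in
theorem evalAt_pow (Q : Place (ResidueField A) Fb) {x : Fb} (hx : x ∈ Q.toValuationSubring)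
    (n : ℕ) : evalAt Q (x ^ n) = evalAt Q x ^ n := by
  obtain ⟨φ, hφ, -⟩ := Fermat.Agent.Curve.exists_residueHom Q
  have h := (hφ (⟨x, hx⟩ ^ n)).symm.trans ((map_pow φ ⟨x, hx⟩ n).trans (by rw [hφ]))
  simpa using h

/-- A representative of a new class below the threshold improves. -/
theorem Rep.trivial_succ_of_pNew (hp : p.Prime) (hA : A.LiesOverPrime p) {L : Level p A}
    {D : Divisor.degZero (K := Qb) (F := F)} {m : ℕ} {g : F} {ψ : M.Pt → F}
    (h : M.Rep L (D : Divisor Qb F) m g ψ) (hD : M.DivFixed L.H (D : Divisor Qb F))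
    (hpD : Divisor.IsPrincipal ((p : ℤ) • (D : Divisor Qb F))) (hnew : M.PNew (Pic0.mk D))
    (hm : 0 < m) (hlt : p * m < L.e + m) : M.Trivial L (D : Divisor Qb F) (m + 1) := by
  haveI := charP_fibreField hp hA Fb
  haveI := EC.charP_residueField A hp hA
  haveI : Fact p.Prime := ⟨hp⟩
  refine h.trivial_succ hm ?_
  obtain ⟨f, hf, hff, hford⟩ := M.descend_principal L.H L.le_inertia _
    (fun σ hσ => ((DistribMulAction.toAddMonoidHom (Divisor Qb F) (M.act σ)).map_zsmul (p : ℤ)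
      (D : Divisor Qb F)).trans (congrArg ((p : ℤ) • ·) (hD σ hσ))) hpD
  have hG0 : f * g ^ p ≠ 0 := mul_ne_zero hf (pow_ne_zero p h.g_ne)
  obtain ⟨c, G₀, hc, hcf, hG, hG₀f, hG₀V, hwit⟩ :=
    exists_witness_of_gens hp hA L (Nat.mul_pos hp.pos hm) (χ := fun y => ψ y ^ p)
      (α := fun y => L.coeff m (ψ y) ^ p)
      (fun y => fixed_pow (h.fixed y) p) (fun y i hi => pow_mem (h.coeff_mem hi) p)
      (fun y i hi => by
        obtain ⟨s, hs, e⟩ := pow_expansion hp L m (h.coeff_mem hi) (i := i)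
        rw [one_add_coeff] at e
        obtain ⟨l, hl⟩ := Nat.exists_eq_add_of_le (show p * m + 1 ≤ L.e + m by omega)
        have hκ : algebraMap Qb F L.kappa ∈ M.V i :=
          (M.algebraMap_mem_iff i _).2 ((A.valuation_le_one_iff _).1 L.valuation_kappa.le)
        refine ⟨algebraMap Qb F L.π ^ l * (algebraMap Qb F L.kappa * L.coeff m (ψ y))
          + algebraMap Qb F L.π ^ (l + m) * s,
          add_mem (mul_mem (pow_mem (M.pi_mem L i) l) (mul_mem hκ (h.coeff_mem hi)))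
            (mul_mem (pow_mem (M.pi_mem L i) _) hs), ?_⟩
        rw [hl] at e
        rw [e]
        ring)
      hG0 (fixed_mul hff (fixed_pow h.g_fixed p)) (fun y P hP => by
        rw [P.ord_mul hf (pow_ne_zero p h.g_ne), ← hford P, Fermat.Agent.Curve.ord_pow,
          Fermat.Agent.Curve.ord_pow, h.ord_eq y P hP, Finsupp.smul_apply, smul_eq_mul]
        ring)
  choose v hv using hnew D rfl L f hf hD hff hford g c G₀ m h.g_ne h.g_fixed hc hcf hG₀f hG₀V hm
    hlt hG
  obtain ⟨G, hGI, hG'⟩ := M.exists_lift v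
  have hGf : M.Fixed L.H G := fun σ hσ => hGI σ (L.le_inertia hσ)
  have hGres : ∀ i, M.residueAt i G = v i := fun i => by
    obtain ⟨hV, hr⟩ := hG' i
    rw [M.residueAt_of_mem hV, hr]
  refine ⟨G, hGf, fun i => (hG' i).1, fun y => ?_⟩
  obtain ⟨b, hbf, hbr, hbc⟩ := hwit y
  have hsub : ∀ i, M.On y i →
      (M.residueAt i (L.coeff m (ψ y)) - v i) ^ p = M.residueAt i b := fun i hi => by
    have h1 := residueAt_congr L one_pos (hbc i hi) (add_mem (hG₀V i) (hbr.2 i hi))
    rw [residueAt_pow (h.coeff_mem hi), residueAt_add (hG₀V i) (hbr.2 i hi), ← hv i] at h1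
    rw [sub_pow_char, h1, add_sub_cancel_left]
  have hreg : ∀ i, M.On y i →
      M.residueAt i (L.coeff m (ψ y)) - v i ∈ (M.loc y i).toValuationSubring := fun i hi =>
    mem_of_pow_mem _ hp.ne_zero (by rw [hsub i hi]; exact M.residueAt_regular hbr hi)
  obtain ⟨b', hb'I, hb'reg, hb'⟩ :=
    M.exists_regular_lift y (fun i => M.residueAt i (L.coeff m (ψ y)) - v i) hreg
      (fun h₀ h₁ => by
        refine frobenius_inj (ResidueField A) p ?_
        rw [frobenius_def, frobenius_def, ← evalAt_pow _ (hreg _ h₀), ← evalAt_pow _ (hreg _ h₁),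
          hsub _ h₀, hsub _ h₁]
        exact M.valueAt_node hbr ⟨h₀, h₁⟩)
  have hb'f : M.Fixed L.H b' := fun σ hσ => hb'I σ (L.le_inertia hσ)
  refine ⟨b', hb'f, ⟨hb'reg, fun i hi => (hb' i hi).1⟩, fun i hi => ?_⟩
  obtain ⟨hV, hr⟩ := hb' i hi
  have hGV := (hG' i).1
  refine (M.vcongr_one_iff L i (fixed_coeff L (h.fixed y)) (fixed_add hGf hb'f) (h.coeff_mem hi)
    (add_mem hGV hV)).2 ?_
  rw [← M.residueAt_of_mem, ← M.residueAt_of_mem, residueAt_add hGV hV, hGres i,
    M.residueAt_of_mem hV, hr, add_sub_cancel]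

/-- New classes with power residues are trivial modulo `π ^ m` up to the threshold. -/
theorem trivial_of_pNew (hp : p.Prime) (hA : A.LiesOverPrime p) {L : Level p A}
    {D : Divisor.degZero (K := Qb) (F := F)} (hD : M.DivFixed L.H (D : Divisor Qb F))
    (hpD : Divisor.IsPrincipal ((p : ℤ) • (D : Divisor Qb F))) (hnew : M.PNew (Pic0.mk D))
    (h1 : M.Trivial L (D : Divisor Qb F) 1) :
    ∃ m, 0 < m ∧ L.e + m ≤ p * m ∧ p * m < L.e + m + p ∧ M.Trivial L (D : Divisor Qb F) m := by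
  have key : ∀ m, 1 ≤ m → (∀ j, 1 ≤ j → j < m → p * j < L.e + j) →
      M.Trivial L (D : Divisor Qb F) m := by
    intro m hm
    induction m, hm using Nat.le_induction with
    | base => exact fun _ => h1
    | succ m hm ih =>
      intro hj
      obtain ⟨g, ψ, hψ⟩ := trivial_iff.1 (ih fun j h1 h2 => hj j h1 (by omega))
      exact hψ.trivial_succ_of_pNew hp hA hD hpD hnew (by omega) (hj m hm (by omega))
  classical
  have hex : ∃ m, 1 ≤ m ∧ L.e + m ≤ p * m := by
    refine ⟨L.e + 1, by omega, ?_⟩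
    have := Nat.mul_le_mul_right (L.e + 1) hp.two_le
    omega
  obtain ⟨hm1, hm2⟩ := Nat.find_spec hex
  have hmin : ∀ j, 1 ≤ j → j < Nat.find hex → p * j < L.e + j := fun j hj hlt => by
    have := Nat.find_min hex hlt
    omega
  refine ⟨Nat.find hex, hm1, hm2, ?_, key _ hm1 hmin⟩
  rcases eq_or_lt_of_le hm1 with h | h
  · rw [← h]
    have := L.e_pos
    omega
  · obtain ⟨k, hk⟩ : ∃ k, Nat.find hex = k + 1 := ⟨Nat.find hex - 1, by omega⟩
    have := hmin k (by omega) (by omega)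
    rw [hk, Nat.mul_add, mul_one]
    omega

/-- **Inertia acts on new classes with power residues by the cyclotomic character**, when they
are divisible enough among classes with power residues. -/
theorem act_eq_smul_of_pNew (hp : p.Prime) (hp3 : 3 ≤ p) (hA : A.LiesOverPrime p)
    {ζ : Qb} (hζ : IsPrimitiveRoot ζ p)
    (y : Pic0 Qb F) (hy : (p : ℤ) • y = 0) {y' : Pic0 Qb F}
    (hy' : ((p ^ M.nodeExp : ℕ) : ℤ) • y' = y) (hW : M.PicPow y' (p ^ (M.nodeExp + 1)))
    (hnew : ∀ k : ℤ, M.PNew (k • y))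
    (hfin : ∃ K : IntermediateField ℚ Qb, FiniteDimensional ℚ K ∧
      ∀ σ : Γℚ, (∀ a ∈ K, σ a = a) → M.act σ • y' = y')
    {σ : Γℚ} (hσ : σ ∈ A.inertiaSubgroupIn ℚ) {a : ℕ} (ha : σ ζ = ζ ^ a) :
    M.act σ • y = a • y := by
  haveI := EC.charP_residueField A hp hA
  haveI : NeZero p := ⟨hp.ne_zero⟩
  obtain ⟨K, hK, hKy⟩ := hfin
  haveI := hK
  have hcomm : ∀ (n : ℤ) (z : Pic0 Qb F), n • (a • z) = a • (n • z) := fun n z =>
    map_nsmul (zsmulAddGroupHom (α := Pic0 Qb F) n) a z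
  have hσ0 : M.act σ • (0 : Pic0 Qb F) = 0 := smul_zero (A := Pic0 Qb F) (M.act σ)
  obtain ⟨L, hLK, hLn⟩ := exists_level hp hA K
  have hnorm : ∀ τ ∈ L.H, σ⁻¹ * τ * σ ∈ L.H := hLn σ hσ
  obtain ⟨D, hDf, hDk, hpD, hD1⟩ :=
    M.exists_trivial_rep_pow hp hA L hy hy' hW fun τ hτ => hKy τ (hLK τ hτ)
  obtain ⟨m, hm, hle, hlt, hDm⟩ :=
    trivial_of_pNew hp hA hDf hpD (hDk ▸ hnew M.nodeUnit) hD1
  obtain ⟨g, ψ, hψ⟩ := trivial_iff.1 hDm
  set D' : Divisor.degZero (K := Qb) (F := F) :=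
    SemilinearAut.degZeroSMulHom (M.act σ) D - a • D with hD'
  suffices hpr : Divisor.IsPrincipal (D' : Divisor Qb F) by
    have h0 : Pic0.mk D' = 0 := (mk_eq_zero_iff (D := D')).2 hpr
    rw [hD', show Pic0.mk (SemilinearAut.degZeroSMulHom (M.act σ) D - a • D) =
      Pic0.mk (SemilinearAut.degZeroSMulHom (M.act σ) D) - a • Pic0.mk D from rfl,
      ← SemilinearAut.pic0_smul_mk, hDk, SemilinearAut.smul_zsmul, ← hcomm, ← zsmul_sub] at h0
    have hnk : ¬ (p : ℤ) ∣ (M.nodeUnit : ℤ) := fun h =>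
      M.not_dvd_nodeUnit hp (Int.natCast_dvd_natCast.1 h)
    refine sub_eq_zero.1 (eq_zero_of_zsmul hp hnk ?_ h0)
    rw [zsmul_sub, ← SemilinearAut.smul_zsmul, hy, hcomm, hy, smul_zero, hσ0,
      sub_zero]
  by_cases hstrict : L.e + m < p * m
  · have hpr := isPrincipal_of_trivial hp hA L (Divisor.mem_degZero.1 D.2) hDf hpD hm hstrict hDm
    have h0 : Pic0.mk D = 0 := (mk_eq_zero_iff (D := D)).2 hpr
    refine (mk_eq_zero_iff (D := D')).1 ?_
    rw [hD', show Pic0.mk (SemilinearAut.degZeroSMulHom (M.act σ) D - a • D) =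
      Pic0.mk (SemilinearAut.degZeroSMulHom (M.act σ) D) - a • Pic0.mk D from rfl,
      ← SemilinearAut.pic0_smul_mk, h0, smul_zero, sub_zero]
    exact smul_zero (A := Pic0 Qb F) (M.act σ)
  have heq : p * m = L.e + m := by omega
  -- the ratio `σ π ^ m / π ^ m` is `a` modulo `π`
  have hπ0 := L.ne_zero
  have hπm : (L.π : Qb) ^ m ≠ 0 := pow_ne_zero m hπ0
  have hσv : ∀ z, A.valuation (σ z) = A.valuation z := fun z =>
    EC.Mult.valuation_apply (EC.Mult.mem_decompositionSubgroup_of_mem_inertia hσ) z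
  set z := (ζ - 1) / L.π ^ m with hz
  have hzv : A.valuation z = 1 := by
    have h1 : (A.valuation (ζ - 1)) ^ (p - 1) = (A.valuation L.π ^ m) ^ (p - 1) := by
      rw [valuation_zeta_sub_one_pow hp hA hζ, ← L.pow_e, ← pow_mul]
      congr 1
      have : m * (p - 1) + m = p * m := by
        rw [← Nat.mul_succ, Nat.succ_eq_add_one, Nat.sub_add_cancel hp.one_le, mul_comm]
      omega
    rw [hz, map_div₀, map_pow, (pow_left_inj₀ zero_le zero_le (by omega)).1 h1,
      div_self (pow_ne_zero m L.valuation_ne_zero)]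
  have hzA : z ∈ A := (A.valuation_le_one_iff z).1 hzv.le
  set ρ := σ (L.π ^ m) / L.π ^ m with hρdef
  have hρA : ρ ∈ A := by
    rw [← A.valuation_le_one_iff, hρdef, map_div₀, hσv,
      div_self (A.valuation.ne_zero_iff.2 hπm)]
  have hρf : ∀ τ ∈ L.H, τ ρ = ρ := fun τ hτ => by
    have h1 : τ (σ L.π) = σ L.π := by
      have h := L.fixed _ (hnorm τ hτ)
      apply σ⁻¹.injective
      simpa [AlgEquiv.mul_apply, AlgEquiv.aut_inv] using h
    rw [hρdef, map_div₀, map_pow, map_pow, map_pow, h1, L.fixed τ hτ]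
  obtain ⟨δ, hδA, hδ⟩ : ∃ δ ∈ A, ρ - a = L.π * δ := by
    have hlt1 : A.valuation (ρ - a) < 1 := by
      have hζ1 : (ζ - 1) ≠ 0 := sub_ne_zero.2 (hζ.ne_one hp.one_lt)
      have hζlt : A.valuation (ζ - 1) < 1 := by
        rw [← pow_lt_one_iff_of_nonneg (n := p - 1) zero_le (by omega),
          valuation_zeta_sub_one_pow hp hA hζ]
        exact EC.Mult.valuation_natCast_lt_one hA
      obtain ⟨s, hs⟩ := exists_one_add_pow (⟨ζ - 1, (A.valuation_le_one_iff _).1 hζlt.le⟩ : A) a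
      have hs' : ζ ^ a = 1 + a * (ζ - 1) + (ζ - 1) ^ 2 * (s : Qb) := by
        have := congrArg (Subtype.val : A → Qb) hs
        push_cast at this
        rwa [add_sub_cancel] at this
      -- `σ (ζ - 1) = (σ π ^ m) (σ z)`
      have hmul : (ρ - a) * σ z = -(a : Qb) * (σ z - z) + z * ((ζ - 1) * (s : Qb)) := by
        have e1 : σ (ζ - 1) = σ (L.π ^ m) * σ z := by
          rw [← map_mul, hz, mul_div_cancel₀ _ hπm]
        rw [map_sub, map_one, ha, hs'] at e1
        have e2 : ρ * σ z = (a * (ζ - 1) + (ζ - 1) ^ 2 * (s : Qb)) / L.π ^ m := by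
          rw [hρdef, div_mul_eq_mul_div, ← e1]
          ring
        have e3 : ζ - 1 = z * L.π ^ m := by rw [hz, div_mul_cancel₀ _ hπm]
        rw [sub_mul, e2]
        rw [e3]
        field_simp
        ring
      have hzσ : A.valuation (σ z - z) < 1 := by
        rw [← A.mem_nonunits_iff]
        exact EC.Inertia.apply_sub_mem_nonunits hσ hzA
      have h1 : A.valuation ((ρ - a) * σ z) < 1 := by
        rw [hmul]
        refine A.valuation.map_add_lt ?_ ?_
        · rw [map_mul]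
          exact mul_lt_one_of_nonneg_of_lt_one_right
            ((A.valuation_le_one_iff _).2 (neg_mem (natCast_mem A a))) zero_le hzσ
        · rw [map_mul, hzv, one_mul, map_mul]
          exact mul_lt_one_of_nonneg_of_lt_one_left zero_le hζlt
            ((A.valuation_le_one_iff _).2 s.2)
      rwa [map_mul, hσv, hzv, mul_one] at h1
    refine ⟨(ρ - a) / L.π, ?_, by rw [mul_div_cancel₀ _ hπ0]⟩
    rw [← A.valuation_le_one_iff, map_div₀]
    rcases eq_or_ne (ρ - (a : Qb)) 0 with h0 | h0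
    · rw [h0, map_zero, zero_div]; exact zero_le
    obtain ⟨k, hk⟩ := L.value _ h0 fun τ hτ => by rw [map_sub, hρf τ hτ, map_natCast]
    have hπpos : 0 < A.valuation L.π := zero_lt_iff.2 L.valuation_ne_zero
    have hk1 : 1 ≤ k := by
      by_contra hk0
      refine hlt1.not_ge ?_
      rw [hk, ← zpow_zero (A.valuation L.π)]
      exact zpow_le_zpow_right_of_le_one₀ hπpos L.lt_one.le (by omega)
    rw [div_le_one₀ hπpos, hk]
    calc A.valuation L.π ^ k ≤ A.valuation L.π ^ (1 : ℤ) :=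
          zpow_le_zpow_right_of_le_one₀ hπpos L.lt_one.le hk1
      _ = _ := zpow_one _
  have hD'f : M.DivFixed L.H (D' : Divisor Qb F) := fun τ hτ => by
    show M.act τ • (M.act σ • (D : Divisor Qb F) - a • (D : Divisor Qb F)) = _
    rw [smul_sub, divFixed_act hnorm hDf τ hτ,
      show M.act τ • (a • (D : Divisor Qb F)) = a • (M.act τ • (D : Divisor Qb F)) from
        map_nsmul (DistribSMul.toAddMonoidHom (Divisor Qb F) (M.act τ)) a _, hDf τ hτ]
    rfl
  have hpD' : Divisor.IsPrincipal ((p : ℤ) • (D' : Divisor Qb F)) := by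
    have h0 : (p : ℤ) • Pic0.mk D = 0 := by rw [hDk, smul_comm, hy, smul_zero]
    refine (mk_eq_zero_iff (D := (p : ℤ) • D')).1 ?_
    show (p : ℤ) • Pic0.mk D' = 0
    rw [hD', show Pic0.mk (SemilinearAut.degZeroSMulHom (M.act σ) D - a • D) =
      Pic0.mk (SemilinearAut.degZeroSMulHom (M.act σ) D) - a • Pic0.mk D from rfl,
      ← SemilinearAut.pic0_smul_mk, zsmul_sub, ← SemilinearAut.smul_zsmul, hcomm, h0,
      smul_zero, hσ0, sub_zero]
  refine isPrincipal_of_trivial hp hA L (Divisor.mem_degZero.1 D'.2) hD'f hpD'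
    (m₀ := m + 1) (by omega) (by rw [Nat.mul_add, mul_one]; omega) ?_
  refine trivial_iff.2 ⟨M.act σ • g / g ^ a, fun x => M.act σ • ψ x / ψ x ^ a,
    div_ne_zero ((smul_ne_zero_iff_ne _).2 hψ.g_ne) (pow_ne_zero a hψ.g_ne),
    fixed_div (fixed_act hnorm hψ.g_fixed) (fixed_pow hψ.g_fixed a), fun i => ?_,
    fun x => fixed_div (fixed_act hnorm (hψ.fixed x)) (fixed_pow (hψ.fixed x) a),
    fun x => div_ne_zero ((smul_ne_zero_iff_ne _).2 (hψ.ne_zero x))
      (pow_ne_zero a (hψ.ne_zero x)), fun x P hP => ?_, fun x i hi => ?_⟩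
  · rw [map_div₀, valuation_act_eq_one hσ (hψ.g_unit i), map_pow, hψ.g_unit i, one_pow, div_one]
  · have hP' : M.sp ((M.act σ)⁻¹ • P) = x := by rw [← map_inv, M.sp_act σ⁻¹ (inv_mem hσ), hP]
    have h1 := SemilinearAut.ord_smul (M.act σ) ((M.act σ)⁻¹ • P) (ψ x)
    have h2 := SemilinearAut.ord_smul (M.act σ) ((M.act σ)⁻¹ • P) g
    rw [smul_inv_smul] at h1 h2
    rw [Fermat.Agent.Curve.ord_div P ((smul_ne_zero_iff_ne _).2 (hψ.ne_zero x))
        (pow_ne_zero a (hψ.ne_zero x)),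
      Fermat.Agent.Curve.ord_div P ((smul_ne_zero_iff_ne _).2 hψ.g_ne) (pow_ne_zero a hψ.g_ne),
      h1, h2, Fermat.Agent.Curve.ord_pow, Fermat.Agent.Curve.ord_pow,
      hψ.ord_eq x _ hP', hψ.ord_eq x P hP]
    show _ = (M.act σ • (D : Divisor Qb F) - a • (D : Divisor Qb F)) P + _
    rw [Finsupp.sub_apply, Finsupp.smul_apply, SemilinearAut.divisor_smul_apply, nsmul_eq_mul]
    ring
  · set α := L.coeff m (ψ x) with hαdef
    have hαV : α ∈ M.V i := hψ.coeff_mem hi
    have hψe := one_add_coeff L m (ψ x)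
    rw [← hαdef] at hψe
    have hσα : M.act σ • α ∈ M.V i := (M.act_mem_iff i σ hσ α).2 hαV
    have hcoef : M.VCongr L.π i 1 (M.act σ • α) α := by
      refine (M.vcongr_one_iff L i (fixed_act hnorm (fixed_coeff L (hψ.fixed x)))
        (fixed_coeff L (hψ.fixed x)) hσα hαV).2 ?_
      exact M.red_act i σ hσ ⟨α, hαV⟩ hσα
    obtain ⟨d, hd, he⟩ := hcoef
    obtain ⟨r, hr'⟩ := exists_one_add_pow
      ((⟨algebraMap Qb F L.π, M.pi_mem L i⟩ : M.V i) ^ m * ⟨α, hαV⟩) a
    have hpow : ψ x ^ a = 1 + a * (algebraMap Qb F L.π ^ m * α) +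
        (algebraMap Qb F L.π ^ m * α) ^ 2 * (r : F) := by
      conv_lhs => rw [← hψe]
      have h := congrArg (Subtype.val : M.V i → F) hr'
      push_cast at h
      exact h
    have hv : (M.V i).valuation (ψ x) = 1 := (hψ.congr x i hi).valuation_eq_one L hm (map_one _)
    have hinv : (ψ x ^ a)⁻¹ ∈ M.V i :=
      M.mem_of_valuation_eq_one (by rw [map_inv₀, map_pow, hv, one_pow, inv_one])
    obtain ⟨m', rfl⟩ : ∃ k, m = k + 1 := ⟨m - 1, by omega⟩
    have hσψ : M.act σ • ψ x =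
        1 + algebraMap Qb F L.π ^ (m' + 1) * algebraMap Qb F ρ * (M.act σ • α) := by
      conv_lhs => rw [← hψe]
      rw [smul_add, smul_one, smul_mul', ← map_pow, SemilinearAut.smul_algebraMap, M.baseAut_act,
        ← map_mul, hρdef, mul_div_cancel₀ _ (pow_ne_zero _ hπ0)]
    refine ⟨(ψ x ^ a)⁻¹ * (algebraMap Qb F δ * (M.act σ • α) + (a : F) * d
      - algebraMap Qb F L.π ^ m' * α ^ 2 * (r : F)),
      mul_mem hinv (sub_mem (add_mem (mul_mem ((M.algebraMap_mem_iff i _).2 hδA) hσα)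
        (mul_mem (natCast_mem _ a) hd))
        (mul_mem (mul_mem (pow_mem (M.pi_mem L i) m') (pow_mem hαV 2)) r.2)), ?_⟩
    have hne : ψ x ^ a ≠ 0 := pow_ne_zero a (hψ.ne_zero x)
    have hδF : algebraMap Qb F ρ = a + algebraMap Qb F L.π * algebraMap Qb F δ := by
      rw [← map_mul, ← hδ, map_sub, map_natCast]; ring
    rw [div_sub_one hne, div_eq_mul_inv, hσψ, hpow, hδF]
    rw [pow_one] at he
    rw [show M.act σ • α = α + algebraMap Qb F L.π * d by linear_combination he]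
    ring

/-- A new class with power residues fixed by an inertia element moving `ζ` is zero. -/
theorem eq_zero_of_pNew (hp : p.Prime) (hp3 : 3 ≤ p) (hA : A.LiesOverPrime p)
    {ζ : Qb} (hζ : IsPrimitiveRoot ζ p)
    (y : Pic0 Qb F) (hy : (p : ℤ) • y = 0) {y' : Pic0 Qb F}
    (hy' : ((p ^ M.nodeExp : ℕ) : ℤ) • y' = y) (hW : M.PicPow y' (p ^ (M.nodeExp + 1)))
    (hnew : ∀ k : ℤ, M.PNew (k • y))
    (hfin : ∃ K : IntermediateField ℚ Qb, FiniteDimensional ℚ K ∧
      ∀ σ : Γℚ, (∀ a ∈ K, σ a = a) → M.act σ • y' = y')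
    {σ₀ : Γℚ} (hσ₀ : σ₀ ∈ A.inertiaSubgroupIn ℚ) (hσ₀ζ : σ₀ ζ ≠ ζ)
    (hσ₀y : M.act σ₀ • y = y) : y = 0 := by
  haveI : NeZero p := ⟨hp.ne_zero⟩
  obtain ⟨a, -, ha⟩ := hζ.eq_pow_of_pow_eq_one
    (show (σ₀ ζ) ^ p = 1 by rw [← map_pow, hζ.pow_eq_one, map_one])
  have h := act_eq_smul_of_pNew hp hp3 hA hζ y hy hy' hW hnew hfin hσ₀ ha.symm
  rw [hσ₀y] at h
  have ha1 : ¬ (p : ℤ) ∣ (a : ℤ) - 1 := fun hd => hσ₀ζ (by
    obtain ⟨l, hl⟩ := hd
    rw [← ha, ← zpow_natCast, show (a : ℤ) = p * l + 1 by omega, zpow_add_one₀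
      (hζ.ne_zero hp.ne_zero), zpow_mul, zpow_natCast, hζ.pow_eq_one, one_zpow, one_mul])
  refine eq_zero_of_zsmul hp ha1 hy ?_
  rw [sub_smul, one_smul, natCast_zsmul, ← h, sub_self]

end TwoCompData

end Fermat.Agent.LevelP
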