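import Fermat.Agent.LevelP.Ordinary.NormOne
import Fermat.Agent.LevelP.Ordinary.PNewCore
import Fermat.Agent.LevelP.X0.Fields
import Fermat.Agent.BadPrime.GaussTorsion
import Fermat.Agent.BadPrime.PairArgument
import Fermat.Agent.BadPrime.Pushforward
import Fermat.Agent.BadPrime.Sq.ResidueField
import Fermat.Agent.RT.LocalQ.Decomposition
import Fermat.Agent.EC.Mult.Ramification

/-!
# Classes of `X₀(Mp)` killed by both pushforwards to `X₀(M)`

Such classes are `PNew` for a two-component data with the standard action and residues, and their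
Frobenius displacements have power residues.

Owner: helper46.
-/

set_option autoImplicit false
set_option synthInstance.maxHeartbeats 400000
set_option linter.unusedSectionVars false
set_option linter.style.haveILetI false

noncomputable section

namespace Fermat.Agent.LevelP.X0

open AlgebraicCurve ModularCurve IsLocalRing Fermat.Agent.Modular Fermat.Agent.BadPrime
  Fermat.Agent.Curve
open Fermat.Agent.EichlerShimura (normAlong normAlong_ne_zero)

local notation "Qb" => AlgebraicClosure ℚ
local notation "Γℚ" => (AlgebraicClosure ℚ ≃ₐ[ℚ] AlgebraicClosure ℚ)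

local instance : Algebra.IsAlgebraic ℚ Qb := AlgebraicClosure.isAlgebraic ℚ

variable {A : ValuationSubring Qb} {p M : ℕ} [Fact p.Prime] [NeZero M]

local notation "F" => modularFunctionFieldBar (M * p)
local notation "Fb" => modularFunctionFieldFullC (ResidueField A) M

section Root

variable {K : Type*} [Field K] {B : ValuationSubring K}

/-- The first order term of a `p`-th power close to `1` is a `p`-th power residue. -/
theorem exists_root_of_pow_eq_one_add (hp : p.Prime) {x t π : K} {m : ℕ} (ht : t ∈ B)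
    (hπ : π ≠ 0) (hπ1 : B.valuation π < 1) (hm : 0 < m)
    (hlt : B.valuation (p : K) < B.valuation π ^ ((p - 1) * m))
    (h : x ^ p = 1 + π ^ (p * m) * t) : ∃ u ∈ B, B.valuation (t - u ^ p) < 1 := by
  set v := B.valuation with hv
  have hvπ : 0 < v π := zero_lt_iff.2 ((map_ne_zero _).2 hπ)
  have hεt : v (π ^ (p * m) * t) < 1 := by
    rw [map_mul, map_pow]
    exact mul_lt_one_of_lt_of_le
      (pow_lt_one₀ zero_le hπ1 (Nat.mul_pos hp.pos hm).ne') ((B.valuation_le_one_iff t).2 ht)
  have hx : v x = 1 := by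
    have h1 : v (x ^ p) = 1 := by rw [h, v.map_one_add_of_lt hεt]
    rwa [map_pow, pow_eq_one_iff_of_nonneg zero_le hp.ne_zero] at h1
  have hxB : x - 1 ∈ B := sub_mem ((B.valuation_le_one_iff x).1 hx.le) B.one_mem
  obtain ⟨r, hr⟩ := exists_add_pow_prime_eq hp (⟨x - 1, hxB⟩ : B) 1
  have hr' := congrArg (Subtype.val : B → K) hr
  push_cast at hr'
  rw [sub_add_cancel, h, one_pow, mul_one] at hr'
  set u := x - 1
  have hvr : v (r : K) ≤ 1 := (B.valuation_le_one_iff _).2 r.2
  have e : π ^ (p * m) * t = u ^ p + (p : K) * u * r := by linear_combination hr'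
  have hu : v u ≤ v π ^ m := by
    by_contra hcon
    push Not at hcon
    have hu0 : 0 < v u := lt_of_le_of_lt zero_le hcon
    have hsmall : v ((p : K) * u * r) < v (u ^ p) := by
      calc v ((p : K) * u * r) ≤ v (p : K) * v u := by
            rw [map_mul, map_mul]
            exact mul_le_of_le_one_right' hvr
        _ < v π ^ ((p - 1) * m) * v u := mul_lt_mul_of_pos_right hlt hu0
        _ ≤ v u ^ (p - 1) * v u := by
            rw [mul_comm (p - 1), pow_mul]
            exact mul_le_mul_left (pow_le_pow_left₀ zero_le hcon.le _) _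
        _ = v (u ^ p) := by rw [← pow_succ, Nat.sub_add_cancel hp.pos, map_pow]
    have h1 : v (π ^ (p * m) * t) = v u ^ p := by
      rw [e, v.map_add_eq_of_lt_left hsmall, map_pow]
    have h2 : v (π ^ (p * m) * t) ≤ v π ^ (p * m) := by
      rw [map_mul, map_pow]
      exact mul_le_of_le_one_right' ((B.valuation_le_one_iff t).2 ht)
    rw [h1, mul_comm p, pow_mul] at h2
    exact h2.not_gt (pow_lt_pow_left₀ hcon zero_le hp.ne_zero)
  refine ⟨u / π ^ m, (B.valuation_le_one_iff _).1 ?_, ?_⟩
  · rw [map_div₀, map_pow, div_le_one₀ (pow_pos hvπ m)]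
    exact hu
  · have e1 : (π ^ m) ^ p = π ^ (p * m) := by rw [← pow_mul, mul_comm]
    have e2 : t - (u / π ^ m) ^ p = (p : K) / π ^ ((p - 1) * m) * (u / π ^ m) * r := by
      have e3 : π ^ (p * m) = π ^ ((p - 1) * m) * π ^ m := by
        rw [← pow_add, ← add_one_mul, Nat.sub_add_cancel hp.one_le]
      rw [div_pow, e1]
      field_simp
      rw [e3] at e ⊢
      linear_combination π ^ ((p - 1) * m) * π ^ m * e
    rw [e2, map_mul, map_mul]
    refine mul_lt_one_of_lt_of_le (mul_lt_one_of_lt_of_le ?_ ?_) hvr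
    · rw [map_div₀, map_pow, div_lt_one₀ (pow_pos hvπ _)]
      exact hlt
    · rw [map_div₀, map_pow, div_le_one₀ (pow_pos hvπ m)]
      exact hu

/-- Two elements tied by `q`-th powers through an endomorphism. -/
theorem exists_sq_eq_mul_pow (τ : K →+* K) {q : ℕ} {a b h₁ h₂ : K} (ha : a ≠ 0) (hb : b ≠ 0)
    (hh₁ : h₁ ^ q = a * τ b) (hh₂ : h₂ ^ q = b * τ a) : ∃ h : K, τ (τ a) = a * h ^ q := by
  refine ⟨τ h₂ / h₁, ?_⟩
  rw [div_pow, ← map_pow, hh₂, map_mul, hh₁]
  have := (map_ne_zero τ).2 hb
  field_simp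

theorem exists_iterate_eq_mul_pow (τ : K →+* K) {q : ℕ} {a h : K}
    (ha : τ (τ a) = a * h ^ q) : ∀ n : ℕ, ∃ u : K, τ^[2 * n] a = a * u ^ q := by
  intro n
  induction n with
  | zero => exact ⟨1, by simp⟩
  | succ n ih =>
    obtain ⟨u, hu⟩ := ih
    refine ⟨h * τ (τ u), ?_⟩
    rw [show 2 * (n + 1) = 2 * n + 1 + 1 by ring, Function.iterate_succ_apply',
      Function.iterate_succ_apply', hu, map_mul, map_mul, map_pow, map_pow, ha]
    ring

end Root

/-- The divisor of a displaced function. -/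
theorem ord_displacement {K F' : Type*} [Field K] [Field F'] [Algebra K F'] (τ : SemilinearAut K F')
    {q : ℤ} {D : Divisor K F'} {g : F'} (hg : g ≠ 0) (h : ∀ P : Place K F', q * D P = P.ord g)
    (P : Place K F') : q * (τ • D - D) P = P.ord (τ • g / g) := by
  have h1 := SemilinearAut.ord_smul τ (τ⁻¹ • P) g
  rw [smul_inv_smul] at h1
  rw [Fermat.Agent.Curve.ord_div P ((smul_ne_zero_iff_ne _).2 hg) hg, h1, ← h, ← h,
    Finsupp.sub_apply, SemilinearAut.divisor_smul_apply]
  ring

theorem charP_residue_new (hA : A.LiesOverPrime p) : CharP (ResidueField A) p :=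
  EC.charP_residueField A Fact.out hA

theorem isALInvolution_swap_new (hpM : ¬ p ∣ M) :
    IsALInvolution ((swap p M : F ≃ₐ[Qb] F) : F →ₐ[Qb] F) :=
  ⟨(swap_spec p M hpM).1, (swap_spec p M hpM).2.1, (swap_spec p M hpM).2.2⟩

/-- The classes killed by both pushforwards. -/
def IsPushKilled (x : Pic0 Qb F) : Prop :=
  alphaPush M p x = 0 ∧ betaPush M p x = 0

theorem IsPushKilled.zsmul {x : Pic0 Qb F} (h : IsPushKilled x) (k : ℤ) :
    IsPushKilled (k • x) :=
  ⟨by rw [map_zsmul, h.1, zsmul_zero], by rw [map_zsmul, h.2, zsmul_zero]⟩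

theorem IsPushKilled.act_sub {x : Pic0 Qb F} (h : IsPushKilled x) (σ : Γℚ) :
    IsPushKilled (act p M σ • x - x) := by
  have h0 : σ • (0 : JZero M) = 0 := by
    rw [galois_smul_pic0_def]
    exact smul_zero (A := Pic0 Qb (modularFunctionFieldBar M))
      (arithmeticGalois (modularFunctionFieldFull M) σ)
  have hα : alphaPush M p (act p M σ • x) = σ • alphaPush M p x :=
    (galois_smul_alphaPush σ x).symm
  have hβ : betaPush M p (act p M σ • x) = σ • betaPush M p x :=
    (galois_smul_betaPush σ x).symm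
  refine ⟨?_, ?_⟩
  · rw [map_sub, hα, h.1, h0, sub_zero]
  · rw [map_sub, hβ, h.2, h0, sub_zero]

variable [IsAlgClosed (ResidueField A)]

/-- Data with the standard action, involution and residues along the first component. -/
structure IsStandard (T : TwoCompData p A F Fb) : Prop where
  not_dvd : ¬ p ∣ M
  liesOver : A.LiesOverPrime p
  act_eq : T.act = act p M
  swap_eq : T.swap = swap p M
  red_iff : ∀ (f : F) (g : Fb), (∃ h : f ∈ T.V false, T.red false ⟨f, h⟩ = g) ↔
    HasGaussRed (residue A) (f : LaurentSeries Qb) (g : LaurentSeries (ResidueField A))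

variable {T : TwoCompData p A (modularFunctionFieldBar (M * p))
  (modularFunctionFieldFullC (ResidueField A) M)}

namespace IsStandard

variable (hT : IsStandard T)
include hT

theorem swap_swap (f : F) : T.swap (T.swap f) = f := by
  rw [hT.swap_eq]
  exact (swap_spec p M hT.not_dvd).2.2 f

/-- The residue along a component. -/
theorem hasGaussRed_residueAt (i : Bool) {f : F} (hf : f ∈ T.V i) :
    HasGaussRed (residue A) ((toFirst p M i f : F) : LaurentSeries Qb)
      (T.residueAt i f : LaurentSeries (ResidueField A)) := by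
  rw [T.residueAt_of_mem hf]
  cases i
  · exact (hT.red_iff f _).1 ⟨hf, rfl⟩
  · have h : T.swap f ∈ T.V false := (T.swap_mem_iff f).2 hf
    rw [← T.red_swap ⟨f, hf⟩ h, toFirst_true, ← hT.swap_eq]
    exact (hT.red_iff (T.swap f) _).1 ⟨h, rfl⟩

theorem mem_of_hasGaussRed (i : Bool) {f : F} {g : LaurentSeries (ResidueField A)}
    (h : HasGaussRed (residue A) ((toFirst p M i f : F) : LaurentSeries Qb) g) : f ∈ T.V i := by
  have hg := X0.hasGaussRed_mem_fullC A p M hT.not_dvd hT.liesOver h
  have h1 : toFirst p M i f ∈ T.V false := ((hT.red_iff _ ⟨g, hg⟩).2 h).1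
  cases i
  · exact h1
  · rw [← T.swap_mem_iff, hT.swap_eq]
    exact h1

theorem residueAt_eq (i : Bool) {f : F} {g : Fb}
    (h : HasGaussRed (residue A) ((toFirst p M i f : F) : LaurentSeries Qb)
      (g : LaurentSeries (ResidueField A))) : T.residueAt i f = g :=
  Subtype.ext ((hT.hasGaussRed_residueAt i (hT.mem_of_hasGaussRed i h)).unique h)

theorem res_residueAt {f : F} (hf : ∀ i, f ∈ T.V i) :
    (gaussPair (residue A) M p ((swap p M : F ≃ₐ[Qb] F) : F →ₐ[Qb] F)).Res f
      (T.residueAt false f) (T.residueAt true f) :=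
  ⟨hT.hasGaussRed_residueAt false (hf false), hT.hasGaussRed_residueAt true (hf true)⟩

/-- Residues of functions whose norm is a power, close to `1`. -/
theorem exists_pow_residue_of_norm {G H : FL (M * p) Qb} (hG : ∀ i, G ∈ T.V i) {L : Level p A}
    {m : ℕ} (hm : 0 < m) (hlt : p * m < L.e + m) {K : FL M Qb}
    (hH : H = 1 + algebraMap Qb F L.π ^ (p * m) * G)
    (hK : normAlong (heckeAlphaBar Qb M p) H = K ^ p) :
    ∃ v : Fb, v ^ p = T.residueAt false G := by
  have hp : p.Prime := Fact.out
  haveI := charP_residue_new (p := p) hT.liesOver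
  obtain ⟨ι⟩ : Nonempty (Qb →+* ℂ) :=
    ⟨(IsAlgClosed.lift (R := ℚ) (S := Qb) (M := ℂ)).toRingHom⟩
  set w : F →ₐ[Qb] F := ((swap p M : F ≃ₐ[Qb] F) : F →ₐ[Qb] F)
  have hw := isALInvolution_swap_new (p := p) hT.not_dvd
  obtain ⟨h1, h2⟩ := hT.res_residueAt hG
  let x : pairBv (residue A) w := ⟨G, (mem_pairBv _ w).2 ⟨⟨_, h1⟩, ⟨_, h2⟩⟩⟩
  let a : A := ⟨L.π, L.π_mem⟩ ^ (p * m)
  have hπ0 : residue A ⟨L.π, L.π_mem⟩ = 0 := by
    rw [IsLocalRing.residue_eq_zero_iff]
    exact (A.valuation_lt_one_iff _).2 L.lt_one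
  obtain ⟨t, ht, hN⟩ := exists_norm_one_add (residue A) ι hT.not_dvd hw x (a := a)
    (by rw [map_pow, hπ0, zero_pow (Nat.mul_pos hp.pos hm).ne'])
  rw [(hasGaussRed_pairRed1 _ w x).unique h1] at ht
  set B := gaussFL (residue A) M with hB
  have htB : t ∈ B := (mem_gaussFL _).2 ⟨_, ht⟩
  have hcoe : (a : Qb) = L.π ^ (p * m) := by simp [a]
  have hKe : K ^ p = 1 + algebraMap Qb (FL M Qb) L.π ^ (p * m) * t := by
    rw [← hK, hH, ← map_pow, ← hcoe, ← map_pow, ← hcoe]
    exact hN
  have hmem : ∀ c : Qb, algebraMap Qb (FL M Qb) c ∈ B ↔ c ∈ A := fun c =>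
    algebraMap_mem_gaussRing_iff (residue A) (FL M Qb) _
  have hle : ∀ c d : Qb, d ≠ 0 → (B.valuation (algebraMap Qb (FL M Qb) c) ≤
      B.valuation (algebraMap Qb (FL M Qb) d) ↔ A.valuation c ≤ A.valuation d) := fun c d hd => by
    rw [← div_le_one₀ (zero_lt_iff.2 ((map_ne_zero _).2 hd)),
      ← div_le_one₀ (zero_lt_iff.2 ((map_ne_zero _).2 ((map_ne_zero _).2 hd))), ← map_div₀,
      ← map_div₀, ← map_div₀, ValuationSubring.valuation_le_one_iff,
      ValuationSubring.valuation_le_one_iff, hmem]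
  obtain ⟨u, huB, hu⟩ := exists_root_of_pow_eq_one_add hp htB
    ((map_ne_zero (algebraMap Qb (FL M Qb))).2 L.ne_zero)
    (by
      refine lt_of_not_ge fun hc => L.lt_one.not_ge ?_
      have := (hle 1 L.π L.ne_zero).1 (by simpa using hc)
      simpa using this)
    hm (by
      rw [← map_natCast (algebraMap Qb (FL M Qb)) p, ← map_pow, ← map_pow, ← not_le,
        hle _ _ (Nat.cast_ne_zero.2 hp.ne_zero), not_le, map_pow, ← L.pow_e]
      refine pow_lt_pow_right_of_lt_one₀ (zero_lt_iff.2 L.valuation_ne_zero) L.lt_one ?_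
      have hp' : p * m = (p - 1) * m + m := by
        rw [← add_one_mul, Nat.sub_add_cancel hp.one_le]
      omega)
    hKe
  obtain ⟨g, hg⟩ := (mem_gaussFL _).1 huB
  have hg' := BadPrime.hasGaussRed_mem_fullC residue_surjective
    (hasFullResidueDegree A hT.liesOver hT.not_dvd) hg
  refine ⟨⟨g, hg'⟩, Subtype.ext ?_⟩
  have h0 : HasGaussRed (residue A) ((t - u ^ p : FL M Qb) : LaurentSeries Qb) 0 := by
    have h := (ValuationSubring.mem_nonunits_iff (A := B)).2 hu
    exact (mem_nonunits_gaussRing (residue A) (FL M Qb) _).1 h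
  have h3 := h0.add (hg.pow p)
  rw [zero_add, ← IntermediateField.coe_pow, ← IntermediateField.coe_add, sub_add_cancel] at h3
  rw [IntermediateField.coe_pow]
  exact h3.unique ht

set_option maxHeartbeats 800000 in
/-- **Classes killed by both pushforwards are new.** -/
theorem pNew {x : Pic0 Qb F} (hx : IsPushKilled x) : T.PNew x := by
  intro D hD L f hf hDf hff hdiv g c G₀ m hg hgf hc hcf hG₀f hG₀V hm hlt he i
  have hp : p.Prime := Fact.out
  haveI := EichlerShimura.isFunctionField1_modularFunctionFieldBar (M * p)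
  haveI := EichlerShimura.isFunctionField1_modularFunctionFieldBar M
  subst hD
  have hdiv' : ∀ P : Place Qb F, (p : ℤ) * (D : Divisor Qb F) P = P.ord f := fun P => by
    rw [← hdiv P, Finsupp.smul_apply, smul_eq_mul]
  set α := heckeAlphaBar Qb M p
  set β := heckeBetaBar Qb M p
  have hαi := BadPrime.isIntegral_heckeAlphaBar M p
  have hβi := BadPrime.isIntegral_heckeBetaBar M p
  obtain ⟨Hα, hHα⟩ := BadPrime.PairResidue.exists_norm_eq_pow hp.ne_zero hαi
    (finiteAlong_heckeAlphaBar M p)
    (normFormulaAlong_heckeAlphaBar M p) Torsion.constantsAreConstant hf hdiv'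
    (pushforward_alpha_mem_principal hαi hx.1)
  obtain ⟨Hβ, hHβ⟩ := BadPrime.PairResidue.exists_norm_eq_pow hp.ne_zero hβi
    (finiteAlong_heckeBetaBar M p)
    (normFormulaAlong_heckeBetaBar M p) Torsion.constantsAreConstant hf hdiv'
    (pushforward_beta_mem_principal hβi hx.2)
  set one_add := 1 + algebraMap Qb F L.π ^ (p * m) * G₀ with hone
  have key : ∀ ψ : FL M Qb →ₐ[Qb] FL (M * p) Qb, ∀ Hψ : FL M Qb, normAlong ψ f = Hψ ^ p →
      ∃ K : FL M Qb, normAlong ψ one_add = K ^ p := by
    intro ψ Hψ hψ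
    obtain ⟨n, hn⟩ : ∃ n : ℕ, normAlong ψ (algebraMap Qb F c) =
        algebraMap Qb (FL M Qb) (c ^ n) := by
      letI := algebraAlong ψ
      refine ⟨Module.finrank (FL M Qb) (FL (M * p) Qb), ?_⟩
      show Algebra.norm (FL M Qb) (algebraMap Qb F c) = _
      rw [← ψ.commutes c, map_pow]
      exact Algebra.norm_algebraMap _
    obtain ⟨γ, hγ⟩ := IsAlgClosed.exists_pow_nat_eq (c ^ n) hp.pos
    refine ⟨algebraMap Qb (FL M Qb) γ⁻¹ * (Hψ * normAlong ψ g), ?_⟩
    have h := congrArg (normAlong ψ) he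
    rw [map_mul, map_mul, map_pow, hψ, hn, ← hγ, map_pow] at h
    have hγ0 : algebraMap Qb (FL M Qb) γ ≠ 0 :=
      (map_ne_zero _).2 fun e => pow_ne_zero n hc (by rw [← hγ, e, zero_pow hp.ne_zero])
    rw [mul_pow, mul_pow, h, map_inv₀, inv_pow, inv_mul_cancel_left₀ (pow_ne_zero p hγ0)]
  cases i
  · obtain ⟨K, hK⟩ := key α Hα hHα
    exact hT.exists_pow_residue_of_norm hG₀V hm hlt rfl hK
  · obtain ⟨K, hK⟩ := key β Hβ hHβ
    rw [normAlong_beta (isALInvolution_swap_new (p := p) hT.not_dvd)] at hK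
    have hsV : ∀ j, T.swap G₀ ∈ T.V j := by
      intro j
      cases j
      · exact (T.swap_mem_iff G₀).2 (hG₀V true)
      · rw [← T.swap_mem_iff, hT.swap_swap]
        exact hG₀V false
    obtain ⟨v, hv⟩ := hT.exists_pow_residue_of_norm hsV hm hlt (H := swap p M one_add)
      (by rw [hone, ← hT.swap_eq, map_add, map_one, map_mul, map_pow, T.swap.commutes]) hK
    refine ⟨v, hv.trans (hT.residueAt_eq false ?_)⟩
    rw [toFirst_false, hT.swap_eq, ← toFirst_true]
    exact hT.hasGaussRed_residueAt true (hG₀V true)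

end IsStandard

section Frobenius

/-- The action of the decomposition group on the residue field. -/
def residueHom {σ : Γℚ} (hσ : σ ∈ A.decompositionSubgroup ℚ) :
    ResidueField A →+* ResidueField A :=
  MulSemiringAction.toRingHom (A.decompositionSubgroup ℚ) (ResidueField A) ⟨σ, hσ⟩

theorem hasGaussRed_decomposition {σ : Γℚ} (hσ : σ ∈ A.decompositionSubgroup ℚ)
    {f : LaurentSeries Qb} {g : LaurentSeries (ResidueField A)}
    (h : HasGaussRed (residue A) f g) :
    HasGaussRed (residue A) (coeffMap (σ : Qb →+* Qb) f) (coeffMap (residueHom hσ) g) := by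
  have hsA : ∀ x, x ∈ A → σ.toRingEquiv x ∈ A := fun x hx =>
    (EC.apply_mem_iff_of_mem_decompositionSubgroup A hσ x).2 hx
  have hα : ∀ x : A, residue A ⟨σ.toRingEquiv x, hsA x x.2⟩ =
      MulSemiringAction.toRingEquiv (A.decompositionSubgroup ℚ) (ResidueField A) ⟨σ, hσ⟩
        (residue A x) := fun x => rfl
  exact h.coeffMap_auto hsA hα

omit [IsAlgClosed (ResidueField A)] in
/-- Iterated twists raise coefficients to powers of `p`. -/
theorem coeff_iterate_componentTwist [CharP (ResidueField A) p] (j : ℕ) (b : Fb) (i : ℤ) :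
    ((((componentTwist M p (ResidueField A))^[j] b : Fb) :
        LaurentSeries (ResidueField A))).coeff i =
      ((b : LaurentSeries (ResidueField A)).coeff i) ^ p ^ j := by
  induction j with
  | zero => simp
  | succ j ih =>
    rw [Function.iterate_succ_apply', coe_componentTwist, frobTwist, coeffMap_coeff,
      frobenius_def, ih, ← pow_mul, pow_succ]

omit [IsAlgClosed (ResidueField A)] in
/-- Endomorphisms commute with iterated twists. -/
theorem coeffMap_iterate_componentTwist [CharP (ResidueField A) p]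
    (φ : ResidueField A →+* ResidueField A) (j s : ℕ) {b : Fb}
    (hb : coeffMap φ (b : LaurentSeries (ResidueField A)) =
      (((componentTwist M p (ResidueField A))^[s] b : Fb) : LaurentSeries (ResidueField A))) :
    coeffMap φ (((componentTwist M p (ResidueField A))^[j] b : Fb) :
        LaurentSeries (ResidueField A)) =
      (((componentTwist M p (ResidueField A))^[j + s] b : Fb) : LaurentSeries (ResidueField A)) := by
  refine HahnSeries.ext (funext fun n => ?_)
  have h := congrArg (fun x : LaurentSeries (ResidueField A) => x.coeff n) hb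
  rw [coeffMap_coeff, coeff_iterate_componentTwist] at h
  rw [coeffMap_coeff, coeff_iterate_componentTwist, map_pow, h, coeff_iterate_componentTwist,
    ← pow_mul, pow_add, mul_comm]

/-- An endomorphism of the residue field acts on a residue as a power of Frobenius. -/
theorem exists_coeffMap_eq_iterate (hA : A.LiesOverPrime p) [CharP (ResidueField A) p]
    (φ : ResidueField A →+* ResidueField A) (a : Fb) :
    ∃ s : ℕ, coeffMap φ (a : LaurentSeries (ResidueField A)) =
      (((componentTwist M p (ResidueField A))^[s] a : Fb) : LaurentSeries (ResidueField A)) := by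
  classical
  have hp : p.Prime := Fact.out
  letI := ZMod.algebra (ResidueField A) p
  have halg : Algebra.IsAlgebraic (ZMod p) (ResidueField A) := ⟨fun x => by
    obtain ⟨n, hn, hx⟩ := EC.exists_pow_q_pow_eq_self A hp hA x
    exact ⟨Polynomial.X ^ p ^ n - Polynomial.X,
      FiniteField.X_pow_card_pow_sub_X_ne_zero _ hn.ne' hp.one_lt, by simp [hx]⟩⟩
  obtain ⟨k₀, hk₀, g₀, hg₀⟩ := BadPrime.Sq.exists_finite_coeff M halg a.2
  haveI : Finite k₀ := Module.finite_of_finite (ZMod p)
  haveI := Fintype.ofFinite k₀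
  obtain ⟨u, hu⟩ := IsCyclic.exists_generator (α := k₀ˣ)
  obtain ⟨n, hn, hun⟩ := EC.exists_pow_q_pow_eq_self A hp hA ((u : k₀) : ResidueField A)
  obtain ⟨s, hs⟩ := RT.exists_apply_eq_pow hp φ hn hun
  have hall : ∀ c : k₀, φ (c : ResidueField A) = (c : ResidueField A) ^ p ^ s := by
    intro c
    rcases eq_or_ne c 0 with rfl | hc
    · simp [zero_pow (pow_ne_zero s hp.ne_zero)]
    · obtain ⟨e, he⟩ := (mem_powers_iff_mem_zpowers (x := u)).2 (hu (Units.mk0 c hc))
      have he' : ((u : k₀) : ResidueField A) ^ e = (c : ResidueField A) := by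
        have := congrArg (fun w : k₀ˣ => ((w : k₀) : ResidueField A)) he
        simpa using this
      rw [← he', map_pow, hs, ← pow_mul, ← pow_mul, mul_comm]
  refine ⟨s, ?_⟩
  refine HahnSeries.ext (funext fun i => ?_)
  rw [coeffMap_coeff, coeff_iterate_componentTwist]
  have hc : (a : LaurentSeries (ResidueField A)).coeff i = ((g₀.coeff i : k₀) : ResidueField A) := by
    rw [← hg₀, coeffMap_coeff]
    rfl
  rw [hc]
  exact hall _

namespace IsStandard

variable (hT : IsStandard T)
include hT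

theorem hasGaussRed_act (i : Bool) {σ : Γℚ} (hσ : σ ∈ A.decompositionSubgroup ℚ) {f : F}
    (hf : f ∈ T.V i) :
    HasGaussRed (residue A) ((toFirst p M i (T.act σ • f) : F) : LaurentSeries Qb)
      (coeffMap (residueHom hσ) (T.residueAt i f : LaurentSeries (ResidueField A))) := by
  have h := hasGaussRed_decomposition hσ (hT.hasGaussRed_residueAt i hf)
  rw [hT.act_eq]
  cases i
  · exact h
  · rw [toFirst_true, swap_act, coe_act_smul]
    exact h

theorem valuation_act {i : Bool} {σ : Γℚ} (hσ : σ ∈ A.decompositionSubgroup ℚ) {f : F}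
    (hf : (T.V i).valuation f = 1) : (T.V i).valuation (T.act σ • f) = 1 := by
  have hf0 : f ≠ 0 := fun h => by simp [h] at hf
  refine valuation_eq_one_of_inv_mem _ ((smul_ne_zero_iff_ne _).2 hf0)
    (hT.mem_of_hasGaussRed i (hT.hasGaussRed_act i hσ (T.mem_of_valuation_eq_one hf))) ?_
  rw [← smul_inv'' (T.act σ) f]
  exact hT.mem_of_hasGaussRed i (hT.hasGaussRed_act i hσ
    (T.mem_of_valuation_eq_one (by rw [map_inv₀, hf, inv_one])))

/-- The two residues of a function whose norms are `q`-th powers determine each other. -/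
theorem exists_componentTwist_sq [CharP (ResidueField A) p] {q : ℕ} (hq : q ≠ 0) {g : F}
    (hg : ∀ i, (T.V i).valuation g = 1) {Hα Hβ : FL M Qb}
    (hα : normAlong (heckeAlphaBar Qb M p) g = Hα ^ q)
    (hβ : normAlong (heckeBetaBar Qb M p) g = Hβ ^ q) (i : Bool) :
    ∃ h : Fb, componentTwist M p (ResidueField A)
        (componentTwist M p (ResidueField A) (T.residueAt i g)) = T.residueAt i g * h ^ q := by
  set τ := componentTwist M p (ResidueField A) with hτ
  have hres := hT.res_residueAt fun i => T.mem_of_valuation_eq_one (hg i)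
  have hw := isALInvolution_swap_new (p := p) hT.not_dvd
  set a := T.residueAt false g
  set b := T.residueAt true g
  have ha : a ≠ 0 := TwoCompData.residueAt_ne_zero (hg false)
  have hb : b ≠ 0 := TwoCompData.residueAt_ne_zero (hg true)
  obtain ⟨h1, hh1⟩ := exists_pow_eq_of_norm_alpha hT.liesOver hT.not_dvd hw hq hres hα
  rw [normAlong_beta hw] at hβ
  obtain ⟨h2, hh2⟩ := exists_pow_eq_of_norm_alpha hT.liesOver hT.not_dvd hw hq
    (f := ((swap p M : F ≃ₐ[Qb] F) : F →ₐ[Qb] F) g) (a := b) (b := a)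
    ⟨hres.2, by rw [hw.invol]; exact hres.1⟩ hβ
  cases i
  · exact exists_sq_eq_mul_pow τ ha hb hh1 hh2
  · exact exists_sq_eq_mul_pow τ hb ha hh2 hh1

set_option maxHeartbeats 800000 in
/-- The residue of a displacement by the square of a decomposition element. -/
theorem exists_pow_residue_displacement [CharP (ResidueField A) p] {q : ℕ} (hq : 0 < q) {g : F}
    (hgv : ∀ i, (T.V i).valuation g = 1) {Hα Hβ : FL M Qb}
    (hHα : normAlong (heckeAlphaBar Qb M p) g = Hα ^ q)
    (hHβ : normAlong (heckeBetaBar Qb M p) g = Hβ ^ q) {σ : Γℚ}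
    (hσ : σ ∈ A.decompositionSubgroup ℚ) (i : Bool) :
    ∃ u : Fb, u ^ q = T.residueAt i (T.act σ • (T.act σ • g) / g) := by
  have h1 := hT.valuation_act hσ (hgv i)
  have h2 := hT.valuation_act hσ h1
  set a := T.residueAt i g with ha
  obtain ⟨s, hs⟩ := exists_coeffMap_eq_iterate (p := p) (M := M) hT.liesOver (residueHom hσ) a
  set τ := componentTwist M p (ResidueField A) with hτ
  have hσ1 : T.residueAt i (T.act σ • g) = τ^[s] a := hT.residueAt_eq i (by
    have h := hT.hasGaussRed_act i hσ (T.mem_of_valuation_eq_one (hgv i))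
    rwa [hs] at h)
  have hσ2 : T.residueAt i (T.act σ • (T.act σ • g)) = τ^[2 * s] a := hT.residueAt_eq i (by
    have h := hT.hasGaussRed_act i hσ (T.mem_of_valuation_eq_one h1)
    rw [hσ1, coeffMap_iterate_componentTwist _ s s hs, ← two_mul] at h
    exact h)
  obtain ⟨e, he⟩ := hT.exists_componentTwist_sq hq.ne' hgv hHα hHβ i
  rw [← ha] at he
  obtain ⟨u, hu⟩ := exists_iterate_eq_mul_pow τ he s
  refine ⟨u, ?_⟩
  have ha0 : a ≠ 0 := TwoCompData.residueAt_ne_zero (hgv i)
  rw [div_eq_mul_inv, TwoCompData.residueAt_mul (T.mem_of_valuation_eq_one h2)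
    (T.mem_of_valuation_eq_one (by rw [map_inv₀, hgv i, inv_one])),
    TwoCompData.residueAt_inv (hgv i), hσ2, hu, ← ha, mul_comm a, mul_assoc,
    mul_inv_cancel₀ ha0, mul_one]

set_option maxHeartbeats 800000 in
/-- The function of a displaced class has valuation one along both components. -/
theorem valuation_displacement {f : F} (hf : f ≠ 0) {σ : Γℚ}
    (hσ : σ ∈ A.decompositionSubgroup ℚ) (i : Bool) :
    (T.V i).valuation (T.act σ • f / f) = 1 := by
  obtain ⟨c, hc, hcv⟩ := T.exists_scalar i hf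
  have hcA : (T.V i).valuation (algebraMap Qb F (σ c)) =
      (T.V i).valuation (algebraMap Qb F c) :=
    T.valuation_algebraMap_eq i (EC.Mult.valuation_apply hσ c)
  have h := hT.valuation_act hσ hcv
  rw [smul_mul', SemilinearAut.smul_algebraMap, T.baseAut_act, map_mul, hcA] at h
  rw [map_mul] at hcv
  rw [map_div₀]
  have h0 : (T.V i).valuation (algebraMap Qb F c) ≠ 0 :=
    (map_ne_zero _).2 ((map_ne_zero _).2 hc)
  rw [mul_left_cancel₀ h0 (h.trans hcv.symm), div_self ((map_ne_zero _).2 hf)]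

set_option maxHeartbeats 800000 in
/-- **Frobenius displacements of classes killed by both pushforwards.** -/
theorem picPow_frobenius [IsFunctionField1 Qb F] {x : Pic0 Qb F} (hx : IsPushKilled x) {q : ℕ}
    (hq : 0 < q) (hqx : (q : ℤ) • x = 0) {σ : Γℚ} (hσ : σ ∈ A.decompositionSubgroup ℚ) :
    T.PicPow (T.act σ • (T.act σ • (T.act σ • x - x)) - (T.act σ • x - x)) q := by
  have hp : p.Prime := Fact.out
  haveI := charP_residue_new (p := p) hT.liesOver
  haveI := EichlerShimura.isFunctionField1_modularFunctionFieldBar M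
  have hsm : ∀ y : Pic0 Qb F, T.act σ • y = act p M σ • y := fun y => by rw [hT.act_eq]
  have hy : IsPushKilled (T.act σ • x - x) := by
    rw [hsm]
    exact hx.act_sub σ
  obtain ⟨D, rfl⟩ := Pic0.mk_surjective x
  obtain ⟨f, hf, hford⟩ :=
    (TwoCompData.mk_eq_zero_iff (D := (q : ℤ) • D)).1 hqx
  set g := T.act σ • f / f with hgdef
  have hσf : T.act σ • f ≠ 0 := (smul_ne_zero_iff_ne _).2 hf
  have hg0 : g ≠ 0 := div_ne_zero hσf hf
  have hgv : ∀ i, (T.V i).valuation g = 1 := fun i => hT.valuation_displacement hf hσ i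
  set D' : (Divisor.degZero : AddSubgroup (Divisor Qb F)) :=
    SemilinearAut.degZeroSMulHom (T.act σ) D - D with hD'
  have hD'mk : Pic0.mk D' = T.act σ • Pic0.mk D - Pic0.mk D := by
    rw [hD', SemilinearAut.pic0_smul_mk]
    rfl
  have hgord : ∀ P : Place Qb F, (q : ℤ) * (D' : Divisor Qb F) P = P.ord g := fun P =>
    ord_displacement (T.act σ) (D := (D : Divisor Qb F)) hf
      (fun P => (hford P : (q : ℤ) * (D : Divisor Qb F) P = P.ord f)) P
  rw [← hD'mk] at hy ⊢
  have hαi := BadPrime.isIntegral_heckeAlphaBar M p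
  have hβi := BadPrime.isIntegral_heckeBetaBar M p
  obtain ⟨Hα, hHα⟩ := BadPrime.PairResidue.exists_norm_eq_pow hq.ne' hαi
    (finiteAlong_heckeAlphaBar M p)
    (normFormulaAlong_heckeAlphaBar M p) Torsion.constantsAreConstant hg0 hgord
    (pushforward_alpha_mem_principal hαi hy.1)
  obtain ⟨Hβ, hHβ⟩ := BadPrime.PairResidue.exists_norm_eq_pow hq.ne' hβi
    (finiteAlong_heckeBetaBar M p)
    (normFormulaAlong_heckeBetaBar M p) Torsion.constantsAreConstant hg0 hgord
    (pushforward_beta_mem_principal hβi hy.2)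
  set E : (Divisor.degZero : AddSubgroup (Divisor Qb F)) :=
    SemilinearAut.degZeroSMulHom (T.act σ) (SemilinearAut.degZeroSMulHom (T.act σ) D') - D'
    with hE
  have hEmk : Pic0.mk E = T.act σ • (T.act σ • Pic0.mk D') - Pic0.mk D' := by
    rw [hE, SemilinearAut.pic0_smul_mk, SemilinearAut.pic0_smul_mk]
    rfl
  rw [← hEmk]
  set z := T.act σ • (T.act σ • g) / g with hz
  have hσσg : T.act σ • (T.act σ • g) ≠ 0 := (smul_ne_zero_iff_ne _).2
    ((smul_ne_zero_iff_ne _).2 hg0)
  have hzord : ∀ P : Place Qb F, ((q : ℤ) • (E : Divisor Qb F)) P = P.ord z := fun P => by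
    have h := ord_displacement (T.act σ * T.act σ) hg0 hgord P
    rw [mul_smul, mul_smul] at h
    exact h
  have hz0 : z ≠ 0 := div_ne_zero hσσg hg0
  refine T.picPow_mk hq ⟨z, hz0, hzord⟩ (T.powResidue_of_exists hq fun i => ?_)
  have h1 := hT.valuation_act hσ (hgv i)
  have h2 := hT.valuation_act hσ h1
  refine ⟨z, hz0, hzord, by rw [hz, map_div₀, h2, hgv i, div_one], ?_⟩
  exact hT.exists_pow_residue_displacement hq hgv hHα hHβ hσ i

end IsStandard

end Frobenius

end Fermat.Agent.LevelP.X0
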