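import Fermat.Agent.LevelP.Ordinary.AuxLevel
import Fermat.Agent.LevelP.Ordinary.Lattice
import Fermat.Agent.LevelP.Ordinary.X0New
import Fermat.Agent.LevelP.X0.Main
import Fermat.Agent.BadPrime.TateEigen
import Fermat.Agent.BadPrime.Reps
import Fermat.Agent.EichlerShimura.Inputs
import Fermat.Agent.RT.Assembly.HeckeRep
import Fermat.Agent.RT.Assembly.LocalPoint
import Fermat.Agent.Reduction.ModularBasics
import Fermat.Agent.EC.Red.ResidueQbar

/-!
# Newform systems with `p` exactly dividing the level are strictly ordinary at `p`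

The plane of a newform of level `M p`, `p ∤ M`, sits in the torsion of `J₀(M p)` killed by both
pushforwards to level `M`, hence in the new classes of the two-component data at `p`; residual
strict ordinarity then lifts.

Owner: helper46.
-/

set_option autoImplicit false
set_option synthInstance.maxHeartbeats 400000
set_option linter.style.haveILetI false

noncomputable section

namespace Fermat.Agent.LevelP

open AlgebraicCurve ModularCurve IsLocalRing Polynomial
open Fermat.Agent.Curve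
open Fermat.Agent.BadPrime (alphaPush betaPush)
open scoped TensorProduct

local notation "Qb" => AlgebraicClosure ℚ
local notation "Γℚ" => (AlgebraicClosure ℚ ≃ₐ[ℚ] AlgebraicClosure ℚ)

section Plane

variable {p M : ℕ} [Fact p.Prime] [NeZero M] {O : Type} [CommRing O] [IsDomain O]
  [IsDiscreteValuationRing O] [CharZero O]

set_option maxHeartbeats 800000 in
/-- A plane in the classes killed by both pushforwards with residually strictly ordinary
reduction satisfies the strict ordinary equations. -/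
theorem strictOrdEqns_of_killedFamily (hp3 : 3 ≤ p) (hpM : ¬ p ∣ M) (hN3 : p = 3 → 2 ∣ M)
    (hpO : (p : O) ∈ maximalIdeal O) {ρ : GaloisRepAdic O} (hdet : ρ.DetIsCyclotomic p)
    (b : Module.Basis (Fin 2) O ρ.V) (c₀ : ℕ)
    (hfam : ∀ n : ℕ, ∃ (m : ℕ) (f : ρ.V →+ (Fin m → JZero (M * p))),
      (∀ v, f v = 0 ↔ ∃ w, v = ((p : O) ^ n) • w) ∧ (∀ v i, p ^ n • f v i = 0) ∧
      (∀ σ v i, f (ρ.ρ σ v) i = σ • f v i) ∧
      ∀ v i, alphaPush M p (p ^ c₀ • f v i) = 0 ∧ betaPush M p (p ^ c₀ • f v i) = 0)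
    {A : ValuationSubring Qb} (hA : A.LiesOverPrime p) {σ₀ : Γℚ}
    (hσ₀ : σ₀ ∈ A.inertiaSubgroupIn ℚ) {a₀ : ℕ} (ha : RT.ActsByExp p 1 σ₀ a₀)
    (ha₀ : ¬ (p : ℤ) ∣ (a₀ : ℤ) - 1)
    (hres : OrdEqn A σ₀ (Deformation.mapRep (residue O) (Deformation.matOf ρ.ρ b))) :
    RT.StrictOrdEqns p A σ₀ (Deformation.matOf ρ.ρ b) := by
  have hp : p.Prime := Fact.out
  haveI : NeZero p := ⟨hp.ne_zero⟩
  haveI : NeZero (M * p) := ⟨Nat.mul_ne_zero (NeZero.ne M) hp.ne_zero⟩
  haveI : IsAlgClosed (ResidueField A) := EC.isAlgClosed_residueField A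
  haveI : IsFunctionField1 Qb (modularFunctionFieldBar (M * p)) :=
    Reduction.isFunctionField1_bar_basic (M * p)
  haveI : IsFunctionField1 (ResidueField A) (modularFunctionFieldFullC (ResidueField A) M) :=
    Reduction.isFunctionField1_fullC_basic M (ResidueField A)
  obtain ⟨T, hact, hswap, hred, -⟩ :=
    X0.exists_twoCompData' A p M ⟨fun h => by omega, hN3⟩ hpM hA
  have hT : X0.IsStandard T := ⟨hpM, hA, hact, hswap, hred⟩
  have hsm : ∀ (σ : Γℚ) (y : JZero (M * p)), T.act σ • y = σ • y := fun σ y => by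
    rw [hact, galois_smul_pic0_def]
    rfl
  obtain ⟨ζ, hζ⟩ := EC.exists_primitiveRoot_qbar p
  have hσ₀ζ : σ₀ ζ ≠ ζ := by
    intro h
    rw [ha ζ (by rw [pow_one]; exact hζ.pow_eq_one)] at h
    refine ha₀ ((hζ.zpow_eq_one_iff_dvd _).1 ?_)
    rw [zpow_sub₀ (hζ.ne_zero hp.ne_zero), zpow_natCast, zpow_one, h,
      div_self (hζ.ne_zero hp.ne_zero)]
  refine TwoCompData.strictOrdEqns_of_embedsLevel (M := T) hp hp3 hA hζ hpO hσ₀ hσ₀ζ
    (fun σ n a h => ?_) (Q := X0.IsPushKilled)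
    (fun x hx k => hT.pNew (hx.zsmul k))
    (fun x hx q hq hqx σ hσ => hT.picPow_frobenius hx hq hqx hσ)
    (fun n => ?_) (fun y => ?_) hres
  · rw [Deformation.matOf_apply, LinearMap.det_toMatrix]
    exact hdet.2 n σ a h
  · obtain ⟨m, f, hker, htor, heq, hkill⟩ := hfam (n + c₀)
    refine ⟨m, (DistribSMul.toAddMonoidHom (Fin m → JZero (M * p)) (p ^ c₀)).comp
      (f.comp b.equivFun.symm.toAddMonoidHom), fun v => ?_, fun v j => ?_, fun σ v j => ?_,
      fun v j => hkill _ j⟩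
    · show p ^ c₀ • f (b.equivFun.symm v) = 0 ↔ _
      rw [← map_nsmul, hker]
      constructor
      · rintro ⟨w, hw⟩
        refine ⟨b.equivFun w, funext fun i => mul_left_cancel₀
          (pow_ne_zero c₀ (Nat.cast_ne_zero.2 hp.ne_zero : (p : O) ≠ 0)) ?_⟩
        have h := congrFun (congrArg b.equivFun hw) i
        rw [map_nsmul, LinearEquiv.apply_symm_apply, map_smul, pow_add] at h
        simp only [Pi.smul_apply, smul_eq_mul, nsmul_eq_mul, Nat.cast_pow] at h ⊢
        rw [h]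
        ring
      · rintro ⟨w, rfl⟩
        refine ⟨b.equivFun.symm w, ?_⟩
        rw [map_smul, ← Nat.cast_smul_eq_nsmul O, smul_smul, Nat.cast_pow, ← pow_add,
          add_comm]
    · show p ^ n • p ^ c₀ • f (b.equivFun.symm v) j = 0
      rw [smul_smul, ← pow_add]
      exact htor _ j
    · show p ^ c₀ • f (b.equivFun.symm ((Deformation.matOf ρ.ρ b σ).mulVec v)) j =
        T.act σ • (p ^ c₀ • f (b.equivFun.symm v) j)
      have hmv : b.equivFun.symm ((Deformation.matOf ρ.ρ b σ).mulVec v) =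
          ρ.ρ σ (b.equivFun.symm v) := by
        refine b.equivFun.injective ?_
        rw [LinearEquiv.apply_symm_apply, Deformation.matOf_apply, Module.Basis.equivFun_apply,
          ← LinearMap.toMatrix_mulVec_repr b b, ← Module.Basis.equivFun_apply,
          LinearEquiv.apply_symm_apply]
      rw [hmv, heq, hsm]
      exact (map_nsmul (DistribSMul.toAddMonoidHom (JZero (M * p)) σ) _ _).symm
  · obtain ⟨K, hK, hfix⟩ := EichlerShimura.galoisFiniteLevel_modular (M * p) y
    exact ⟨K, hK, fun σ h => by rw [hsm]; exact hfix σ h⟩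

/-- Representations realised in classes killed by both pushforwards, with cyclotomic determinant
and residually satisfying the ordinary equation, are strictly ordinary. -/
theorem isStrictOrdinaryAt_of_killedFamily (hp3 : 3 ≤ p) (hpM : ¬ p ∣ M)
    (hN3 : p = 3 → 2 ∣ M) {ρ : GaloisRepAdic O} (hdet : ρ.DetIsCyclotomic p)
    (b : Module.Basis (Fin 2) O ρ.V) (c₀ : ℕ)
    (hfam : ∀ n : ℕ, ∃ (m : ℕ) (f : ρ.V →+ (Fin m → JZero (M * p))),
      (∀ v, f v = 0 ↔ ∃ w, v = ((p : O) ^ n) • w) ∧ (∀ v i, p ^ n • f v i = 0) ∧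
      (∀ σ v i, f (ρ.ρ σ v) i = σ • f v i) ∧
      ∀ v i, alphaPush M p (p ^ c₀ • f v i) = 0 ∧ betaPush M p (p ^ c₀ • f v i) = 0)
    (hres : ∀ P : ValuationSubring Qb, P.LiesOverPrime p → ∀ σ₀ ∈ P.inertiaSubgroupIn ℚ,
      OrdEqn P σ₀ (Deformation.mapRep (residue O) (Deformation.matOf ρ.ρ b))) :
    ρ.IsStrictOrdinaryAt p := by
  have hp : p.Prime := Fact.out
  refine (RT.isStrictOrdinaryAt_iff_hasStrictLine ρ p).2 ⟨hdet.1, fun P hP => ?_⟩
  obtain ⟨σ₀, hσ₀, a₀, ha, ha₀⟩ := RT.exists_mem_inertia_exponent hp (by omega) hP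
  exact RT.hasStrictLine_of_eqns ρ b (RT.isUnit_det_sub_one ρ hp hdet ha ha₀ b)
    (strictOrdEqns_of_killedFamily hp3 hpM hN3 hdet.1 hdet b c₀ hfam hP hσ₀ ha ha₀
      (hres P hP σ₀ hσ₀))

end Plane

set_option maxHeartbeats 800000 in
/-- **Strict ordinarity of newform systems at primes exactly dividing the level.** -/
theorem strictOrdinary_of_newform {p : ℕ} [Fact p.Prime] (hp2 : p ≠ 2) {L : ℕ} [NeZero L]
    (hpL : p ∣ L) (hp2L : ¬ p ^ 2 ∣ L) {S : Finset ℕ} (hpS : p ∈ S)
    (hS : ∀ q : ℕ, q.Prime → q ∣ L → q ∈ S) {O : Type} [CommRing O] [IsDomain O]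
    [IsDiscreteValuationRing O] [IsAdicComplete (maximalIdeal O) O] [Finite (ResidueField O)]
    [CharZero O] (hpO : (p : O) ∈ maximalIdeal O) {c : Nat.Primes → O}
    (hc : RT.Assembly.IsNewformSystem S L c) (ρ : GaloisRepAdic O)
    (hfrob : ∀ (ℓ : ℕ) (hℓ : ℓ.Prime), ℓ ∉ S → ∀ A : ValuationSubring Qb, A.LiesOverPrime ℓ →
      ∀ σ : Γℚ, A.IsFrobeniusAt σ ℓ →
        LinearMap.charpoly (ρ.ρ σ) = X ^ 2 - C (c ⟨ℓ, hℓ⟩) * X + C (ℓ : O))
    (habs : ρ.residual.IsAbsolutelyIrreducible)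
    (hord : (GaloisRepAdic.ofResidualGaloisRep ρ.residual).IsStrictOrdinaryAt p) :
    ρ.IsStrictOrdinaryAt p := by
  have hp : p.Prime := Fact.out
  have hp3 : 3 ≤ p := by have := hp.two_le; omega
  obtain ⟨g, chig, emb, hg, hchig, hemb⟩ := hc
  obtain ⟨O'', _, _, _, _, _, _, _, _, hloc, hinj, hpO'', r, hr, hdet'', hrep⟩ :=
    BadPrime.exists_newformTateRep (BadPrime.hasEigenRep_modular L) hg p S O hpO chig hchig emb
      hpS hS
  set i := algebraMap O O'' with hi
  have hnd : ∀ {ℓ : ℕ}, ℓ.Prime → ℓ ∉ S → ¬ ℓ ∣ L := fun hℓ hℓS h => hℓS (hS _ hℓ h)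
  have hr' : ∀ (ℓ : ℕ) (hℓ : ℓ.Prime), ℓ ∉ S → ∀ A : ValuationSubring Qb,
      A.LiesOverPrime ℓ → ∀ σ : Γℚ, A.IsFrobeniusAt σ ℓ →
        LinearMap.charpoly (r.ρ σ) = (LinearMap.charpoly (ρ.ρ σ)).map i := by
    intro ℓ hℓ hℓS A hA σ hσ
    have hℓS' : ℓ ∉ (↑S : Set ℕ) := fun h => hℓS (Finset.mem_coe.mp h)
    rw [hr ℓ hℓ (hnd hℓ hℓS) hℓS' A hA σ hσ, hfrob ℓ hℓ hℓS A hA σ hσ, RingHom.comp_apply,
      hemb ℓ hℓ (hnd hℓ hℓS) hℓS']
    simp [hi]
  -- `r` is the base change of `ρ`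
  have hirr : r.residual.IsAbsolutelyIrreducible := by
    let ι : ResidueField O →+* ResidueField O'' := ResidueField.map i
    letI : Algebra (ResidueField O) (ResidueField O'') := ι.toAlgebra
    refine Density.isAbsolutelyIrreducible_of_isEquiv (Density.residual_isEquiv_of_frobenius
      (ρ.residual.baseChange (ResidueField O'')) r.residual S
      (RT.isAbsolutelyIrreducible_baseChange ρ.residual habs _) fun ℓ hℓ hℓS B hB σ hσ => ?_)
      (RT.isAbsolutelyIrreducible_baseChange ρ.residual habs _)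
    show LinearMap.charpoly (((ρ.ρ σ).baseChange (ResidueField O)).baseChange (ResidueField O'')) =
      LinearMap.charpoly ((r.ρ σ).baseChange (ResidueField O''))
    rw [LinearMap.charpoly_baseChange, LinearMap.charpoly_baseChange,
      LinearMap.charpoly_baseChange, hr' ℓ hℓ hℓS B hB σ hσ, Polynomial.map_map,
      Polynomial.map_map]
    rfl
  obtain ⟨e⟩ := Density.adic_isEquiv_of_frobenius r (ρ.baseChangeAlong i hloc) S hirr
    fun ℓ hℓ hℓS A hA σ hσ => by
      rw [RT.charpoly_adic_baseChangeAlong, hr' ℓ hℓ hℓS A hA σ hσ]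
  -- the level
  obtain ⟨M, rfl⟩ := hpL
  haveI : NeZero M := ⟨fun h => NeZero.ne (p * M) (by rw [h, mul_zero])⟩
  have hpM : ¬ p ∣ M := fun h => hp2L (by rw [sq]; exact Nat.mul_dvd_mul_left p h)
  haveI : NeZero p := ⟨hp.ne_zero⟩
  obtain ⟨c₀, hfam⟩ := BadPrime.exists_killed_family (M := p * M) (M' := M) (q := p)
    (mul_comm p M) hp.ne_one (BadPrime.hasEigenRep_modular _) (BadPrime.hasEigenRep_modular M) hg
    hp hpO'' hrep
  -- a basis in which the matrices are those of `ρ`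
  let b := Deformation.someBasis ρ
  obtain ⟨b', hb'⟩ := Deformation.exists_basis_baseChangeAlong ρ b i hloc
  let b'' : Module.Basis (Fin 2) O'' r.V := b'.map e.symm.toLinearEquiv
  have hb'' : Deformation.matOf r.ρ b'' = Deformation.mapRep i (Deformation.matOf ρ.ρ b) :=
    (Deformation.matOf_map_equiv (ρ.baseChangeAlong i hloc).ρ r.ρ b' e.symm.toLinearEquiv
      e.symm.map_apply).trans hb'
  have hstrict : r.IsStrictOrdinaryAt p := by
    suffices hres : ∀ P : ValuationSubring Qb, P.LiesOverPrime p →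
        ∀ σ₀ ∈ P.inertiaSubgroupIn ℚ,
          OrdEqn P σ₀ (Deformation.mapRep (residue O'') (Deformation.matOf r.ρ b'')) by
      by_cases hN3 : p = 3 → 2 ∣ M
      · exact isStrictOrdinaryAt_of_killedFamily hp3 hpM hN3 hdet'' b'' c₀ hfam hres
      · -- `p = 3` and `M` odd: pull back to level `2Mp`
        obtain ⟨h3, h2M⟩ := Classical.not_imp.1 hN3
        exact isStrictOrdinaryAt_of_killedFamily hp3 (M := M * 2)
          (fun h => (hp.dvd_mul.mp h).elim hpM fun h2 =>
            hp2 ((Nat.prime_dvd_prime_iff_eq hp Nat.prime_two).mp h2))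
          (fun _ => dvd_mul_left 2 M) hdet'' b'' c₀
          (exists_killedFamily_auxLevel hp Nat.prime_two (by omega) hpM h2M hirr c₀ hfam) hres
    intro P hP σ₀ hσ₀
    let bbar : Module.Basis (Fin 2) (ResidueField O)
        (GaloisRepAdic.ofResidualGaloisRep ρ.residual).V :=
      Algebra.TensorProduct.basis (ResidueField O) b
    have hbbar : Deformation.matOf (GaloisRepAdic.ofResidualGaloisRep ρ.residual).ρ bbar =
        Deformation.mapRep (residue O) (Deformation.matOf ρ.ρ b) :=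
      MonoidHom.ext fun σ => Deformation.matOf_baseChange (ResidueField O) ρ.ρ b
        ρ.residual.ρ (fun _ => rfl) σ
    have h := (RT.StrictOrdEqns.of_hasStrictLine _ hσ₀ bbar (hord.2 P hP)).map
      (ResidueField.map i)
    rw [hbbar, Deformation.mapRep_mapRep] at h
    rw [hb'', Deformation.mapRep_mapRep]
    exact h.inertia
  -- descent
  exact (RT.Assembly.descending_of_points (O := O) (RT.isDescending_det_strictOrdinary hp hp2)
    hpO (J := Unit) (fun _ => i) (fun _ => hloc)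
    (fun x hx => hinj ((hx ()).trans (map_zero _).symm))
    fun _ => ⟨Density.adic_detIsCyclotomic_of_isEquiv ⟨e⟩ hdet'',
      Density.adic_isStrictOrdinaryAt_of_isEquiv ⟨e⟩ hstrict⟩).2

/-- **`StrictOrdinaryOfNewform` for odd `p`.** -/
theorem strictOrdinaryOfNewform {p : ℕ} [Fact p.Prime] (hp2 : p ≠ 2) :
    RT.Assembly.StrictOrdinaryOfNewform p :=
  fun _ _ hpL hp2L _ hpS hS _ _ _ _ _ _ _ hpO _ hc ρ hfrob _ habs hord =>
    strictOrdinary_of_newform hp2 hpL hp2L hpS hS hpO hc ρ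
      hfrob habs hord

end Fermat.Agent.LevelP
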