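import Fermat.Agent.BadPrime.AuxDescent
import Fermat.Agent.Density.AbsIrr
import Mathlib.RingTheory.LocalRing.Module

/-!
# Planes killed by both pushforwards at an auxiliary level

For `p = 3` and `M` odd the pullback along `X₀(2Mp) → X₀(Mp)`, of degree `3`, moves a plane in
the classes killed by both pushforwards to one at level `2Mp`: the lost factor is a scalar because
the residual representation is absolutely irreducible.

Owner: helper46.
-/

set_option autoImplicit false
set_option linter.style.haveILetI false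
set_option linter.unusedSectionVars false
set_option synthInstance.maxHeartbeats 400000

noncomputable section

namespace Fermat.Agent.LevelP

open AlgebraicCurve ModularCurve IsLocalRing
open Fermat.Agent.BadPrime
open scoped TensorProduct

local notation "Qb" => AlgebraicClosure ℚ
local notation "Γℚ" => (AlgebraicClosure ℚ ≃ₐ[ℚ] AlgebraicClosure ℚ)
local notation "ι₀" => (complexEmbedding : AlgebraicClosure ℚ →+* ℂ)

/-- A submodule stable under a residually absolutely irreducible representation and containing a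
nonzero multiple of everything consists of the multiples of one scalar. -/
theorem exists_scalar_of_stableSubmodule {O : Type} [CommRing O] [IsDomain O]
    [IsDiscreteValuationRing O] (ρ : GaloisRepAdic O)
    (habs : ρ.residual.IsAbsolutelyIrreducible) (K : Submodule O ρ.V)
    (hK : ∀ σ, ∀ v ∈ K, ρ.ρ σ v ∈ K) {c : O} (hc : c ≠ 0) (hcK : ∀ v, c • v ∈ K) :
    ∃ d : O, ∀ v, v ∈ K ↔ ∃ w, v = d • w := by
  classical
  obtain ⟨ϖ, hϖ⟩ := IsDiscreteValuationRing.exists_irreducible O
  let b : Module.Basis (Fin 2) O ρ.V :=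
    (Module.finBasis O ρ.V).reindex (finCongr ρ.finrank_eq)
  have hex : ∃ i, ¬ ∀ v ∈ K, ∃ w, v = ϖ ^ i • w := by
    obtain ⟨k, u, hu⟩ := IsDiscreteValuationRing.eq_unit_mul_pow_irreducible hc hϖ
    refine ⟨k + 1, fun h => ?_⟩
    obtain ⟨w, hw⟩ := h _ (hcK (b 0))
    have h1 := congrArg (fun x => b.repr x 0) hw
    simp only [map_smul, Finsupp.smul_apply, Module.Basis.repr_self, Finsupp.single_eq_same,
      smul_eq_mul, mul_one] at h1
    refine absurd ((pow_dvd_pow_iff hϖ.ne_zero hϖ.not_isUnit).1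
      (show ϖ ^ (k + 1) ∣ ϖ ^ k from ?_)) (by omega)
    refine (Units.dvd_mul_left (u := u)).1 ?_
    rw [← hu, h1]
    exact dvd_mul_right _ _
  set i := Nat.find hex with hi
  have hi0 : 0 < i := by
    rw [Nat.pos_iff_ne_zero]
    intro h
    refine Nat.find_spec hex fun v _ => ⟨v, ?_⟩
    rw [← hi, h, pow_zero, one_smul]
  obtain ⟨j, hj⟩ : ∃ j, i = j + 1 := ⟨i - 1, by omega⟩
  have hsub : ∀ v ∈ K, ∃ w, v = ϖ ^ j • w :=
    not_not.1 (Nat.find_min hex (show j < Nat.find hex by omega))
  refine ⟨ϖ ^ j, fun v => ⟨hsub v, ?_⟩⟩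
  rintro ⟨w, rfl⟩
  let K₀ : Submodule O ρ.V := K.comap (ϖ ^ j • LinearMap.id)
  suffices htop : K₀ = ⊤ by
    exact (show w ∈ K₀ by rw [htop]; trivial)
  have hK₀ : ∀ σ, ∀ u ∈ K₀, ρ.ρ σ u ∈ K₀ := fun σ u hu => by
    have h := hK σ _ (show ϖ ^ j • u ∈ K from hu)
    rw [map_smul] at h
    exact h
  set f := TensorProduct.mk O (ResidueField O) ρ.V 1 with hf
  rw [← IsLocalRing.map_tensorProduct_mk_eq_top]
  let W : Submodule (ResidueField O) (ResidueField O ⊗[O] ρ.V) :=
    Submodule.span (ResidueField O) ↑(K₀.map f)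
  have hW : W.restrictScalars O = K₀.map f := by
    rw [Submodule.restrictScalars_span O (ResidueField O) IsLocalRing.residue_surjective,
      Submodule.span_eq]
  have hstab : ∀ σ, ∀ x ∈ W, ρ.residual.ρ σ x ∈ W := by
    intro σ x hx
    have hx' : x ∈ K₀.map f := by rw [← hW]; exact hx
    obtain ⟨u, hu, rfl⟩ := hx'
    refine Submodule.subset_span ⟨ρ.ρ σ u, hK₀ σ u hu, ?_⟩
    show f (ρ.ρ σ u) = (ρ.ρ σ).baseChange (ResidueField O) (f u)
    simp [f]
  have hend : ∀ g : Module.End (ResidueField O) ρ.residual.V, ∀ x ∈ W, g x ∈ W := fun g x hx => by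
    have hg : g ∈ Submodule.span (ResidueField O) (Set.range ρ.residual.ρ) := by
      rw [(Density.isAbsolutelyIrreducible_iff_span ρ.residual).1 habs]
      trivial
    refine Submodule.span_induction (p := fun g _ => g x ∈ W) ?_ (Submodule.zero_mem W)
      (fun a b _ _ ha hb => Submodule.add_mem W ha hb) (fun a b _ hb => Submodule.smul_mem W a hb) hg
    rintro _ ⟨σ, rfl⟩
    exact hstab σ x hx
  have hbt : W = ⊥ ∨ W = ⊤ := by
    refine or_iff_not_imp_left.2 fun hne => Submodule.eq_top_iff'.2 fun y => ?_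
    obtain ⟨x, hxW, hx0⟩ := (Submodule.ne_bot_iff W).1 hne
    obtain ⟨φ, hφ⟩ := Module.Projective.exists_dual_ne_zero (ResidueField O) hx0
    have := hend ((LinearMap.toSpanSingleton (ResidueField O) _ ((φ x)⁻¹ • y)).comp φ) x hxW
    have e : φ x • (φ x)⁻¹ • y = y := by rw [smul_smul, mul_inv_cancel₀ hφ, one_smul]
    rw [← e]
    exact this
  rcases hbt with h | h
  · exfalso
    refine Nat.find_spec hex fun v hv => ?_
    obtain ⟨u, rfl⟩ := hsub v hv
    have h0 : f u = 0 := by
      have hmem : f u ∈ W := Submodule.subset_span ⟨u, hv, rfl⟩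
      rw [h] at hmem
      exact (Submodule.mem_bot _).1 hmem
    have hcoord : ∀ l, ∃ t, b.repr u l = ϖ * t := fun l => by
      have h1 := congrArg (fun x => (Algebra.TensorProduct.basis (ResidueField O) b).repr x l) h0
      simp only [hf, TensorProduct.mk_apply, Algebra.TensorProduct.basis_repr_tmul, map_zero,
        Finsupp.zero_apply, Finsupp.mapRange_apply, one_smul] at h1
      have h2 := (IsLocalRing.residue_eq_zero_iff _).1 h1
      rw [hϖ.maximalIdeal_eq, Ideal.mem_span_singleton] at h2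
      exact h2
    choose t ht using hcoord
    refine ⟨b.equivFun.symm t, ?_⟩
    rw [← hi, hj, pow_succ, mul_smul]
    refine congrArg (ϖ ^ j • ·) (b.ext_elem fun l => ?_)
    rw [map_smul, Finsupp.smul_apply, ht l, Module.Basis.equivFun_symm_apply,
      b.repr_sum_self, smul_eq_mul]
  · rw [← hW, h]
    exact Submodule.restrictScalars_top O _ _

section Pull

variable {M q r : ℕ} [NeZero M] [NeZero q] [NeZero r]

open EichlerShimura Curve
open Fermat.Agent.Modular hiding jL

/-- Pullback to the auxiliary level keeps classes killed by both pushforwards. -/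
theorem auxPull_push_eq_zero [NeZero (M * r)] (hq : q.Prime) (hqM : ¬ q ∣ M) (hr : r.Prime)
    (hrq : r ≠ q) {x : JZero (M * q)} (hxα : alphaPush M q x = 0)
    (hxβ : betaPush M q x = 0) :
    alphaPush (M * r) q (auxPull M q r x) = 0 ∧ betaPush (M * r) q (auxPull M q r x) = 0 := by
  haveI : NeZero (M * r * q) := ⟨by simp [NeZero.ne]⟩
  haveI : NeZero (M * q) := ⟨by simp [NeZero.ne]⟩
  haveI := isFunctionField1_level ι₀ M
  haveI := isFunctionField1_level ι₀ (M * r)
  haveI := isFunctionField1_level ι₀ (M * q)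
  haveI := isFunctionField1_level ι₀ (M * r * q)
  have hqMr : ¬ q ∣ M * r := fun hd => (hq.dvd_mul.mp hd).elim hqM
    fun h' => hrq ((Nat.prime_dvd_prime_iff_eq hq hr).mp h').symm
  have hdeg : finrankAlong Qb (heckeAlphaBar Qb (M * r) q) =
      finrankAlong Qb (heckeAlphaBar Qb M q) := by
    have h1 := finrankAlong_levelIncl_mul (L := Qb) (fun K _ => finrank_FL K ι₀)
      (dvd_mul_right (M * r) q)
    have h2 := finrankAlong_levelIncl_mul (L := Qb) (fun K _ => finrank_FL K ι₀)
      (dvd_mul_right M q)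
    have h3 := dedekindPsi_mul_mul M hr hq hrq
    rw [heckeAlphaBar_eq_levelIncl, heckeAlphaBar_eq_levelIncl]
    refine Nat.eq_of_mul_eq_mul_left (Nat.mul_pos (EichlerShimura.dedekindPsi_pos (M * r))
      (EichlerShimura.dedekindPsi_pos M)) ?_
    calc dedekindPsi (M * r) * dedekindPsi M *
          finrankAlong Qb (levelIncl (L := Qb) (dvd_mul_right (M * r) q))
        = dedekindPsi (M * r * q) * dedekindPsi M := by rw [← h1]; ring
      _ = dedekindPsi (M * r) * dedekindPsi (M * q) := h3
      _ = _ := by rw [← h2]; ring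
  have key : ∀ (ψ : FL M Qb →ₐ[Qb] FL (M * q) Qb) (a : FL (M * r) Qb →ₐ[Qb] FL (M * r * q) Qb),
      (∀ y, a (levelIncl (L := Qb) (dvd_mul_right M r) y) =
        levelIncl (L := Qb) (mul_dvd_aux M q r) (ψ y)) →
      finrankAlong Qb a = finrankAlong Qb ψ →
      Subfield.closure (Set.range a ∪ Set.range (levelIncl (L := Qb) (mul_dvd_aux M q r))) = ⊤ →
      ∀ y, pic0Push a (isIntegralAlong _) (finiteAlong _) (normFormulaAlong _ _)
          (auxPull M q r y) =
        pic0Pull (levelIncl (L := Qb) (dvd_mul_right M r)) (isIntegralAlong _)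
          (fundamentalIdentityAlong _ _)
          (pic0Push ψ (isIntegralAlong _) (finiteAlong _) (normFormulaAlong _ _) y) :=
    fun ψ a hsq hd hgen y => pic0Push_pic0Pull_comm exists_forall_ord_eq _ _ _ _ _ _ _ _ _ _
      (map_normAlong_of_compositum _ ψ a _ hsq (finiteAlong _) (finiteAlong _) hd hgen) y
  refine ⟨?_, ?_⟩
  · refine (key (heckeAlphaBar Qb M q) (heckeAlphaBar Qb (M * r) q)
      (fun y => Subtype.ext (by simp)) hdeg ?_ _).trans ?_
    · rw [heckeAlphaBar_eq_levelIncl]
      exact closure_range_levelIncl_levelIncl hq hqMr _ _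
    · exact (congrArg _ hxα).trans (map_zero _)
  · refine (key (heckeBetaBar Qb M q) (heckeBetaBar Qb (M * r) q)
      (fun y => Subtype.ext (by simp)) ?_ ?_ _).trans ?_
    · rw [finrankAlong_heckeBetaBar (M * r) hq hqMr, finrankAlong_heckeBetaBar M hq hqM, hdeg]
    · rw [Set.union_comm, show heckeBetaBar Qb (M * r) q =
        levelScale (L := Qb) q (M := M * r * q) dvd_rfl
        from AlgHom.ext fun y => Subtype.ext (by rw [coe_levelScale, coe_heckeBetaBar])]
      exact closure_range_levelIncl_levelScale (fun K _ => functionFieldGeneration K) q _ _ rfl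
    · exact (congrArg _ hxβ).trans (map_zero _)

/-- A class killed by the pullback to the auxiliary level is killed by the degree. -/
theorem succ_nsmul_eq_zero_of_auxPull (hq : q.Prime) (hr : r.Prime) (hrM : ¬ r ∣ M) (hrq : r ≠ q)
    {z : JZero (M * q)} (hz : auxPull M q r z = 0) : (r + 1) • z = 0 := by
  haveI : NeZero (M * r * q) := ⟨by simp [NeZero.ne]⟩
  haveI : NeZero (M * q) := ⟨by simp [NeZero.ne]⟩
  haveI := isFunctionField1_level ι₀ (M * q)
  haveI := isFunctionField1_level ι₀ (M * r * q)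
  have hdeg : finrankAlong Qb (levelIncl (L := Qb) (mul_dvd_aux M q r)) = r + 1 := by
    have h1 := finrankAlong_levelIncl_mul (L := Qb) (fun K _ => finrank_FL K ι₀)
      (mul_dvd_aux M q r)
    have h2 : ¬ r ∣ M * q := fun h => (hr.dvd_mul.mp h).elim hrM
      fun h' => hrq ((Nat.prime_dvd_prime_iff_eq hr hq).mp h')
    have h3 : dedekindPsi (M * r * q) = dedekindPsi (M * q * r) := congrArg _ (by ring)
    rw [h3, Reduction.dedekindPsi_mul_prime (NeZero.ne _) hr h2] at h1
    exact Nat.eq_of_mul_eq_mul_left (EichlerShimura.dedekindPsi_pos (M * q))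
      (h1.trans (by ring))
  have h3 := congrArg (pic0Push (levelIncl (L := Qb) (mul_dvd_aux M q r)) (isIntegralAlong _)
    (finiteAlong _) (normFormulaAlong _ _)) hz
  unfold auxPull at h3
  rwa [pic0Push_pic0Pull, map_zero, hdeg] at h3

end Pull

section Family

variable {p M r : ℕ} [NeZero p] [NeZero M] [NeZero r] {O : Type} [CommRing O] [IsDomain O]
  [IsDiscreteValuationRing O] [Finite (ResidueField O)] [CharZero O]

/-- A residually irreducible plane killed by both pushforwards moves to the auxiliary level `r`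
when `r + 1 = p`. -/
theorem exists_killedFamily_auxLevel (hp : p.Prime) (hr : r.Prime) (hrp : r + 1 = p)
    (hpM : ¬ p ∣ M) (hrM : ¬ r ∣ M) {ρ : GaloisRepAdic O}
    (habs : ρ.residual.IsAbsolutelyIrreducible) (c₀ : ℕ)
    (hfam : ∀ n : ℕ, ∃ (m : ℕ) (f : ρ.V →+ (Fin m → JZero (M * p))),
      (∀ v, f v = 0 ↔ ∃ w, v = ((p : O) ^ n) • w) ∧ (∀ v i, p ^ n • f v i = 0) ∧
      (∀ σ v i, f (ρ.ρ σ v) i = σ • f v i) ∧
      ∀ v i, alphaPush M p (p ^ c₀ • f v i) = 0 ∧ betaPush M p (p ^ c₀ • f v i) = 0) :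
    ∀ n : ℕ, ∃ (m : ℕ) (f : ρ.V →+ (Fin m → JZero (M * r * p))),
      (∀ v, f v = 0 ↔ ∃ w, v = ((p : O) ^ n) • w) ∧ (∀ v i, p ^ n • f v i = 0) ∧
      (∀ σ v i, f (ρ.ρ σ v) i = σ • f v i) ∧
      ∀ v i, alphaPush (M * r) p (p ^ c₀ • f v i) = 0 ∧
        betaPush (M * r) p (p ^ c₀ • f v i) = 0 := by
  classical
  intro n
  haveI : NeZero (M * r) := ⟨by simp [NeZero.ne]⟩
  have hp0 : (p : O) ≠ 0 := Nat.cast_ne_zero.2 hp.ne_zero
  have hrq : r ≠ p := by omega
  obtain ⟨m, f, hker, -, heq, hkill⟩ := hfam (n + 1)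
  -- finitely many scalars
  set J : Ideal O := Ideal.span {(p : O) ^ (n + 1)} with hJ
  obtain ⟨ϖ, hϖ⟩ := IsDiscreteValuationRing.exists_irreducible O
  haveI : Finite (O ⧸ J) := by
    obtain ⟨e, he⟩ := IsDiscreteValuationRing.ideal_eq_span_pow_irreducible
      (show J ≠ ⊥ by rw [hJ, Ne, Ideal.span_singleton_eq_bot]; exact pow_ne_zero _ hp0) hϖ
    rw [← Ideal.span_singleton_pow, ← Irreducible.maximalIdeal_eq hϖ] at he
    haveI : Finite (O ⧸ maximalIdeal O) := inferInstanceAs (Finite (ResidueField O))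
    rw [he]
    exact Ideal.finite_quotient_pow (IsNoetherian.noetherian _) e
  let en := Finite.equivFin (O ⧸ J)
  let t : Fin (Nat.card (O ⧸ J)) → O := fun i => Quotient.out (en.symm i)
  have ht : ∀ (s : O) (v : ρ.V), f (s • v) = f (t (en (Ideal.Quotient.mk J s)) • v) := by
    intro s v
    rw [← sub_eq_zero, ← map_sub, ← sub_smul, hker]
    have hmem : s - t (en (Ideal.Quotient.mk J s)) ∈ J := by
      rw [← Ideal.Quotient.eq]
      simp only [t, Equiv.symm_apply_apply]
      exact (Quotient.out_eq _).symm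
    obtain ⟨w, hw⟩ := Ideal.mem_span_singleton.1 hmem
    exact ⟨w • v, by rw [hw, mul_smul]⟩
  let K : Submodule O ρ.V :=
    { carrier := {v | ∀ (s : O) (j : Fin m), auxPull M p r (f (s • v) j) = 0}
      zero_mem' := fun s j => by simp
      add_mem' := fun ha hb s j => by simp [smul_add, ha s j, hb s j]
      smul_mem' := fun a v hv s j => by rw [smul_smul]; exact hv (s * a) j }
  have hKstab : ∀ σ, ∀ v ∈ K, ρ.ρ σ v ∈ K := fun σ v hv s j => by
    rw [← map_smul, heq, ← galois_smul_auxPull, hv s j]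
    exact map_zero (DistribSMul.toAddMonoidHom (JZero (M * r * p)) σ)
  have hKsub : ∀ v ∈ K, ∃ w, v = (p : O) ^ n • w := fun v hv => by
    have h0 : f ((p : O) • v) = 0 := funext fun j => by
      have h1 := succ_nsmul_eq_zero_of_auxPull hp hr hrM hrq (by simpa using hv 1 j)
      rw [hrp] at h1
      rw [Nat.cast_smul_eq_nsmul, map_nsmul]
      exact h1
    obtain ⟨w, hw⟩ := (hker _).1 h0
    refine ⟨w, smul_right_injective ρ.V hp0 ?_⟩
    show (p : O) • v = (p : O) • (p : O) ^ n • w
    rw [hw, smul_smul, ← pow_succ']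
  obtain ⟨d, hd⟩ := exists_scalar_of_stableSubmodule ρ habs K hKstab (pow_ne_zero (n + 1) hp0)
    fun v s j => by
      rw [show f (s • (p : O) ^ (n + 1) • v) = 0 from (hker _).2 ⟨s • v, smul_comm _ _ _⟩]
      exact map_zero _
  obtain ⟨d', hd', hd'0⟩ : ∃ d', d = (p : O) ^ n * d' ∧ d' ≠ 0 := by
    let b : Module.Basis (Fin 2) O ρ.V :=
      (Module.finBasis O ρ.V).reindex (finCongr ρ.finrank_eq)
    obtain ⟨w, hw⟩ := hKsub _ ((hd _).2 ⟨b 0, rfl⟩)
    have h1 := congrArg (fun x => b.repr x 0) hw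
    simp only [map_smul, Finsupp.smul_apply, Module.Basis.repr_self, Finsupp.single_eq_same,
      smul_eq_mul, mul_one] at h1
    refine ⟨b.repr w 0, h1, fun h0 => ?_⟩
    have hbot : (p : O) ^ (n + 1) • b 0 ∈ K := fun s j => by
      rw [show f (s • (p : O) ^ (n + 1) • b 0) = 0 from (hker _).2 ⟨s • b 0, smul_comm _ _ _⟩]
      exact map_zero _
    obtain ⟨u, hu⟩ := (hd _).1 hbot
    have h2 := congrArg (fun x => b.repr x 0) hu
    simp [h1, h0, hp0] at h2
  let G : ρ.V →+ (Fin (Nat.card (O ⧸ J) * m) → JZero (M * r * p)) :=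
    { toFun := fun v k => auxPull M p r
        (f ((t (finProdFinEquiv.symm k).1 * d') • v) (finProdFinEquiv.symm k).2)
      map_zero' := funext fun k => by simp
      map_add' := fun a b => funext fun k => by simp [smul_add] }
  have hG : ∀ v, G v = 0 ↔ d' • v ∈ K := fun v => by
    constructor
    · intro h s j
      rw [ht s]
      have h1 := congrFun h (finProdFinEquiv (en (Ideal.Quotient.mk J s), j))
      simpa only [G, AddMonoidHom.coe_mk, ZeroHom.coe_mk, Equiv.symm_apply_apply, mul_smul,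
        Pi.zero_apply] using h1
    · intro h
      funext k
      show auxPull M p r _ = 0
      rw [mul_smul]
      exact h _ _
  refine ⟨_, G, fun v => ?_, fun v k => ?_, fun σ v k => ?_, fun v k => ?_⟩
  · rw [hG, hd]
    constructor
    · rintro ⟨w, hw⟩
      refine ⟨w, smul_right_injective ρ.V hd'0 ?_⟩
      show d' • v = d' • (p : O) ^ n • w
      rw [hw, hd', smul_smul, mul_comm]
    · rintro ⟨w, rfl⟩
      exact ⟨w, by rw [hd', smul_smul, mul_comm]⟩
  · rw [← Pi.smul_apply, ← map_nsmul]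
    refine congrFun ((hG _).2 ((hd _).2 ⟨v, ?_⟩)) k
    rw [← Nat.cast_smul_eq_nsmul O, smul_smul, hd', Nat.cast_pow, mul_comm]
  · show auxPull M p r _ = σ • auxPull M p r _
    rw [galois_smul_auxPull, ← map_smul, heq]
  · show alphaPush (M * r) p (p ^ c₀ • auxPull M p r _) = 0 ∧
      betaPush (M * r) p (p ^ c₀ • auxPull M p r _) = 0
    rw [← map_nsmul]
    exact auxPull_push_eq_zero hp hpM hr hrq (hkill _ _).1 (hkill _ _).2

end Family

end Fermat.Agent.LevelP
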