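import Fermat.Agent.LevelP.Model.Local

/-!
# Congruences along the components and units of the local rings

Owner: helper46.
-/

set_option autoImplicit false

noncomputable section

namespace Fermat.Agent.LevelP

open AlgebraicCurve Fermat.Agent.Curve IsLocalRing

local notation "Qb" => AlgebraicClosure ℚ
local notation "Γℚ" => (AlgebraicClosure ℚ ≃ₐ[ℚ] AlgebraicClosure ℚ)

variable {p : ℕ} {A : ValuationSubring Qb} {F : Type*} [Field F] [Algebra Qb F]
  {Fb : Type*} [Field Fb] [Algebra (ResidueField A) Fb] {M : TwoCompData p A F Fb}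
  {π : Qb} {i : Bool} {m n : ℕ} {f g h f' g' : F}

namespace TwoCompData

section Congruences

theorem VCongr.refl (f : F) : M.VCongr π i m f f :=
  ⟨0, zero_mem _, by simp⟩

theorem VCongr.symm (hfg : M.VCongr π i m f g) : M.VCongr π i m g f := by
  obtain ⟨d, hd, e⟩ := hfg
  exact ⟨-d, neg_mem hd, by linear_combination -e⟩

theorem VCongr.trans (hfg : M.VCongr π i m f g) (hgh : M.VCongr π i m g h) :
    M.VCongr π i m f h := by
  obtain ⟨d, hd, e⟩ := hfg
  obtain ⟨d', hd', e'⟩ := hgh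
  exact ⟨d + d', add_mem hd hd', by linear_combination e + e'⟩

theorem VCongr.mono (hπ : π ∈ A) (hfg : M.VCongr π i n f g) (hmn : m ≤ n) :
    M.VCongr π i m f g := by
  obtain ⟨l, rfl⟩ := Nat.exists_eq_add_of_le hmn
  obtain ⟨d, hd, e⟩ := hfg
  exact ⟨algebraMap Qb F π ^ l * d, mul_mem (pow_mem ((M.algebraMap_mem_iff i π).2 hπ) l) hd,
    by rw [e]; ring⟩

theorem VCongr.add (hfg : M.VCongr π i m f g) (hfg' : M.VCongr π i m f' g') :
    M.VCongr π i m (f + f') (g + g') := by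
  obtain ⟨d, hd, e⟩ := hfg
  obtain ⟨d', hd', e'⟩ := hfg'
  exact ⟨d + d', add_mem hd hd', by linear_combination e + e'⟩

theorem VCongr.neg (hfg : M.VCongr π i m f g) : M.VCongr π i m (-f) (-g) := by
  obtain ⟨d, hd, e⟩ := hfg
  exact ⟨-d, neg_mem hd, by linear_combination -e⟩

theorem VCongr.mul_left {c : F} (hc : c ∈ M.V i) (hfg : M.VCongr π i m f g) :
    M.VCongr π i m (c * f) (c * g) := by
  obtain ⟨d, hd, e⟩ := hfg
  exact ⟨c * d, mul_mem hc hd, by linear_combination c * e⟩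

theorem VCongr.mul (hfg : M.VCongr π i m f g) (hfg' : M.VCongr π i m f' g') (hf : f ∈ M.V i)
    (hg : g' ∈ M.V i) : M.VCongr π i m (f * f') (g * g') := by
  obtain ⟨d, hd, e⟩ := hfg
  obtain ⟨d', hd', e'⟩ := hfg'
  exact ⟨f * d' + g' * d, add_mem (mul_mem hf hd') (mul_mem hg hd),
    by linear_combination f * e' + g' * e⟩

theorem VCongr.pow (hfg : M.VCongr π i m f g) (hf : f ∈ M.V i) (hg : g ∈ M.V i) (k : ℕ) :
    M.VCongr π i m (f ^ k) (g ^ k) := by
  induction k with
  | zero => simpa using VCongr.refl (M := M) (π := π) (i := i) (m := m) (1 : F)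
  | succ k ih => rw [pow_succ, pow_succ]; exact ih.mul hfg (pow_mem hf k) hg

theorem VCongr.mem (hπ : π ∈ A) (hfg : M.VCongr π i m f g) (hg : g ∈ M.V i) : f ∈ M.V i := by
  obtain ⟨d, hd, e⟩ := hfg
  rw [show f = algebraMap Qb F π ^ m * d + g by linear_combination e]
  exact add_mem (mul_mem (pow_mem ((M.algebraMap_mem_iff i π).2 hπ) m) hd) hg

theorem VCongr.valuation_eq_one (L : Level p A) (hm : 0 < m) (hfg : M.VCongr L.π i m f g)
    (hg : (M.V i).valuation g = 1) : (M.V i).valuation f = 1 := by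
  obtain ⟨d, hd, e⟩ := hfg
  have hlt : (M.V i).valuation (algebraMap Qb F L.π ^ m * d) < 1 := by
    rw [map_mul, map_pow]
    exact mul_lt_one_of_lt_of_le (pow_lt_one₀ zero_le (M.valuation_pi_lt_one L i) hm.ne')
      ((ValuationSubring.valuation_le_one_iff _ _).2 hd)
  rw [show f = g + algebraMap Qb F L.π ^ m * d by linear_combination e,
    Valuation.map_add_eq_of_lt_left _ (by rwa [hg]), hg]

theorem VCongr.red_eq (L : Level p A) (hm : 0 < m) (hfg : M.VCongr L.π i m f g) (hf : f ∈ M.V i)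
    (hg : g ∈ M.V i) : M.red i ⟨f, hf⟩ = M.red i ⟨g, hg⟩ := by
  rw [← sub_eq_zero, ← map_sub, M.red_eq_zero_iff, ValuationSubring.mem_nonunits_iff]
  show (M.V i).valuation (f - g) < 1
  obtain ⟨d, hd, e⟩ := hfg
  rw [e, map_mul, map_pow]
  exact mul_lt_one_of_lt_of_le (pow_lt_one₀ zero_le (M.valuation_pi_lt_one L i) hm.ne')
    ((ValuationSubring.valuation_le_one_iff _ _).2 hd)

theorem residueAt_congr (L : Level p A) (hm : 0 < m) (hfg : M.VCongr L.π i m f g)
    (hg : g ∈ M.V i) : M.residueAt i f = M.residueAt i g := by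
  have hf := hfg.mem L.π_mem hg
  rw [M.residueAt_of_mem hf, M.residueAt_of_mem hg, hfg.red_eq L hm hf hg]

end Congruences

section Units

variable {y : M.Pt}

theorem RegUnit.inv (hf : M.RegUnit y f) : M.RegUnit y f⁻¹ :=
  ⟨inv_ne_zero hf.1, hf.2.2, by rw [inv_inv]; exact hf.2.1⟩

theorem RegUnit.mul (hf : M.RegUnit y f) (hg : M.RegUnit y g) : M.RegUnit y (f * g) :=
  ⟨mul_ne_zero hf.1 hg.1, (M.regSubring y).mul_mem hf.2.1 hg.2.1,
    by rw [mul_inv]; exact (M.regSubring y).mul_mem hf.2.2 hg.2.2⟩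

theorem RegUnit.valuation_eq_one (hf : M.RegUnit y f) (hi : M.On y i) :
    (M.V i).valuation f = 1 := by
  have h1 := (ValuationSubring.valuation_le_one_iff _ _).2 (hf.2.1.2 i hi)
  have h2 := (ValuationSubring.valuation_le_one_iff _ _).2 (hf.2.2.2 i hi)
  rw [map_inv₀, inv_le_one₀ (zero_lt_iff.2 ((map_ne_zero _).2 hf.1))] at h2
  exact le_antisymm h1 h2

theorem regUnit_of_ord (hf : f ≠ 0) (hord : ∀ P, M.sp P = y → P.ord f = 0)
    (hv : ∀ i, M.On y i → (M.V i).valuation f = 1) : M.RegUnit y f := by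
  refine ⟨hf, ⟨fun P hP => mem_of_ord_nonneg P (by rw [hord P hP]), fun i hi =>
    M.mem_of_valuation_eq_one (hv i hi)⟩, fun P hP => mem_of_ord_nonneg P ?_, fun i hi =>
    M.mem_of_valuation_eq_one (by rw [map_inv₀, hv i hi, inv_one])⟩
  rw [P.ord_inv, hord P hP, neg_zero]

theorem RegUnit.ord_eq_zero (hf : M.RegUnit y f) {P : Place Qb F} (hP : M.sp P = y) :
    P.ord f = 0 := by
  have h1 := ord_nonneg_of_mem P (hf.2.1.1 P hP)
  have h2 := ord_nonneg_of_mem P (hf.2.2.1 P hP)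
  rw [P.ord_inv] at h2
  omega

variable [IsFunctionField1 Qb F] [IsFunctionField1 (ResidueField A) Fb]
  [IsAlgClosed (ResidueField A)]

/-- A regular function with nonzero value is a unit of the local ring. -/
theorem regUnit_of_evalAt (hf : M.Reg y f) (hv : ∀ i, M.On y i → (M.V i).valuation f = 1)
    (hval : ∃ i, ∃ hi : M.On y i, evalAt (M.loc y i) (M.red i ⟨f, hf.2 i hi⟩) ≠ 0) :
    M.RegUnit y f := by
  obtain ⟨i, hi, hval⟩ := hval
  have hf0 : f ≠ 0 := (M.V i).valuation.ne_zero_iff.1 (by rw [hv i hi]; exact one_ne_zero)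
  refine regUnit_of_ord hf0 (fun P hP => ?_) hv
  obtain ⟨ha, hres⟩ := M.red_eval y f hf.1 hf.2 P hP i hi (hf.2 i hi)
  have hc : evalAt P f ≠ 0 := by
    intro h0
    refine hval (hres.symm.trans ?_)
    rw [show (⟨evalAt P f, ha⟩ : A) = 0 from Subtype.ext h0, map_zero]
  rcases evalAt_spec P (hf.1 P hP) with h | h
  · rw [sub_eq_zero.1 h, Fermat.Agent.Curve.ord_algebraMap]
  · have hne : algebraMap Qb F (evalAt P f) ≠ 0 := (map_ne_zero _).2 hc
    have h' := ord_add_eq_of_lt P (g := f - algebraMap Qb F (evalAt P f)) hne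
      (by rwa [Fermat.Agent.Curve.ord_algebraMap])
    rwa [add_sub_cancel, Fermat.Agent.Curve.ord_algebraMap] at h'

/-- `1 + π ^ m c` is a unit of the local ring when `c` is regular. -/
theorem regUnit_one_add (L : Level p A) (hm : 0 < m) {c : F} (hc : M.Reg y c) :
    M.RegUnit y (1 + algebraMap Qb F L.π ^ m * c) := by
  have hreg : M.Reg y (1 + algebraMap Qb F L.π ^ m * c) :=
    (M.regSubring y).add_mem (M.regSubring y).one_mem
      ((M.regSubring y).mul_mem ((M.regSubring y).pow_mem (M.reg_algebraMap y L.π_mem) m) hc)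
  have hcongr : ∀ i, M.On y i →
      M.VCongr L.π i m (1 + algebraMap Qb F L.π ^ m * c) 1 :=
    fun i hi => ⟨c, hc.2 i hi, by ring⟩
  refine regUnit_of_evalAt hreg
    (fun i hi => (hcongr i hi).valuation_eq_one L hm (map_one _)) ?_
  obtain ⟨i, hi⟩ := M.exists_on y
  refine ⟨i, hi, ?_⟩
  rw [(hcongr i hi).red_eq L hm (hreg.2 i hi) (one_mem _)]
  have h1 : M.red i ⟨1, one_mem _⟩ = algebraMap (ResidueField A) Fb 1 :=
    (map_one (M.red i)).trans (map_one _).symm
  rw [h1, M.evalAt_loc_algebraMap]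
  exact one_ne_zero

end Units

end TwoCompData

end Fermat.Agent.LevelP
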