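import Fermat.Agent.LevelP.Ordinary.OldNew
import Fermat.Agent.FiniteFlat.HeckePoints
import Fermat.Agent.RT.LocalAtP.Conditions
import Fermat.Agent.Density.PlacesConj

/-!
# Hecke–Galois data of level `M p` with ordinary reduction are ordinary at `p`

The ordinary equations at the place of `padicEmbedding` hold at every point, hence in the
coefficient ring of the datum; the other places over `p` are conjugate to that one.

Owner: helper46.
-/

set_option autoImplicit false
set_option synthInstance.maxHeartbeats 400000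

noncomputable section

namespace Fermat.Agent.LevelP

open IsLocalRing Polynomial
open scoped Pointwise

local notation "Qb" => AlgebraicClosure ℚ
local notation "Γℚ" => (AlgebraicClosure ℚ ≃ₐ[ℚ] AlgebraicClosure ℚ)

/-- A line at one place over `p` gives ordinarity at `p`. -/
theorem isOrdinaryAt_of_hasStrictLine {A : Type} [CommRing A] [IsLocalRing A]
    {ρ : GaloisRepAdic A} {p m : ℕ} (hp : p.Prime) {P₀ : ValuationSubring Qb}
    (hP₀ : P₀.LiesOverPrime p) (h : RT.HasStrictLine ρ m P₀) : ρ.IsOrdinaryAt p := by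
  intro P hP
  obtain ⟨a, rfl⟩ := Density.exists_smul_eq hp hP₀ hP
  obtain ⟨L, ⟨b, rfl⟩, hD, hI, -⟩ := h
  have hinv : ∀ v, ρ.ρ a⁻¹ (ρ.ρ a v) = v := fun v => by
    rw [← Module.End.mul_apply, ← map_mul, inv_mul_cancel, map_one, Module.End.one_apply]
  have hinv' : ∀ v, ρ.ρ a (ρ.ρ a⁻¹ v) = v := fun v => by
    rw [← Module.End.mul_apply, ← map_mul, mul_inv_cancel, map_one, Module.End.one_apply]
  let e : ρ.V ≃ₗ[A] ρ.V :=
    { ρ.ρ a with
      invFun := ρ.ρ a⁻¹
      left_inv := hinv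
      right_inv := hinv' }
  have hb0 : (b.map e) 0 = ρ.ρ a (b 0) := rfl
  have hmem : ∀ v ∈ A ∙ b 0, ρ.ρ a v ∈ A ∙ (b.map e) 0 := fun v hv => by
    obtain ⟨c, rfl⟩ := Submodule.mem_span_singleton.1 hv
    exact Submodule.mem_span_singleton.2 ⟨c, by rw [hb0, map_smul]⟩
  have hconj : ∀ σ v, ρ.ρ σ v = ρ.ρ a (ρ.ρ (a⁻¹ * σ * a) (ρ.ρ a⁻¹ v)) := fun σ v => by
    simp only [← Module.End.mul_apply, ← map_mul, mul_assoc, mul_inv_cancel_left,
      mul_inv_cancel, mul_one]
  refine ⟨A ∙ (b.map e) 0, ⟨b.map e, rfl⟩, fun σ hσ v hv => ?_, fun σ hσ v => ?_⟩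
  · have hσ' : a⁻¹ * σ * a ∈ P₀.decompositionSubgroup ℚ := by
      have := Density.mem_decompositionSubgroup_smul hσ a⁻¹
      rwa [inv_smul_smul, inv_inv] at this
    obtain ⟨c, rfl⟩ := Submodule.mem_span_singleton.1 hv
    rw [map_smul]
    refine Submodule.smul_mem _ c ?_
    rw [hconj, hb0, hinv]
    exact hmem _ (hD _ hσ' _ (Submodule.mem_span_singleton_self _))
  · have h1 := hmem _ (hI _ (Density.conj_inv_mem_inertiaSubgroupIn hσ) (ρ.ρ a⁻¹ v))
    rwa [map_sub, ← hconj, hinv'] at h1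

variable {p M : ℕ} [Fact p.Prime] [NeZero (M * p)] {S : Finset ℕ}
  {𝒪 : Type} [CommRing 𝒪] [IsDomain 𝒪] [IsDiscreteValuationRing 𝒪]
  [IsAdicComplete (maximalIdeal 𝒪) 𝒪] [Finite (ResidueField 𝒪)] [CharZero 𝒪]
  {θ : CuspForm.heckeAlgebra (M * p) 2 (↑S : Set ℕ) →+* ResidueField 𝒪}
  {T : Type} [CommRing T] [IsLocalRing T] [IsNoetherianRing T]
  [IsAdicComplete (maximalIdeal T) T] [Algebra 𝒪 T] [IsLocalHom (algebraMap 𝒪 T)]
  [Module.Finite 𝒪 T] [Module.Free 𝒪 T]

set_option maxHeartbeats 800000 in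
/-- Data of level exactly divisible by `p` with ordinary reduction are ordinary at `p`. -/
theorem isOrdinaryAt_of_datum (hp2 : p ≠ 2) (hp𝒪 : (p : 𝒪) ∈ maximalIdeal 𝒪) (hpM : ¬ p ∣ M)
    (hNS : ∀ q : ℕ, q.Prime → q ∣ M * p → q ∈ S)
    (H : CuspForm.HeckeGaloisRepDatum (M * p) (↑S : Set ℕ) 𝒪 θ T)
    (hres : (GaloisRepAdic.ofResidualGaloisRep H.ρ.residual).IsOrdinaryAt p) :
    H.ρ.IsOrdinaryAt p := by
  classical
  have hp : p.Prime := Fact.out
  have : NeZero M := ⟨fun h => NeZero.ne (M * p) (by rw [h, zero_mul])⟩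
  have hpT : (p : T) ∈ maximalIdeal T := by
    rw [← map_natCast (algebraMap 𝒪 T) p]
    exact map_nonunit (algebraMap 𝒪 T) _ hp𝒪
  have hdet : H.ρ.DetIsCyclotomic p :=
    Density.detIsCyclotomic_of_charpoly_frobenius H.ρ p hp hpT S fun ℓ hℓ hℓS A hA σ hσ =>
      ⟨_, H.charpoly_frob ℓ hℓ (fun h => hℓS (hNS ℓ hℓ h))
        (fun h => hℓS (Finset.mem_coe.1 h)) A hA σ hσ⟩
  have hP₀ : (padicPlace p).LiesOverPrime p := TwoAdic.Selmer.liesOverPrime_padicPlace ⟨p, hp⟩
  -- a basis lifting an adapted residual basis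
  obtain ⟨_, ⟨bbar, rfl⟩, hD, hI⟩ := hres _ hP₀
  let b₀ := Deformation.someBasis H.ρ
  obtain ⟨b, hb⟩ := Deformation.exists_lift_basis H.ρ.residual bbar H.ρ (RingHom.id _)
    (Deformation.residual_isEquiv_of_map_eq _ (Algebra.TensorProduct.basis (ResidueField T) b₀)
      H.ρ b₀ (RingHom.id _) (MonoidHom.ext fun σ =>
        (Deformation.matOf_baseChange (ResidueField T) H.ρ.ρ b₀ H.ρ.residual.ρ
          (fun _ => rfl) σ).symm.trans
          (Matrix.ext fun _ _ => rfl)))
  set R := Deformation.matOf H.ρ.ρ b with hR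
  have hentry : ∀ σ i l, residue T (R σ i l) = bbar.repr (H.ρ.residual.ρ σ (bbar l)) i := by
    intro σ i l
    have h := congrFun (congrFun (DFunLike.congr_fun hb σ) i) l
    refine h.trans ?_
    show (RingHom.id _) (Deformation.matOf H.ρ.residual.ρ bbar σ i l) = _
    exact LinearMap.toMatrix_apply _ _ _ _ _
  have hcoord : ∀ v ∈ ResidueField T ∙ bbar 0, bbar.repr v 1 = 0 := fun v hv => by
    obtain ⟨c, rfl⟩ := Submodule.mem_span_singleton.1 hv
    rw [map_smul, Finsupp.smul_apply, Module.Basis.repr_self, Finsupp.single_eq_of_ne (by decide),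
      smul_zero]
  have h10 : ∀ g ∈ (padicPlace p).decompositionSubgroup ℚ, R g 1 0 ∈ maximalIdeal T :=
    fun g hg => (residue_eq_zero_iff _).1 <| by
      rw [hentry]
      exact hcoord _ (hD g hg _ (Submodule.mem_span_singleton_self _))
  have h11 : ∀ σ ∈ (padicPlace p).inertiaSubgroupIn ℚ, R σ 1 1 - 1 ∈ maximalIdeal T :=
    fun σ hσ => (residue_eq_zero_iff _).1 <| by
      rw [map_sub, map_one, hentry]
      have h := hcoord _ (hI σ hσ (bbar 1))
      rw [map_sub, Finsupp.sub_apply, Module.Basis.repr_self, Finsupp.single_eq_same] at h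
      exact h
  obtain ⟨σ₀, hσ₀, a₀, ha, ha₀⟩ := RT.exists_mem_inertia_exponent hp hp2 hP₀
  -- the points
  obtain ⟨J, hJ, P, hP⟩ := FiniteFlat.exists_points
    (fun q hq hqN => Finset.mem_coe.mpr (hNS q hq hqN)) H
  have hpt : ∀ j, RT.StrictOrdEqns 1 (padicPlace p) σ₀
      (Deformation.mapRep ((P j).ψ : T →+* (P j).R) R) := by
    intro j
    have := (P j).ψ_local
    obtain ⟨b', hb'⟩ := Deformation.exists_basis_baseChangeAlong H.ρ b
      ((P j).ψ : T →+* (P j).R) (P j).ψ_local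
    rw [← hb']
    have hpO : (p : (P j).R) ∈ maximalIdeal (P j).R := by
      rw [← map_natCast ((P j).ψ : T →+* (P j).R) p]
      exact map_nonunit ((P j).ψ : T →+* (P j).R) _ hpT
    refine ordinary_eqns_of_point hp2 hpM hNS hpO (P j).χ _ ?_ ?_ b' ?_ ?_ hσ₀ ha ha₀
    · let ι : ResidueField T →+* ResidueField (P j).R := ResidueField.map ((P j).ψ : T →+* (P j).R)
      let : Algebra (ResidueField T) (ResidueField (P j).R) := ι.toAlgebra
      obtain ⟨e⟩ := Deformation.residual_isEquiv_of_map_eq H.ρ.residual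
        (Algebra.TensorProduct.basis (ResidueField T) b)
        (H.ρ.baseChangeAlong ((P j).ψ : T →+* (P j).R) (P j).ψ_local) b' ι
        (MonoidHom.ext fun σ => by
          rw [hb', Deformation.mapRep_apply, Deformation.mapRep_apply, Deformation.mapRep_apply,
            show Deformation.matOf H.ρ.residual.ρ (Algebra.TensorProduct.basis (ResidueField T) b) σ
              = Deformation.mapRep (residue T) R σ from
              Deformation.matOf_baseChange (ResidueField T) H.ρ.ρ b H.ρ.residual.ρ (fun _ => rfl) σ,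
            Deformation.mapRep_apply, Matrix.map_map, Matrix.map_map]
          rfl)
      exact Density.isAbsolutelyIrreducible_of_isEquiv ⟨e.symm⟩
        (RT.isAbsolutelyIrreducible_baseChange _ H.residual_absIrr _)
    · intro ℓ hℓ hℓN hℓS A hA σ hσ
      have hℓS' : ℓ ∉ (↑S : Set ℕ) := fun h => hℓS (Finset.mem_coe.1 h)
      rw [RT.charpoly_adic_baseChangeAlong, H.charpoly_frob ℓ hℓ hℓN hℓS' A hA σ hσ]
      simp only [Polynomial.map_add, Polynomial.map_sub, Polynomial.map_pow, Polynomial.map_mul,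
        Polynomial.map_X, Polynomial.map_C, map_natCast, Polynomial.map_natCast]
      congr 4
      exact ((P j).χ_eq _).symm
    · intro g hg
      rw [hb']
      exact map_nonunit ((P j).ψ : T →+* (P j).R) _ (h10 g hg)
    · intro σ hσ
      rw [hb']
      have h := map_nonunit ((P j).ψ : T →+* (P j).R) _ (h11 σ hσ)
      rwa [map_sub, map_one] at h
  have heq : RT.StrictOrdEqns 1 (padicPlace p) σ₀ R :=
    RT.StrictOrdEqns.of_map one_ne_zero (fun j => ((P j).ψ : T →+* (P j).R)) hP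
      (fun n => ⟨n, le_rfl, fun x _ => by simp⟩) hpt
  exact isOrdinaryAt_of_hasStrictLine hp hP₀
    (RT.hasStrictLine_of_eqns H.ρ b (RT.isUnit_det_sub_one H.ρ hp hdet ha ha₀ b) heq)

end Fermat.Agent.LevelP
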