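import Fermat.Agent.LevelP.Ordinary.Null
import Fermat.Agent.LevelP.Model.Separated
import Mathlib.Algebra.Polynomial.Coeff

/-!
# Levels of `p`-torsion classes trivial modulo the uniformiser

For a representative `ψ ≡ 1 + π ^ m a` of a class killed by `p`, over constants of absolute
ramification `e`: `a ^ p` is null if `p m < e + m`, `a` is null if `e + m < p m`, and
`a ^ p + κ a` is null if both agree.

Owner: helper46.
-/

set_option autoImplicit false

noncomputable section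

namespace Fermat.Agent.LevelP

open AlgebraicCurve Fermat.Agent.Curve IsLocalRing

local notation "Qb" => AlgebraicClosure ℚ
local notation "Γℚ" => (AlgebraicClosure ℚ ≃ₐ[ℚ] AlgebraicClosure ℚ)

open Polynomial in
/-- The binomial expansion of a `p`-th power with its first term split off. -/
theorem exists_one_add_pow_prime {R : Type*} [CommRing R] {p : ℕ} (hp : p.Prime) (x : R) :
    ∃ s : R, (1 + x) ^ p = 1 + x ^ p + p * x + p * x ^ 2 * s := by
  obtain ⟨r, hr⟩ := exists_add_pow_prime_eq hp (1 : ℤ[X]) X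
  have h1 := congrArg (fun q : ℤ[X] => q.coeff 1) hr
  simp only [one_pow, mul_one, coeff_one_add_X_pow, Nat.choose_one_right, coeff_add, coeff_one,
    coeff_X_pow, hp.one_lt.ne, one_ne_zero, if_false, zero_add, mul_assoc, coeff_natCast_mul,
    coeff_X_mul_zero, one_mul] at h1
  have hr0 : r.coeff 0 = 1 :=
    mul_left_cancel₀ (Nat.cast_ne_zero.2 hp.ne_zero : (p : ℤ) ≠ 0) (by simpa using h1.symm)
  obtain ⟨s, hs⟩ : (X : ℤ[X]) ∣ r - 1 := by simp [X_dvd_iff, hr0]
  refine ⟨aeval x s, ?_⟩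
  have h2 := congrArg (aeval x) hr
  have h3 := congrArg (aeval x) hs
  simp only [map_pow, map_add, map_one, map_mul, map_natCast, map_sub, aeval_X, one_pow] at h2 h3
  linear_combination h2 + (p : R) * x * h3

/-- `(1 + η) ^ m` to first order. -/
theorem exists_one_add_pow {R : Type*} [CommRing R] (η : R) (m : ℕ) :
    ∃ r : R, (1 + η) ^ m = 1 + m * η + η ^ 2 * r := by
  induction m with
  | zero => exact ⟨0, by simp⟩
  | succ m ih =>
    obtain ⟨r, hr⟩ := ih
    refine ⟨r * (1 + η) + m, ?_⟩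
    rw [pow_succ, hr]
    push_cast
    ring

variable {p : ℕ} {A : ValuationSubring Qb} {F : Type*} [Field F] [Algebra Qb F]
  {Fb : Type*} [Field Fb] [Algebra (ResidueField A) Fb] {M : TwoCompData p A F Fb}

/-- The unit `p / π ^ e`. -/
def Level.kappa (L : Level p A) : Qb := (p : Qb) / L.π ^ L.e

theorem Level.valuation_kappa (L : Level p A) : A.valuation L.kappa = 1 := by
  rw [Level.kappa, map_div₀, map_pow, ← L.pow_e,
    div_self (pow_ne_zero _ L.valuation_ne_zero)]

theorem Level.kappa_fixed (L : Level p A) : ∀ σ ∈ L.H, σ L.kappa = L.kappa := fun σ hσ => by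
  rw [Level.kappa, map_div₀, map_natCast, map_pow, L.fixed σ hσ]

theorem Level.pow_mul_kappa (L : Level p A) :
    algebraMap Qb F L.π ^ L.e * algebraMap Qb F L.kappa = (p : F) := by
  rw [← map_pow, ← map_mul, Level.kappa, mul_div_cancel₀ _ (pow_ne_zero _ L.ne_zero),
    map_natCast]

namespace TwoCompData

variable {L : Level p A}

/-- Expansion of the `p`-th power of a representative. -/
theorem pow_expansion (hp : p.Prime) (L : Level p A) {i : Bool} (m : ℕ) {a : F} (ha : a ∈ M.V i) :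
    ∃ s ∈ M.V i, (1 + algebraMap Qb F L.π ^ m * a) ^ p = 1 + algebraMap Qb F L.π ^ (p * m) * a ^ p
      + algebraMap Qb F L.π ^ (L.e + m) * (algebraMap Qb F L.kappa * a)
      + algebraMap Qb F L.π ^ (L.e + m + m) * s := by
  have hκ : algebraMap Qb F L.kappa ∈ M.V i :=
    (M.algebraMap_mem_iff i _).2 ((A.valuation_le_one_iff _).1 L.valuation_kappa.le)
  obtain ⟨s, hs⟩ := exists_one_add_pow_prime hp
    ((⟨algebraMap Qb F L.π, M.pi_mem L i⟩ : M.V i) ^ m * ⟨a, ha⟩)
  refine ⟨algebraMap Qb F L.kappa * a ^ 2 * (s : F), mul_mem (mul_mem hκ (pow_mem ha 2)) s.2, ?_⟩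
  have h := congrArg (Subtype.val : M.V i → F) hs
  push_cast at h
  rw [h, ← L.pow_mul_kappa]
  ring

variable [IsFunctionField1 Qb F] [IsFunctionField1 (ResidueField A) Fb]
  [IsAlgClosed (ResidueField A)]

variable {D : Divisor Qb F} {m : ℕ} {g : F} {ψ : M.Pt → F}

/-- The first order consequence of `p • D` being principal. -/
theorem Rep.null_of_torsion (hp : p.Prime) (hA : A.LiesOverPrime p) (h : M.Rep L D m g ψ)
    (hD : M.DivFixed L.H D) (hpD : Divisor.IsPrincipal ((p : ℤ) • D)) {N : ℕ} (hN : 0 < N)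
    {α : M.Pt → F} (hα : ∀ y i, M.On y i → α y ∈ M.V i)
    (hχ : ∀ y i, M.On y i →
      M.VCongr L.π i (N + 1) (ψ y ^ p) (1 + algebraMap Qb F L.π ^ N * α y)) :
    M.Null L α := by
  obtain ⟨f, hf, hff, hford⟩ := M.descend_principal L.H L.le_inertia _
    (fun σ hσ => ((DistribMulAction.toAddMonoidHom (Divisor Qb F) (M.act σ)).map_zsmul (p : ℤ) D).trans
      (congrArg ((p : ℤ) • ·) (hD σ hσ))) hpD
  refine null_of_gens hp hA L hN (fun y => fixed_pow (h.fixed y) p) hα hχ
    (G := f * g ^ p) (mul_ne_zero hf (pow_ne_zero p h.g_ne)) (fixed_mul hff (fixed_pow h.g_fixed p))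
    fun y P hP => ?_
  rw [P.ord_mul hf (pow_ne_zero p h.g_ne), ← hford P, Fermat.Agent.Curve.ord_pow,
    Fermat.Agent.Curve.ord_pow, h.ord_eq y P hP, Finsupp.smul_apply, smul_eq_mul]
  ring

theorem Rep.null_pow_coeff (hp : p.Prime) (hA : A.LiesOverPrime p) (h : M.Rep L D m g ψ)
    (hD : M.DivFixed L.H D) (hpD : Divisor.IsPrincipal ((p : ℤ) • D)) (hm : 0 < m)
    (hlt : p * m < L.e + m) : M.Null L fun y => L.coeff m (ψ y) ^ p := by
  refine h.null_of_torsion hp hA hD hpD (Nat.mul_pos hp.pos hm)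
    (fun y i hi => pow_mem (h.coeff_mem hi) p) fun y i hi => ?_
  obtain ⟨s, hs, e⟩ := pow_expansion hp L m (h.coeff_mem hi) (i := i)
  rw [one_add_coeff] at e
  obtain ⟨l, hl⟩ := Nat.exists_eq_add_of_le (show p * m + 1 ≤ L.e + m by omega)
  have hκ : algebraMap Qb F L.kappa ∈ M.V i :=
    (M.algebraMap_mem_iff i _).2 ((A.valuation_le_one_iff _).1 L.valuation_kappa.le)
  refine ⟨algebraMap Qb F L.π ^ l * (algebraMap Qb F L.kappa * L.coeff m (ψ y))
    + algebraMap Qb F L.π ^ (l + m) * s,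
    add_mem (mul_mem (pow_mem (M.pi_mem L i) l) (mul_mem hκ (h.coeff_mem hi)))
      (mul_mem (pow_mem (M.pi_mem L i) _) hs), ?_⟩
  rw [hl] at e
  rw [e]
  ring

theorem Rep.null_coeff_of_lt (hp : p.Prime) (hA : A.LiesOverPrime p) (h : M.Rep L D m g ψ)
    (hD : M.DivFixed L.H D) (hpD : Divisor.IsPrincipal ((p : ℤ) • D)) (hm : 0 < m)
    (hlt : L.e + m < p * m) : M.Null L fun y => L.coeff m (ψ y) := by
  have hκ : ∀ i, algebraMap Qb F L.kappa ∈ M.V i := fun i =>
    (M.algebraMap_mem_iff i _).2 ((A.valuation_le_one_iff _).1 L.valuation_kappa.le)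
  refine Null.of_smul L.valuation_kappa L.kappa_fixed (h.null_of_torsion hp hA hD hpD
    (N := L.e + m) (by omega) (fun y i hi => mul_mem (hκ i) (h.coeff_mem hi)) fun y i hi => ?_)
  obtain ⟨s, hs, e⟩ := pow_expansion hp L m (h.coeff_mem hi) (i := i)
  rw [one_add_coeff] at e
  obtain ⟨l, hl⟩ := Nat.exists_eq_add_of_le (show L.e + m + 1 ≤ p * m by omega)
  obtain ⟨m', rfl⟩ : ∃ k, m = k + 1 := ⟨m - 1, by omega⟩
  refine ⟨algebraMap Qb F L.π ^ l * L.coeff (m' + 1) (ψ y) ^ p + algebraMap Qb F L.π ^ m' * s,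
    add_mem (mul_mem (pow_mem (M.pi_mem L i) l) (pow_mem (h.coeff_mem hi) p))
      (mul_mem (pow_mem (M.pi_mem L i) _) hs), ?_⟩
  rw [e, hl]
  ring

theorem Rep.null_artinSchreier (hp : p.Prime) (hA : A.LiesOverPrime p) (h : M.Rep L D m g ψ)
    (hD : M.DivFixed L.H D) (hpD : Divisor.IsPrincipal ((p : ℤ) • D)) (hm : 0 < m)
    (heq : p * m = L.e + m) :
    M.Null L fun y => L.coeff m (ψ y) ^ p + algebraMap Qb F L.kappa * L.coeff m (ψ y) := by
  have hκ : ∀ i, algebraMap Qb F L.kappa ∈ M.V i := fun i =>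
    (M.algebraMap_mem_iff i _).2 ((A.valuation_le_one_iff _).1 L.valuation_kappa.le)
  refine h.null_of_torsion hp hA hD hpD (N := L.e + m) (by omega)
    (fun y i hi => add_mem (pow_mem (h.coeff_mem hi) p) (mul_mem (hκ i) (h.coeff_mem hi)))
    fun y i hi => ?_
  obtain ⟨s, hs, e⟩ := pow_expansion hp L m (h.coeff_mem hi) (i := i)
  rw [one_add_coeff, heq] at e
  obtain ⟨m', rfl⟩ : ∃ k, m = k + 1 := ⟨m - 1, by omega⟩
  refine ⟨algebraMap Qb F L.π ^ m' * s, mul_mem (pow_mem (M.pi_mem L i) _) hs, ?_⟩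
  rw [e]
  ring

/-- Two representatives of the same class have the same first order term up to null families. -/
theorem Rep.null_sub (hp : p.Prime) (hA : A.LiesOverPrime p) {D' : Divisor Qb F} {g' : F}
    {ψ' : M.Pt → F} (h : M.Rep L D m g ψ) (h' : M.Rep L D' m g' ψ') (hm : 0 < m)
    (hD : M.DivFixed L.H D) (hD' : M.DivFixed L.H D') (hDD : Divisor.IsPrincipal (D - D')) :
    M.Null L fun y => L.coeff m (ψ y) - L.coeff m (ψ' y) := by
  obtain ⟨k, hk, hkf, hkord⟩ := M.descend_principal L.H L.le_inertia _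
    (fun σ hσ => by rw [smul_sub, hD σ hσ, hD' σ hσ]) hDD
  refine null_of_gens hp hA L hm (χ := fun y => ψ y / ψ' y)
    (fun y => fixed_div (h.fixed y) (h'.fixed y))
    (fun y i hi => sub_mem (h.coeff_mem hi) (h'.coeff_mem hi)) (fun y i hi => ?_)
    (G := k * g / g') (div_ne_zero (mul_ne_zero hk h.g_ne) h'.g_ne)
    (fixed_div (fixed_mul hkf h.g_fixed) h'.g_fixed) fun y P hP => ?_
  · have hv : (M.V i).valuation (ψ' y) = 1 :=
      (h'.congr y i hi).valuation_eq_one L hm (map_one _)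
    have hinv : (ψ' y)⁻¹ ∈ M.V i :=
      M.mem_of_valuation_eq_one (by rw [map_inv₀, hv, inv_one])
    obtain ⟨m', rfl⟩ : ∃ k, m = k + 1 := ⟨m - 1, by omega⟩
    refine ⟨-(algebraMap Qb F L.π ^ m' * ((L.coeff (m' + 1) (ψ y) - L.coeff (m' + 1) (ψ' y))
      * L.coeff (m' + 1) (ψ' y) * (ψ' y)⁻¹)), neg_mem (mul_mem (pow_mem (M.pi_mem L i) _)
        (mul_mem (mul_mem (sub_mem (h.coeff_mem hi) (h'.coeff_mem hi)) (h'.coeff_mem hi)) hinv)),
      ?_⟩
    have e := one_add_coeff L (m' + 1) (ψ y)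
    have e' := one_add_coeff L (m' + 1) (ψ' y)
    set a := L.coeff (m' + 1) (ψ y)
    set a' := L.coeff (m' + 1) (ψ' y)
    have hne := h'.ne_zero y
    field_simp
    linear_combination (-1 : F) * e + (1 + algebraMap Qb F L.π ^ (m' + 1) * (a - a')) * e'
  · rw [Fermat.Agent.Curve.ord_div P (mul_ne_zero hk h.g_ne) h'.g_ne, P.ord_mul hk h.g_ne,
      Fermat.Agent.Curve.ord_div P (h.ne_zero y) (h'.ne_zero y), h.ord_eq y P hP,
      h'.ord_eq y P hP, ← hkord P, Finsupp.sub_apply]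
    ring

omit [IsFunctionField1 Qb F] [IsFunctionField1 (ResidueField A) Fb]
  [IsAlgClosed (ResidueField A)] in
theorem Rep.coeff_vcongr_zero {n : ℕ} (h : M.Rep L D n g ψ) (hmn : m < n) {y : M.Pt} {i : Bool}
    (hi : M.On y i) : M.VCongr L.π i 1 (L.coeff m (ψ y)) 0 := by
  obtain ⟨l, rfl⟩ := Nat.exists_eq_add_of_lt hmn
  refine ⟨algebraMap Qb F L.π ^ l * L.coeff (m + l + 1) (ψ y),
    mul_mem (pow_mem (M.pi_mem L i) l) (h.coeff_mem hi), ?_⟩
  have hπm : algebraMap Qb F L.π ^ m ≠ 0 := pow_ne_zero m ((map_ne_zero _).2 L.ne_zero)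
  refine mul_left_cancel₀ hπm ?_
  linear_combination one_add_coeff L m (ψ y) - one_add_coeff L (m + l + 1) (ψ y)

/-- The first order term is null if the class is trivial to higher order. -/
theorem Rep.null_of_trivial (hp : p.Prime) (hA : A.LiesOverPrime p) {D' : Divisor Qb F} {n : ℕ}
    (h : M.Rep L D m g ψ) (h' : M.Trivial L D' n) (hm : 0 < m) (hmn : m < n)
    (hD : M.DivFixed L.H D) (hD' : M.DivFixed L.H D') (hDD : Divisor.IsPrincipal (D - D')) :
    M.Null L fun y => L.coeff m (ψ y) := by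
  obtain ⟨g', ψ', h'⟩ := trivial_iff.1 h'
  refine (h.null_sub hp hA (h'.mono hmn.le) hm hD hD' hDD).congr fun y i hi => ?_
  obtain ⟨d, hd, e⟩ := h'.coeff_vcongr_zero hmn hi
  exact ⟨d, hd, by linear_combination e⟩

/-- Above the threshold `p`-torsion classes are trivial to all orders, hence principal. -/
theorem isPrincipal_of_trivial (hp : p.Prime) (hA : A.LiesOverPrime p) (L : Level p A)
    (hdeg : Divisor.degree D = 0) (hD : M.DivFixed L.H D)
    (hpD : Divisor.IsPrincipal ((p : ℤ) • D)) {m₀ : ℕ} (hm₀ : 0 < m₀)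
    (hlt : L.e + m₀ < p * m₀) (h : M.Trivial L D m₀) : D.IsPrincipal := by
  refine M.isPrincipal_of_forall_trivial hp L D hdeg hD fun m => ?_
  suffices key : ∀ k, M.Trivial L D (m₀ + k) by
    obtain ⟨g, ψ, hgψ⟩ := trivial_iff.1 (key m)
    exact trivial_iff.2 ⟨g, ψ, hgψ.mono (Nat.le_add_left m m₀)⟩
  intro k
  induction k with
  | zero => exact h
  | succ k ih =>
    obtain ⟨g, ψ, hgψ⟩ := trivial_iff.1 ih
    refine hgψ.trivial_succ (by omega) (hgψ.null_coeff_of_lt hp hA hD hpD (by omega) ?_)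
    calc L.e + (m₀ + k) < p * m₀ + k := by omega
      _ ≤ p * (m₀ + k) := by rw [mul_add]; exact Nat.add_le_add_left (Nat.le_mul_of_pos_left k hp.pos) _

end TwoCompData

end Fermat.Agent.LevelP
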