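import Fermat.Agent.BadPrime.GaussNormResidue
import Mathlib.FieldTheory.IsAlgClosed.AlgebraicClosure
import Mathlib.LinearAlgebra.Matrix.Trace
import Mathlib.LinearAlgebra.Matrix.Charpoly.Coeff

/-!
# The norm from level `Mq` to level `M` of functions close to `1`

If `f` has residue `g₁` along the first component then the norm of `1 + a f`, `π a = 0`, is
`1 + a t` with `t` of residue `g₁`: the trace of the inseparable block vanishes.

Owner: helper46.
-/

set_option autoImplicit false
set_option synthInstance.maxHeartbeats 400000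
set_option linter.unusedSectionVars false

noncomputable section

open ModularCurve IntermediateField
open scoped IntermediateField Matrix

namespace Fermat.Agent.BadPrime

open Fermat.Agent.Reduction Fermat.Agent.Modular

section Trace

variable {K : Type*} [Field K] {q : ℕ} [Fact q.Prime] [CharP K q] {n : Type*} [Fintype n]
  [DecidableEq n]

/-- A matrix whose `q`-th power is scalar, of size divisible by `q`, has trace zero. -/
theorem trace_eq_zero_of_pow_eq_scalar (N : Matrix n n K) (a : K) (h : N ^ q = Matrix.scalar n a)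
    (hn : q ∣ Fintype.card n) : N.trace = 0 := by
  obtain ⟨b, hb⟩ := IsAlgClosed.exists_pow_nat_eq (algebraMap K (AlgebraicClosure K) a)
    (Fact.out : q.Prime).pos
  set f := algebraMap K (AlgebraicClosure K)
  haveI : CharP (AlgebraicClosure K) q := charP_of_injective_algebraMap f.injective q
  rcases isEmpty_or_nonempty n with he | hne
  · simp [Matrix.trace]
  refine f.injective ?_
  set N' := N.map f with hN'
  rw [map_zero, show f N.trace = N'.trace from
    AddMonoidHom.map_trace (f.toAddMonoidHom) N]
  have hN'q : N' ^ q = Matrix.scalar n (b ^ q) := by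
    rw [hN', ← RingHom.mapMatrix_apply, ← map_pow, h, RingHom.mapMatrix_apply, hb]
    ext i j
    by_cases hij : i = j <;> simp [Matrix.diagonal_apply, hij, f]
  have hnil : IsNilpotent (N' - Matrix.scalar n b) := by
    refine ⟨q, ?_⟩
    rw [sub_pow_char_of_commute _ ((Matrix.scalar_commute b (fun r => Commute.all _ r) N').symm),
      ← map_pow, hN'q, sub_self]
  have h1 := (Matrix.isNilpotent_trace_of_isNilpotent hnil).eq_zero
  rw [Matrix.trace_sub, Matrix.scalar_apply, Matrix.trace_diagonal, Finset.sum_const,
    Finset.card_univ, nsmul_eq_mul] at h1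
  obtain ⟨l, hl⟩ := hn
  rw [hl, Nat.cast_mul, CharP.cast_eq_zero, zero_mul, zero_mul, sub_zero] at h1
  exact h1

variable {k : Type*} [Field k] [CharP k q]

/-- A matrix representing, on the powers of `t`, the multiplication by `g` over the dilated series
has trace zero. -/
theorem trace_eq_zero_of_repr {t g : LaurentSeries k} (ht : t ≠ 0) (hord : t.order = -1)
    (N : Matrix (Fin q) (Fin q) (LaurentSeries k))
    (h : ∀ j, ∑ i, ModularCurve.qExpand k q (N i j) * t ^ (i : ℕ) = g * t ^ (j : ℕ)) :
    N.trace = 0 := by
  classical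
  haveI : CharP (LaurentSeries k) q :=
    charP_of_injective_algebraMap (algebraMap k (LaurentSeries k)).injective q
  let Φ : (Fin q → LaurentSeries k) → LaurentSeries k := fun v =>
    ∑ i, ModularCurve.qExpand k q (v i) * t ^ (i : ℕ)
  have hΦ : ∀ v, Φ (N *ᵥ v) = g * Φ v := by
    intro v
    simp only [Φ, Matrix.mulVec, dotProduct, map_sum, map_mul, Finset.sum_mul, Finset.mul_sum]
    rw [Finset.sum_comm]
    refine Finset.sum_congr rfl fun j _ => ?_
    rw [show g * (ModularCurve.qExpand k q (v j) * t ^ (j : ℕ)) =
      ModularCurve.qExpand k q (v j) * (g * t ^ (j : ℕ)) by ring, ← h j, Finset.mul_sum]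
    exact Finset.sum_congr rfl fun i _ => by ring
  have hpow : ∀ n : ℕ, ∀ v, Φ ((N ^ n) *ᵥ v) = g ^ n * Φ v := by
    intro n
    induction n with
    | zero => intro v; simp
    | succ n ih =>
      intro v
      rw [pow_succ', ← Matrix.mulVec_mulVec, hΦ, ih, pow_succ']
      ring
  have hinj : ∀ v w, Φ v = Φ w → v = w := fun v w hvw => sub_eq_zero.1
    (eq_zero_of_sum_qExpand_mul_pow ht hord (v - w) (by
      simp only [Pi.sub_apply, map_sub, sub_mul, Finset.sum_sub_distrib]
      exact sub_eq_zero.2 hvw))
  refine trace_eq_zero_of_pow_eq_scalar N (frobTwist (q := q) g) ?_ (by rw [Fintype.card_fin])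
  refine Matrix.ext_of_mulVec_single fun j => hinj _ _ ?_
  rw [hpow, ← qExpand_frobTwist]
  simp only [Φ, Finset.mul_sum, Matrix.scalar_apply, Matrix.mulVec_single_one, Matrix.col_apply,
    Matrix.diagonal_apply]
  refine Finset.sum_congr rfl fun i _ => ?_
  rcases eq_or_ne i j with rfl | hij
  · simp
  · simp [hij]

end Trace

variable {L k : Type*} [Field L] [Field k] [Algebra ℚ L] [Algebra.IsAlgebraic ℚ L]
  {A : ValuationSubring L} (π : A →+* k) [IsLocalHom π]
  {q : ℕ} [Fact q.Prime] [CharP k q] {M : ℕ} [NeZero M]
  {w : FL (M * q) L →ₐ[L] FL (M * q) L}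

attribute [local instance] alphaAlgebra

set_option maxHeartbeats 800000 in
/-- The norm of a function close to `1`. -/
theorem exists_norm_one_add (ι : L →+* ℂ) (hqM : ¬ q ∣ M) (hw : IsALInvolution w)
    (f : pairBv π w) {a : A} (ha : π a = 0) :
    ∃ t : FL M L, HasGaussRed π (t : LaurentSeries L) (pairRed1 π w f) ∧
      Algebra.norm (FL M L) (1 + algebraMap L (FL (M * q) L) (a : L) * (f : FL (M * q) L)) =
        1 + algebraMap L (FL M L) (a : L) * t := by
  classical
  have := finiteDimensional_alphaAlgebra (L := L) ι hqM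
  have hcard : Fintype.card (Option (Fin q)) = Module.finrank (FL M L) (FL (M * q) L) := by
    rw [Fintype.card_option, Fintype.card_fin, finrank_alphaAlgebra ι hqM]
  let b := basisOfLinearIndependentOfCardEqFinrank
    (linearIndependent_of_jointlyIndependent (pairBasis_jointlyIndependent π hw)) hcard
  have hb : ∀ i, b i = pairBasis L q M i := fun i => by
    simp [b]
  have hy : ∀ j, (f : FL (M * q) L) * pairBasis L q M j ∈ pairBv π w := fun j =>
    mul_mem f.2 ((forall_mem_pairV π).1 fun b => pairBasis_mem π hw j b)
  choose c hc hsum using fun j => exists_coeff_pairBv π ι hqM hw (hy j)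
  have hmat : Algebra.leftMulMatrix b (f : FL (M * q) L) = Matrix.of fun i j => c j i := by
    ext i j
    rw [Algebra.leftMulMatrix_eq_repr_mul, Matrix.of_apply, hb, ← hsum j]
    rw [show ∑ i, algebraMap (FL M L) (FL (M * q) L) (c j i) * pairBasis L q M i =
      ∑ i, c j i • b i by simp only [Algebra.smul_def, hb], b.repr_sum_self]
  let G := gaussFL π M
  let ρ := gaussRed π (FL M L) (exists_scalable_quotient A π M)
  let C : Matrix (Option (Fin q)) (Option (Fin q)) G := Matrix.of fun i j => ⟨c j i, hc j i⟩
  let R : Matrix (Option (Fin q)) (Option (Fin q)) (LaurentSeries k) := C.map ρ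
  have hcol : ∀ j, R none j * pairDelta k q =
      pairRed1 π w f * j.elim (pairDelta k q) (fun _ => 0) ∧
      (∑ i, ModularCurve.qExpand k q (R (some i) j) * jqModC k ^ (i : ℕ)) * pairDelta k q =
      pairRed2 π w f * j.elim 0 (fun i => jqModC k ^ (i : ℕ) * pairDelta k q) := by
    intro j
    obtain ⟨h1, h2⟩ := hasGaussRed_sum_pairBasis π hw (c := c j) (g := fun i => R i j)
      fun i => hasGaussRed_gaussRed π (FL M L) (exists_scalable_quotient A π M) ⟨c j i, hc j i⟩
    rw [hsum j, IntermediateField.coe_mul] at h1
    rw [hsum j, map_mul, IntermediateField.coe_mul] at h2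
    exact ⟨h1.unique ((hasGaussRed_pairRed1 π w f).mul (hasGaussRed_pairBasis π j)),
      h2.unique ((hasGaussRed_pairRed2 π w f).mul (hasGaussRed_w_pairBasis π hw j))⟩
  have hδ := pairDelta_ne_zero (k := k) (q := q)
  have h00 : R none none = pairRed1 π w f := mul_right_cancel₀ hδ (hcol none).1
  let N : Matrix (Fin q) (Fin q) (LaurentSeries k) := Matrix.of fun i j => R (some i) (some j)
  have hN : N.trace = 0 := by
    refine trace_eq_zero_of_repr (g := pairRed2 π w f) (jqModC_ne_zero_of_nontrivial k)
      order_jqModC N fun j => ?_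
    refine mul_right_cancel₀ hδ ?_
    rw [mul_assoc (pairRed2 π w f)]
    exact (hcol (some j)).2
  have hR : R.trace = pairRed1 π w f := by
    rw [Matrix.trace, Fintype.sum_option]
    rw [show ∑ i, R.diag (some i) = N.trace from rfl, hN, add_zero, Matrix.diag_apply, h00]
  have hda : algebraMap L (FL M L) (a : L) ∈ G :=
    (algebraMap_mem_gaussRing_iff π (FL M L) _).2 a.2
  let α : G := ⟨algebraMap L (FL M L) (a : L), hda⟩
  have hρα : ρ α = 0 := by
    refine (hasGaussRed_gaussRed π (FL M L) (exists_scalable_quotient A π M) α).unique ?_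
    have h := hasGaussRed_C (π := π) a
    rw [ha, map_zero] at h
    convert h using 1
    rw [HahnSeries.C_apply, ← algebraMap_laurentSeries_eq_single]
    rfl
  obtain ⟨E, hE⟩ : ∃ E : G, (1 + α • C).det = 1 + C.trace * α + E * α ^ 2 :=
    ⟨_, Matrix.det_one_add_smul α C⟩
  refine ⟨((C.trace + E * α : G) : FL M L), ?_, ?_⟩
  · have h := hasGaussRed_gaussRed π (FL M L) (exists_scalable_quotient A π M) (C.trace + E * α)
    rw [map_add, map_mul, hρα, mul_zero, add_zero,
      show ρ C.trace = R.trace from AddMonoidHom.map_trace ρ.toAddMonoidHom C, hR] at h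
    exact h
  · have hx : algebraMap L (FL (M * q) L) (a : L) * (f : FL (M * q) L) =
        algebraMap L (FL M L) (a : L) • (f : FL (M * q) L) := by
      rw [Algebra.smul_def]
      exact congrArg (· * (f : FL (M * q) L)) ((heckeAlphaBar L M q).commutes (a : L)).symm
    have h1 : Algebra.leftMulMatrix b
        (1 + algebraMap L (FL (M * q) L) (a : L) * (f : FL (M * q) L)) =
        G.subtype.mapMatrix (1 + α • C) := by
      rw [hx, map_add (Algebra.leftMulMatrix b), map_one (Algebra.leftMulMatrix b),
        map_smul (Algebra.leftMulMatrix b), hmat, map_add G.subtype.mapMatrix,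
        map_one G.subtype.mapMatrix]
      rfl
    have key : ∀ x y z : G, G.subtype (1 + x * z + y * z ^ 2) =
        1 + G.subtype z * G.subtype (x + y * z) := fun x y z => by
      rw [map_add, map_add, map_one, map_mul, map_mul, map_pow, map_add, map_mul]
      ring
    rw [Algebra.norm_eq_matrix_det b, h1, ← G.subtype.map_det, hE, key]
    rfl

end Fermat.Agent.BadPrime
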