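import Fermat.Agent.LevelP.Ordinary.Calculus
import Fermat.Agent.LevelP.Model.Slope

/-!
# Families of first order terms which come from a global function

`Null L a` says that the family `a` of functions, one at each point of the special fibre, is modulo
`π` a global function integral along both components plus regular functions. A family of local
generators `≡ 1 + π ^ N a` whose divisor is that of a global function has `Null` first order terms
(`null_of_gens`), and a representative modulo `π ^ m` with `Null` first order term can be improved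
to one modulo `π ^ (m + 1)`.

Owner: helper46.
-/

set_option autoImplicit false

noncomputable section

namespace Fermat.Agent.LevelP

open AlgebraicCurve Fermat.Agent.Curve IsLocalRing

local notation "Qb" => AlgebraicClosure ℚ
local notation "Γℚ" => (AlgebraicClosure ℚ ≃ₐ[ℚ] AlgebraicClosure ℚ)

variable {p : ℕ} {A : ValuationSubring Qb} {F : Type*} [Field F] [Algebra Qb F]
  {Fb : Type*} [Field Fb] [Algebra (ResidueField A) Fb] {M : TwoCompData p A F Fb}

namespace TwoCompData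

variable (M) in
/-- `ψ` generates `D + div g` at every point and is `≡ 1` modulo `π ^ m` there. -/
structure Rep (L : Level p A) (D : Divisor Qb F) (m : ℕ) (g : F) (ψ : M.Pt → F) : Prop where
  g_ne : g ≠ 0
  g_fixed : M.Fixed L.H g
  g_unit : ∀ i, (M.V i).valuation g = 1
  fixed : ∀ y, M.Fixed L.H (ψ y)
  ne_zero : ∀ y, ψ y ≠ 0
  ord_eq : ∀ y P, M.sp P = y → P.ord (ψ y) = D P + P.ord g
  congr : ∀ y i, M.On y i → M.VCongr L.π i m (ψ y) 1

theorem trivial_iff {L : Level p A} {D : Divisor Qb F} {m : ℕ} :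
    M.Trivial L D m ↔ ∃ g ψ, M.Rep L D m g ψ := by
  constructor
  · rintro ⟨g, hg, hfix, hunit, h⟩
    choose ψ h1 h2 h3 h4 using h
    exact ⟨g, ψ, hg, hfix, hunit, h1, h2, h3, h4⟩
  · rintro ⟨g, ψ, h⟩
    exact ⟨g, h.g_ne, h.g_fixed, h.g_unit, fun y =>
      ⟨ψ y, h.fixed y, h.ne_zero y, h.ord_eq y, h.congr y⟩⟩

theorem Rep.mono {L : Level p A} {D : Divisor Qb F} {m n : ℕ} {g : F} {ψ : M.Pt → F}
    (h : M.Rep L D n g ψ) (hmn : m ≤ n) : M.Rep L D m g ψ :=
  ⟨h.g_ne, h.g_fixed, h.g_unit, h.fixed, h.ne_zero, h.ord_eq,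
    fun y i hi => (h.congr y i hi).mono L.π_mem hmn⟩

/-- The first order term of a family congruent to `1` modulo `π ^ m`. -/
def _root_.Fermat.Agent.LevelP.Level.coeff (L : Level p A) (m : ℕ) (f : F) : F :=
  (f - 1) / algebraMap Qb F L.π ^ m

theorem one_add_coeff (L : Level p A) (m : ℕ) (f : F) :
    1 + algebraMap Qb F L.π ^ m * L.coeff m f = f := by
  rw [Level.coeff, mul_div_cancel₀ _ (pow_ne_zero m ((map_ne_zero _).2 L.ne_zero))]
  ring

theorem Rep.coeff_mem {L : Level p A} {D : Divisor Qb F} {m : ℕ} {g : F} {ψ : M.Pt → F}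
    (h : M.Rep L D m g ψ) {y : M.Pt} {i : Bool} (hi : M.On y i) :
    L.coeff m (ψ y) ∈ M.V i := by
  obtain ⟨d, hd, e⟩ := h.congr y i hi
  rwa [Level.coeff, e, mul_div_cancel_left₀ _ (pow_ne_zero m ((map_ne_zero _).2 L.ne_zero))]

theorem fixed_coeff (L : Level p A) {m : ℕ} {f : F} (hf : M.Fixed L.H f) :
    M.Fixed L.H (L.coeff m f) :=
  fixed_div ((M.fixedFns L.H).sub_mem hf (M.fixedFns L.H).one_mem)
    (fixed_pow (M.fixed_algebraMap L.fixed) m)

variable (M) in
/-- Modulo `π`, `a` is a global function plus regular functions. -/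
def Null (L : Level p A) (a : M.Pt → F) : Prop :=
  ∃ G : F, M.Fixed L.H G ∧ (∀ i, G ∈ M.V i) ∧ ∀ y, ∃ c : F, M.Fixed L.H c ∧ M.Reg y c ∧
    ∀ i, M.On y i → M.VCongr L.π i 1 (a y) (G + c)

variable {L : Level p A} {a b : M.Pt → F}

theorem Null.congr (h : M.Null L a)
    (hab : ∀ y i, M.On y i → M.VCongr L.π i 1 (b y) (a y)) : M.Null L b := by
  obtain ⟨G, hG, hGV, hc⟩ := h
  refine ⟨G, hG, hGV, fun y => ?_⟩
  obtain ⟨c, hcf, hcr, hcc⟩ := hc y
  exact ⟨c, hcf, hcr, fun i hi => (hab y i hi).trans (hcc i hi)⟩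

theorem Null.add (ha : M.Null L a) (hb : M.Null L b) : M.Null L (fun y => a y + b y) := by
  obtain ⟨G, hG, hGV, hc⟩ := ha
  obtain ⟨G', hG', hGV', hc'⟩ := hb
  refine ⟨G + G', (M.fixedFns L.H).add_mem hG hG', fun i => add_mem (hGV i) (hGV' i),
    fun y => ?_⟩
  obtain ⟨c, hcf, hcr, hcc⟩ := hc y
  obtain ⟨c', hcf', hcr', hcc'⟩ := hc' y
  refine ⟨c + c', (M.fixedFns L.H).add_mem hcf hcf', (M.regSubring y).add_mem hcr hcr',
    fun i hi => ?_⟩
  rw [show G + G' + (c + c') = G + c + (G' + c') by ring]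
  exact (hcc i hi).add (hcc' i hi)

theorem Null.smul {x : Qb} (hx : x ∈ A) (hfix : ∀ σ ∈ L.H, σ x = x) (ha : M.Null L a) :
    M.Null L (fun y => algebraMap Qb F x * a y) := by
  obtain ⟨G, hG, hGV, hc⟩ := ha
  refine ⟨algebraMap Qb F x * G, fixed_mul (M.fixed_algebraMap hfix) hG,
    fun i => mul_mem ((M.algebraMap_mem_iff i x).2 hx) (hGV i), fun y => ?_⟩
  obtain ⟨c, hcf, hcr, hcc⟩ := hc y
  refine ⟨algebraMap Qb F x * c, fixed_mul (M.fixed_algebraMap hfix) hcf,
    (M.regSubring y).mul_mem (M.reg_algebraMap y hx) hcr, fun i hi => ?_⟩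
  rw [← mul_add]
  exact (hcc i hi).mul_left ((M.algebraMap_mem_iff i x).2 hx)

theorem Null.sub (ha : M.Null L a) (hb : M.Null L b) : M.Null L (fun y => a y - b y) := by
  refine (ha.add (hb.smul (x := -1) (neg_mem (one_mem _)) fun σ _ => by simp)).congr fun y i _ => ?_
  rw [map_neg, map_one, neg_one_mul, ← sub_eq_add_neg]
  exact VCongr.refl _

theorem Null.of_smul {x : Qb} (hx : A.valuation x = 1) (hfix : ∀ σ ∈ L.H, σ x = x)
    (ha : M.Null L (fun y => algebraMap Qb F x * a y)) : M.Null L a := by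
  have hx0 : x ≠ 0 := A.valuation.ne_zero_iff.1 (by rw [hx]; exact one_ne_zero)
  refine (ha.smul (x := x⁻¹) ((A.valuation_le_one_iff _).1 (by rw [map_inv₀, hx, inv_one]))
    fun σ hσ => by rw [map_inv₀, hfix σ hσ]).congr fun y i _ => ?_
  rw [← mul_assoc, ← map_mul, inv_mul_cancel₀ hx0, map_one, one_mul]
  exact VCongr.refl _

/-- `p` is divisible by `π` along both components. -/
theorem vcongr_natCast_mul (L : Level p A) (i : Bool) {d : F} (hd : d ∈ M.V i) :
    M.VCongr L.π i 1 ((p : F) * d) 0 := by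
  have hA : (p : Qb) / L.π ∈ A := by
    rw [← A.valuation_le_one_iff, map_div₀, ← L.pow_e,
      div_le_one₀ (zero_lt_iff.2 L.valuation_ne_zero)]
    simpa using L.valuation_lt_one_pow L.e_pos
  refine ⟨algebraMap Qb F ((p : Qb) / L.π) * d,
    mul_mem ((M.algebraMap_mem_iff i _).2 hA) hd, ?_⟩
  rw [sub_zero, pow_one, ← mul_assoc, ← map_mul, mul_div_cancel₀ _ L.ne_zero, map_natCast]

theorem Null.pow (hp : p.Prime) (ha : M.Null L a) : M.Null L (fun y => a y ^ p) := by
  obtain ⟨G, hG, hGV, hc⟩ := ha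
  refine ⟨G ^ p, fixed_pow hG p, fun i => pow_mem (hGV i) p, fun y => ?_⟩
  obtain ⟨c, hcf, hcr, hcc⟩ := hc y
  refine ⟨c ^ p, fixed_pow hcf p, (M.regSubring y).pow_mem hcr p, fun i hi => ?_⟩
  have hsum : G + c ∈ M.V i := add_mem (hGV i) (hcr.2 i hi)
  refine ((hcc i hi).pow ((hcc i hi).mem L.π_mem hsum) hsum p).trans ?_
  obtain ⟨r, hr⟩ := exists_add_pow_prime_eq hp (⟨G, hGV i⟩ : M.V i) ⟨c, hcr.2 i hi⟩
  have e : (G + c) ^ p = G ^ p + c ^ p + (p : F) * (G * c * (r : F)) := by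
    have h := congrArg (Subtype.val : M.V i → F) hr
    simpa [mul_assoc] using h
  have h2 := (VCongr.refl (M := M) (π := L.π) (i := i) (m := 1) (G ^ p + c ^ p)).add
    (vcongr_natCast_mul L i (mul_mem (mul_mem (hGV i) (hcr.2 i hi)) r.2))
  rwa [← e, add_zero] at h2

variable [IsFunctionField1 Qb F] [IsFunctionField1 (ResidueField A) Fb]
  [IsAlgClosed (ResidueField A)]

/-- A global function with local generators `≡ 1 + π ^ N a` is, up to a constant, `1 + π ^ N G₀`
with `G₀` exhibiting `a` as null. -/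
theorem exists_witness_of_gens (hp : p.Prime) (hA : A.LiesOverPrime p) (L : Level p A) {N : ℕ}
    (hN : 0 < N) {χ α : M.Pt → F} (hχf : ∀ y, M.Fixed L.H (χ y))
    (hα : ∀ y i, M.On y i → α y ∈ M.V i)
    (hχ : ∀ y i, M.On y i →
      M.VCongr L.π i (N + 1) (χ y) (1 + algebraMap Qb F L.π ^ N * α y))
    {G : F} (hG : G ≠ 0) (hGf : M.Fixed L.H G)
    (hord : ∀ y P, M.sp P = y → P.ord G = P.ord (χ y)) :
    ∃ (c : Qb) (G₀ : F), c ≠ 0 ∧ (∀ σ ∈ L.H, σ c = c) ∧
      G = algebraMap Qb F c * (1 + algebraMap Qb F L.π ^ N * G₀) ∧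
      M.Fixed L.H G₀ ∧ (∀ i, G₀ ∈ M.V i) ∧
      ∀ y, ∃ b : F, M.Fixed L.H b ∧ M.Reg y b ∧
        ∀ i, M.On y i → M.VCongr L.π i 1 (α y) (G₀ + b) := by
  have hπ0 : L.π ≠ 0 := L.ne_zero
  have hπF : algebraMap Qb F L.π ≠ 0 := (map_ne_zero _).2 hπ0
  have hχ1 : ∀ y i, M.On y i → M.VCongr L.π i N (χ y) 1 := fun y i hi =>
    ((hχ y i hi).mono L.π_mem (Nat.le_succ N)).trans ⟨α y, hα y i hi, by ring⟩
  have hχv : ∀ y i, M.On y i → (M.V i).valuation (χ y) = 1 := fun y i hi =>
    (hχ1 y i hi).valuation_eq_one L hN (map_one _)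
  have hχ0 : ∀ y, χ y ≠ 0 := fun y => by
    obtain ⟨i, hi⟩ := M.exists_on y
    exact (M.V i).valuation.ne_zero_iff.1 (by rw [hχv y i hi]; exact one_ne_zero)
  -- normalisation of `G`
  obtain ⟨n₀, hn₀⟩ := M.exists_vord L false hG hGf
  set U : F := G / algebraMap Qb F (L.π ^ n₀) with hUdef
  have hc0 : algebraMap Qb F (L.π ^ n₀) ≠ 0 := (map_ne_zero _).2 (zpow_ne_zero _ hπ0)
  have hUf : M.Fixed L.H U :=
    fixed_div hGf (M.fixed_algebraMap fun σ hσ => by rw [map_zpow₀, L.fixed σ hσ])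
  have hU0 : U ≠ 0 := div_ne_zero hG hc0
  have hU₀ : M.VOrd L.π false U 0 := by
    have := hn₀.div (M.vord_algebraMap (π := L.π) (i := false) (map_zpow₀ _ L.π n₀)) hπ0
    rwa [sub_self] at this
  have hUord : ∀ y P, M.sp P = y → P.ord U = P.ord (χ y) := fun y P hP => by
    rw [hUdef, Fermat.Agent.Curve.ord_div P hG hc0, Fermat.Agent.Curve.ord_algebraMap, sub_zero,
      hord y P hP]
  obtain ⟨n, hn⟩ := M.exists_vord L true hU0 hUf
  set u : M.Pt → F := fun y => U / χ y with hudef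
  have hu0 : ∀ y, u y ≠ 0 := fun y => div_ne_zero hU0 (hχ0 y)
  have huord : ∀ y P, M.sp P = y → P.ord (u y) = 0 := fun y P hP => by
    rw [hudef, Fermat.Agent.Curve.ord_div P hU0 (hχ0 y), hUord y P hP, sub_self]
  have hures : ∀ y, M.On y false → M.residueAt false (u y) = M.residueAt false U := by
    intro y hy
    show M.residueAt false (U / χ y) = _
    rw [div_eq_mul_inv, residueAt_mul (M.mem_of_valuation_eq_one hU₀.valuation_eq_one)
        (M.mem_of_valuation_eq_one (by rw [map_inv₀, hχv y false hy, inv_one])),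
      residueAt_inv (hχv y false hy), residueAt_congr L hN (hχ1 y false hy) (one_mem _),
      residueAt_one, inv_one, mul_one]
  -- the orders along the two components agree
  have hn0 : n = 0 := by
    refine M.slope_eq_zero hp L hU0 hUf hU₀ hn fun y hy => ⟨fun hnode => ?_, fun hnode => ?_⟩
    · have hr : M.RegUnit y (u y) := regUnit_of_ord (hu0 y) (huord y) fun i hi => by
        cases i
        · rw [hudef, map_div₀, hU₀.valuation_eq_one, hχv y false hy, div_one]
        · exact absurd ⟨hy, hi⟩ hnode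
      rw [← hures y hy]
      exact (hr.ord_residueAt hy).2
    · have h₀ : M.VOrd L.π false (u y) 0 := by
        simpa using hU₀.div (vord_zero_iff.2 (hχv y false hy)) hπ0
      have h₁ : M.VOrd L.π true (u y) n := by
        simpa using hn.div (vord_zero_iff.2 (hχv y true hnode.2)) hπ0
      have := M.slope_eq hp L hnode (fixed_div hUf (hχf y))
        ⟨hu0 y, fun P hP => by rw [huord y P hP, Finsupp.zero_apply]⟩ h₀ h₁
      simpa [← hures y hy] using this
  subst hn0
  have hUv : ∀ i, (M.V i).valuation U = 1 := fun i => by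
    cases i
    · exact hU₀.valuation_eq_one
    · exact hn.valuation_eq_one
  have huv : ∀ y i, M.On y i → (M.V i).valuation (u y) = 1 := fun y i hi => by
    rw [hudef, map_div₀, hUv i, hχv y i hi, div_one]
  have huR : ∀ y, M.RegUnit y (u y) := fun y => regUnit_of_ord (hu0 y) (huord y) (huv y)
  have hUu : ∀ y i, M.On y i → M.VCongr L.π i N U (u y) := fun y i hi => by
    have := (hχ1 y i hi).mul_left (M.mem_of_valuation_eq_one (huv y i hi))
    rwa [mul_one, hudef, div_mul_cancel₀ _ (hχ0 y)] at this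
  -- `U` is constant modulo `π ^ N`
  obtain ⟨x₀, hx₀⟩ := M.nonempty_node
  obtain ⟨c₀, ⟨x, ⟨hxA, hxf⟩, rfl⟩, hc₀⟩ :=
    (M.nodal hp hA L).exists_const hx₀.1 hx₀.2 N (U := U)
      (fun i => ⟨M.mem_of_valuation_eq_one (hUv i), hUf⟩) fun y =>
      ⟨u y, ⟨(huR y).2.1, fixed_div hUf (hχf y)⟩, fun i hi =>
        M.congr_of_vcongr hp hA L hUf (fixed_div hUf (hχf y)) (hUu y i hi)⟩
  have hc₀' : ∀ i, M.VCongr L.π i N U (algebraMap Qb F x) := fun i => by
    obtain ⟨d, hd, e⟩ := hc₀ i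
    exact ⟨d, hd.1, e⟩
  have hxv : A.valuation x = 1 := by
    have h1 := (hc₀' false).symm.valuation_eq_one L hN (hUv false)
    rw [← map_one ((M.V false).valuation), ← map_one (algebraMap Qb F)] at h1
    have h2 := (M.valuation_algebraMap_le_iff false x 1).1 h1.le
    have h3 := (M.valuation_algebraMap_le_iff false 1 x).1 h1.ge
    rw [map_one] at h2 h3
    exact le_antisymm h2 h3
  have hx0 : x ≠ 0 := A.valuation.ne_zero_iff.1 (by rw [hxv]; exact one_ne_zero)
  have hxF : algebraMap Qb F x ≠ 0 := (map_ne_zero _).2 hx0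
  have hxinv : x⁻¹ ∈ A := (A.valuation_le_one_iff _).1 (by rw [map_inv₀, hxv, inv_one])
  set G₀ : F := (U / algebraMap Qb F x - 1) / algebraMap Qb F L.π ^ N with hG₀def
  have hπN : algebraMap Qb F L.π ^ N ≠ 0 := pow_ne_zero N hπF
  have hG₀V : ∀ i, G₀ ∈ M.V i := fun i => by
    obtain ⟨d, hd, e⟩ := hc₀' i
    rw [show G₀ = algebraMap Qb F x⁻¹ * d by
      rw [hG₀def, map_inv₀, show U = algebraMap Qb F x + algebraMap Qb F L.π ^ N * d by
        linear_combination e]
      field_simp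
      ring]
    exact mul_mem ((M.algebraMap_mem_iff i _).2 hxinv) hd
  have hG₀f : M.Fixed L.H G₀ :=
    fixed_div ((M.fixedFns L.H).sub_mem (fixed_div hUf (M.fixed_algebraMap hxf))
      (M.fixedFns L.H).one_mem) (fixed_pow (M.fixed_algebraMap L.fixed) N)
  refine ⟨L.π ^ n₀ * x, G₀, mul_ne_zero (zpow_ne_zero _ hπ0) hx0, fun σ hσ => by
    rw [map_mul, map_zpow₀, L.fixed σ hσ, hxf σ hσ], ?_, hG₀f, hG₀V, fun y => ?_⟩
  · rw [hG₀def, mul_div_cancel₀ _ hπN, hUdef, map_mul]
    field_simp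
    ring
  set β : F := (χ y - 1) / algebraMap Qb F L.π ^ N with hβdef
  set c' : F := (u y / algebraMap Qb F x - 1) / algebraMap Qb F L.π ^ N with hc'def
  have hβV : ∀ i, M.On y i → β ∈ M.V i := fun i hi => by
    obtain ⟨d, hd, e⟩ := hχ1 y i hi
    rwa [hβdef, e, mul_div_cancel_left₀ _ hπN]
  have hc'eq : c' * χ y = G₀ - β := by
    rw [hc'def, hG₀def, hβdef, hudef]
    have := hχ0 y
    field_simp
    ring
  have hc'V : ∀ i, M.On y i → c' ∈ M.V i := fun i hi => by
    rw [show c' = (G₀ - β) * (χ y)⁻¹ by rw [← hc'eq, mul_inv_cancel_right₀ (hχ0 y)]]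
    exact mul_mem (sub_mem (hG₀V i) (hβV i hi))
      (M.mem_of_valuation_eq_one (by rw [map_inv₀, hχv y i hi, inv_one]))
  have hc'R : M.Reg y c' := by
    refine ⟨fun P hP => ?_, hc'V⟩
    rw [hc'def, div_eq_mul_inv, ← map_pow, ← map_inv₀]
    refine mul_mem (sub_mem ?_ (one_mem _)) (P.algebraMap_mem' _)
    rw [div_eq_mul_inv, ← map_inv₀]
    exact mul_mem ((huR y).2.1.1 P hP) (P.algebraMap_mem' _)
  refine ⟨-c', (M.fixedFns L.H).neg_mem (fixed_div ((M.fixedFns L.H).sub_mem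
    (fixed_div (fixed_div hUf (hχf y)) (M.fixed_algebraMap hxf)) (M.fixedFns L.H).one_mem)
      (fixed_pow (M.fixed_algebraMap L.fixed) N)), (M.regSubring y).neg_mem hc'R, fun i hi => ?_⟩
  obtain ⟨d, hd, e⟩ := hχ y i hi
  obtain ⟨d', hd', e'⟩ := (hχ1 y i hi).mono L.π_mem hN
  refine VCongr.trans (g := β) ?_ ⟨-(c' * d'), neg_mem (mul_mem (hc'V i hi) hd'), ?_⟩
  · refine VCongr.symm ⟨d, hd, ?_⟩
    rw [hβdef, pow_one, div_sub' hπN, div_eq_iff hπN]
    rw [pow_succ] at e
    linear_combination e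
  · linear_combination hc'eq - c' * e'

/-- A global function with local generators `≡ 1 + π ^ N a` has `a` null. -/
theorem null_of_gens (hp : p.Prime) (hA : A.LiesOverPrime p) (L : Level p A) {N : ℕ} (hN : 0 < N)
    {χ α : M.Pt → F} (hχf : ∀ y, M.Fixed L.H (χ y))
    (hα : ∀ y i, M.On y i → α y ∈ M.V i)
    (hχ : ∀ y i, M.On y i →
      M.VCongr L.π i (N + 1) (χ y) (1 + algebraMap Qb F L.π ^ N * α y))
    {G : F} (hG : G ≠ 0) (hGf : M.Fixed L.H G)
    (hord : ∀ y P, M.sp P = y → P.ord G = P.ord (χ y)) : M.Null L α := by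
  obtain ⟨-, G₀, -, -, -, h⟩ := exists_witness_of_gens hp hA L hN hχf hα hχ hG hGf hord
  exact ⟨G₀, h⟩

/-- A representative with null first order term improves by one step. -/
theorem Rep.trivial_succ {D : Divisor Qb F} {m : ℕ} {g : F} {ψ : M.Pt → F}
    (h : M.Rep L D m g ψ) (hm : 0 < m)
    (hnull : M.Null L fun y => L.coeff m (ψ y)) : M.Trivial L D (m + 1) := by
  obtain ⟨G, hG, hGV, hc⟩ := hnull
  choose c hcf hcr hcc using hc
  set ε : F := 1 + algebraMap Qb F L.π ^ m * G with hεdef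
  have hεv : ∀ i, (M.V i).valuation ε = 1 := fun i =>
    (VCongr.valuation_eq_one (M := M) L hm (g := (1 : F)) ⟨G, hGV i, by ring⟩ (map_one _))
  have hε0 : ε ≠ 0 :=
    (M.V false).valuation.ne_zero_iff.1 (by rw [hεv]; exact one_ne_zero)
  have hπf : M.Fixed L.H (algebraMap Qb F L.π ^ m) := fixed_pow (M.fixed_algebraMap L.fixed) m
  have hεf : M.Fixed L.H ε := (M.fixedFns L.H).add_mem (M.fixedFns L.H).one_mem (fixed_mul hπf hG)
  set η : M.Pt → F := fun y => 1 + algebraMap Qb F L.π ^ m * c y with hηdef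
  have hη : ∀ y, M.RegUnit y (η y) := fun y => regUnit_one_add L hm (hcr y)
  refine trivial_iff.2 ⟨g / ε, fun y => ψ y / (ε * η y), div_ne_zero h.g_ne hε0,
    fixed_div h.g_fixed hεf, fun i => by rw [map_div₀, h.g_unit, hεv, div_one],
    fun y => fixed_div (h.fixed y) (fixed_mul hεf
      ((M.fixedFns L.H).add_mem (M.fixedFns L.H).one_mem (fixed_mul hπf (hcf y)))),
    fun y => div_ne_zero (h.ne_zero y) (mul_ne_zero hε0 (hη y).1), fun y P hP => ?_,
    fun y i hi => ?_⟩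
  · rw [Fermat.Agent.Curve.ord_div P (h.ne_zero y) (mul_ne_zero hε0 (hη y).1),
      P.ord_mul hε0 (hη y).1, (hη y).ord_eq_zero hP, h.ord_eq y P hP,
      Fermat.Agent.Curve.ord_div P h.g_ne hε0]
    ring
  · have hηv := (hη y).valuation_eq_one hi
    have hinv : (ε * η y)⁻¹ ∈ M.V i :=
      M.mem_of_valuation_eq_one (by rw [map_inv₀, map_mul, hεv, hηv, one_mul, inv_one])
    obtain ⟨d, hd, e⟩ := hcc y i hi
    obtain ⟨r, hr, hre⟩ : M.VCongr L.π i 1 (algebraMap Qb F L.π ^ m * (G * c y)) 0 := by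
      obtain ⟨l, rfl⟩ : ∃ l, m = l + 1 := ⟨m - 1, by omega⟩
      exact ⟨algebraMap Qb F L.π ^ l * (G * c y),
        mul_mem (pow_mem (M.pi_mem L i) l) (mul_mem (hGV i) ((hcr y).2 i hi)), by ring⟩
    refine ⟨(ε * η y)⁻¹ * (d - r), mul_mem hinv (sub_mem hd hr), ?_⟩
    have hne : ε * η y ≠ 0 := mul_ne_zero hε0 (hη y).1
    rw [pow_one] at e hre
    show ψ y / (ε * η y) - 1 = _
    rw [← one_add_coeff L m (ψ y), div_sub_one hne, div_eq_mul_inv]
    have key : 1 + algebraMap Qb F L.π ^ m * L.coeff m (ψ y) - ε * η y =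
        algebraMap Qb F L.π ^ (m + 1) * (d - r) := by
      rw [hεdef, hηdef, pow_succ]
      linear_combination algebraMap Qb F L.π ^ m * e - algebraMap Qb F L.π ^ m * hre
    rw [key]
    ring

end TwoCompData

end Fermat.Agent.LevelP
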