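import Fermat.Agent.LevelP.Ordinary.Datum
import Fermat.Agent.FlatLocal.OrdinaryAdic
import Fermat.Agent.RT.DatumPoints
import Fermat.Agent.S30
import Fermat.Agent.S32

/-!
# Points of level `M p` with ordinary reduction satisfy the ordinary equations

Either a relation between the good operators of level `M` is nonzero at the point, whose lattice
is then killed by both pushforwards up to a power of `p`, or the point comes from level `M` and
its representation is flat at `p`.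

Owner: helper46.
-/

set_option autoImplicit false
set_option synthInstance.maxHeartbeats 400000

noncomputable section

namespace Fermat.Agent.LevelP

open AlgebraicCurve ModularCurve IsLocalRing Polynomial
open Fermat.Agent.BadPrime (GoodIndex goodT alphaPush betaPush)

local notation "Qb" => AlgebraicClosure ℚ
local notation "Γℚ" => (AlgebraicClosure ℚ ≃ₐ[ℚ] AlgebraicClosure ℚ)

variable {p M : ℕ} [Fact p.Prime] [NeZero M] {O : Type} [CommRing O] [IsDomain O]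
  [IsDiscreteValuationRing O] [IsAdicComplete (maximalIdeal O) O] [Finite (ResidueField O)]
  [CharZero O]

omit [IsDomain O] [IsDiscreteValuationRing O] [IsAdicComplete (maximalIdeal O) O]
  [Finite (ResidueField O)] [CharZero O] in
/-- A system at level `M p` satisfying all relations of level `M` between operators outside `S`
comes from level `M`. -/
theorem exists_oldSystem {K : ℕ} (S : Finset ℕ) (hK : ∀ ℓ : ℕ, ℓ.Prime → (ℓ ∣ K ↔ ℓ ∈ S))
    (hMK : M * p ∣ K)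
    (χ : CuspForm.heckeAlgebra (M * p) 2 (∅ : Set ℕ) →+* O) [NeZero (M * p)]
    (hrel : ∀ P : MvPolynomial (GoodIndex K) ℤ,
      MvPolynomial.aeval (goodT (M' := M) ((dvd_mul_right M p).trans hMK)) P = 0 →
        χ (MvPolynomial.aeval (goodT hMK) P) = 0) :
    ∃ χ' : CuspForm.heckeAlgebra M 2 (↑S : Set ℕ) →+* O,
      ∀ (ℓ : ℕ) (hℓ : ℓ.Prime) (hℓM : ¬ ℓ ∣ M) (hℓS : ℓ ∉ (↑S : Set ℕ))
        (hℓN : ¬ ℓ ∣ M * p),
        χ' (CuspForm.heckeAlgebra.T hℓ hℓM hℓS) =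
          χ (CuspForm.heckeAlgebra.T hℓ hℓN (Set.notMem_empty ℓ)) := by
  have hM : M ∣ K := (dvd_mul_right M p).trans hMK
  have hnot : ∀ ℓ : GoodIndex K, (ℓ : ℕ) ∉ (↑S : Set ℕ) := fun ℓ h =>
    ℓ.2.2 ((hK _ ℓ.2.1).2 (Finset.mem_coe.1 h))
  let g : GoodIndex K → CuspForm.heckeAlgebra M 2 (↑S : Set ℕ) := fun ℓ =>
    CuspForm.heckeAlgebra.T ℓ.2.1 (fun h => ℓ.2.2 (h.trans hM)) (hnot ℓ)
  let F : MvPolynomial (GoodIndex K) ℤ →ₐ[ℤ] CuspForm.heckeAlgebra M 2 (↑S : Set ℕ) :=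
    MvPolynomial.aeval g
  have hF : Function.Surjective F := by
    rintro ⟨t, ht⟩
    induction ht using Algebra.adjoin_induction with
    | mem x hx =>
      rcases hx with ⟨ℓ, hℓ, hℓM, hℓS, rfl⟩ | ⟨q, hqM, hq, hqS, rfl⟩
      · exact ⟨MvPolynomial.X ⟨ℓ, hℓ, fun h => hℓS (Finset.mem_coe.2 ((hK ℓ hℓ).1 h))⟩,
          MvPolynomial.aeval_X g _⟩
      · exact absurd (Finset.mem_coe.2 ((hK q hq).1 (hqM.trans hM))) hqS
    | algebraMap r => exact ⟨MvPolynomial.C r, F.commutes r⟩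
    | add x y _ _ hx hy =>
      obtain ⟨a, ha⟩ := hx
      obtain ⟨b, hb⟩ := hy
      exact ⟨a + b, by rw [map_add, ha, hb]; rfl⟩
    | mul x y _ _ hx hy =>
      obtain ⟨a, ha⟩ := hx
      obtain ⟨b, hb⟩ := hy
      exact ⟨a * b, by rw [map_mul, ha, hb]; rfl⟩
  let G : MvPolynomial (GoodIndex K) ℤ →+* O := χ.comp (MvPolynomial.aeval (goodT hMK)).toRingHom
  have hker : RingHom.ker F.toRingHom ≤ RingHom.ker G := fun P hP => by
    refine RingHom.mem_ker.2 (hrel P ?_)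
    have h := MvPolynomial.comp_aeval_apply (f := g) (Subalgebra.inclusion
      (CuspForm.heckeAlgebra_mono (N := M) (k := 2) (Set.empty_subset (↑S : Set ℕ)))) P
    rw [show MvPolynomial.aeval g P = 0 from RingHom.mem_ker.1 hP, map_zero] at h
    exact h.symm
  refine ⟨F.toRingHom.liftOfSurjective hF ⟨G, hker⟩, fun ℓ hℓ hℓM hℓS hℓN => ?_⟩
  have hℓK : ¬ ℓ ∣ K := fun h => hℓS (Finset.mem_coe.2 ((hK ℓ hℓ).1 h))
  have h1 : F (MvPolynomial.X ⟨ℓ, hℓ, hℓK⟩) = CuspForm.heckeAlgebra.T hℓ hℓM hℓS :=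
    MvPolynomial.aeval_X g _
  rw [← h1]
  refine (RingHom.liftOfSurjective_comp_apply _ hF ⟨G, hker⟩ _).trans ?_
  exact congrArg χ (MvPolynomial.aeval_X _ _)

set_option maxHeartbeats 800000 in
/-- The representation of a point of level `M p` with residually triangular matrices at `p`
satisfies the ordinary equations. -/
theorem ordinary_eqns_of_point (hp2 : p ≠ 2) [NeZero (M * p)] (hpM : ¬ p ∣ M) {S : Finset ℕ}
    (hS : ∀ q : ℕ, q.Prime → q ∣ M * p → q ∈ S) (hpO : (p : O) ∈ maximalIdeal O)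
    (χ : CuspForm.heckeAlgebra (M * p) 2 (∅ : Set ℕ) →+* O) (ρ : GaloisRepAdic O)
    (habs : ρ.residual.IsAbsolutelyIrreducible)
    (hρ : ∀ (ℓ : ℕ) (hℓ : ℓ.Prime) (hℓN : ¬ ℓ ∣ M * p), ℓ ∉ S →
      ∀ A : ValuationSubring Qb, A.LiesOverPrime ℓ → ∀ σ : Γℚ, A.IsFrobeniusAt σ ℓ →
        LinearMap.charpoly (ρ.ρ σ) =
          X ^ 2 - C (χ (CuspForm.heckeAlgebra.T hℓ hℓN (Set.notMem_empty ℓ))) * X + C (ℓ : O))
    (b : Module.Basis (Fin 2) O ρ.V)
    (h10 : ∀ g ∈ (padicPlace p).decompositionSubgroup ℚ,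
      Deformation.matOf ρ.ρ b g 1 0 ∈ maximalIdeal O)
    (h11 : ∀ σ ∈ (padicPlace p).inertiaSubgroupIn ℚ,
      Deformation.matOf ρ.ρ b σ 1 1 - 1 ∈ maximalIdeal O)
    {σ₀ : Γℚ} (hσ₀ : σ₀ ∈ (padicPlace p).inertiaSubgroupIn ℚ) {a₀ : ℕ}
    (ha : RT.ActsByExp p 1 σ₀ a₀) (ha₀ : ¬ (p : ℤ) ∣ (a₀ : ℤ) - 1) :
    RT.StrictOrdEqns 1 (padicPlace p) σ₀ (Deformation.matOf ρ.ρ b) := by
  classical
  have hp : p.Prime := Fact.out
  have hp3 : 3 ≤ p := by have := hp.two_le; omega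
  have : NeZero p := ⟨hp.ne_zero⟩
  have hpS : p ∈ S := hS p hp (dvd_mul_left p M)
  have hdet : ρ.DetIsCyclotomic p :=
    Density.detIsCyclotomic_of_charpoly_frobenius ρ p hp hpO S fun ℓ hℓ hℓS A hA σ hσ =>
      ⟨_, hρ ℓ hℓ (fun h => hℓS (hS ℓ hℓ h)) hℓS A hA σ hσ⟩
  have hd := RT.isUnit_det_sub_one ρ hp hdet ha ha₀ b
  -- the exceptional primes
  let K : ℕ := M * p * ∏ q ∈ S.filter Nat.Prime, q
  have hK : ∀ ℓ : ℕ, ℓ.Prime → (ℓ ∣ K ↔ ℓ ∈ S) := fun ℓ hℓ => by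
    refine ⟨fun h => ?_, fun h => (Finset.dvd_prod_of_mem (fun q => q)
      (Finset.mem_filter.2 ⟨h, hℓ⟩)).trans (dvd_mul_left _ _)⟩
    rcases hℓ.dvd_mul.1 h with h' | h'
    · exact hS ℓ hℓ h'
    · obtain ⟨q, hq, hℓq⟩ := (hℓ.prime.dvd_finsetProd_iff _).1 h'
      obtain ⟨hqS, hqp⟩ := Finset.mem_filter.1 hq
      rwa [(Nat.prime_dvd_prime_iff_eq hℓ hqp).1 hℓq]
  have hMK : M * p ∣ K := dvd_mul_right _ _
  by_cases hrel : ∀ P : MvPolynomial (GoodIndex K) ℤ,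
      MvPolynomial.aeval (goodT (M' := M) ((dvd_mul_right M p).trans hMK)) P = 0 →
        χ (MvPolynomial.aeval (goodT hMK) P) = 0
  · -- the point comes from level `M`
    obtain ⟨χ', hχ'⟩ := exists_oldSystem S hK hMK χ hrel
    have hS' : ∀ q : ℕ, q.Prime → q ∣ M → q ∈ S := fun q hq h => hS q hq (h.trans (dvd_mul_right M p))
    have hflat : ρ.IsFlatAt p :=
      RT.isFlatAt_of_point hp2 hpO hS'
        (fun O' _ _ _ _ _ _ hp' χ'' => S30.result p M S hpS hS' O' hp' χ'') χ' ρ habs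
        (fun ℓ hℓ hℓM hℓS A hA σ hσ => by
          have hℓS' : ℓ ∉ S := fun h => hℓS (Finset.mem_coe.2 h)
          rw [hχ' ℓ hℓ hℓM hℓS fun h => hℓS' (hS ℓ hℓ h)]
          exact hρ ℓ hℓ (fun h => hℓS' (hS ℓ hℓ h)) hℓS' A hA σ hσ)
        fun O' _ _ _ _ _ _ θ T _ _ _ _ _ _ _ _ hp' H => S32.result hp hp2 hp' hpM hpS hS' H
    exact FlatLocal.ordinary_eqns_of_isFlatAt hp2 hpO hflat b h10 h11 hσ₀ hd
  · -- a relation of level `M` is nonzero at the point
    push Not at hrel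
    obtain ⟨P, hP0, hPχ⟩ := hrel
    obtain ⟨r, hr, -, htate⟩ := EichlerShimura.exists_galoisRepAdic_of_eigensystem_tate (M * p) p
      (EichlerShimura.kummerIso_modular _) (EichlerShimura.frobeniusOnTorsion_modular _ p)
      (EichlerShimura.galoisFiniteLevel_modular _) O hpO χ
    obtain ⟨e⟩ := Density.adic_isEquiv_of_frobenius ρ r S habs fun ℓ hℓ hℓS A hA σ hσ => by
      have hℓN : ¬ ℓ ∣ M * p := fun h => hℓS (hS ℓ hℓ h)
      rw [hρ ℓ hℓ hℓN hℓS A hA σ hσ, hr ℓ hℓ hℓN (fun h => hℓS (h ▸ hpS)) A hA σ hσ]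
    obtain ⟨c₀, hc₀⟩ := BadPrime.exists_pow_of_killing (M' := M) hpO hPχ fun k F hF hFeq v =>
      BadPrime.killing_of_relation (BadPrime.hasEigenRep_modular M) (dvd_mul_right M p) hp hMK
        ((dvd_mul_left p M).trans hMK) χ r hr hP0 k F hF hFeq v
    have hfam : ∀ n : ℕ, ∃ (m : ℕ) (f : ρ.V →+ (Fin m → JZero (M * p))),
        (∀ v, f v = 0 ↔ ∃ w, v = ((p : O) ^ n) • w) ∧ (∀ v i, p ^ n • f v i = 0) ∧
        (∀ σ v i, f (ρ.ρ σ v) i = σ • f v i) ∧
        ∀ v i, alphaPush M p (p ^ c₀ • f v i) = 0 ∧ betaPush M p (p ^ c₀ • f v i) = 0 := fun n => by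
      obtain ⟨m, f, h0, hn, heq, hkill⟩ := BadPrime.killed_family_of_pow_killing hc₀ htate n
      refine ⟨m, f.comp e.toLinearEquiv.toLinearMap.toAddMonoidHom, fun v => ?_,
        fun v i => hn _ i, fun σ v i => ?_, fun v i => hkill _ i⟩
      · refine (h0 (e.toLinearEquiv v)).trans ⟨fun ⟨w, hw⟩ => ⟨e.toLinearEquiv.symm w, ?_⟩,
          fun ⟨w, hw⟩ => ⟨e.toLinearEquiv w, by rw [hw, map_smul]⟩⟩
        rw [← map_smul, ← hw, LinearEquiv.symm_apply_apply]
      · show f (e.toLinearEquiv (ρ.ρ σ v)) i = σ • f (e.toLinearEquiv v) i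
        rw [e.map_apply, heq]
    have hres : OrdEqn (padicPlace p) σ₀
        (Deformation.mapRep (residue O) (Deformation.matOf ρ.ρ b)) := fun σ hσ => by
      have hz : ∀ g ∈ (padicPlace p).inertiaSubgroupIn ℚ,
          residue O (Deformation.matOf ρ.ρ b g 1 0) = 0 ∧
            residue O (Deformation.matOf ρ.ρ b g 1 1) = 1 := fun g hg =>
        ⟨(residue_eq_zero_iff _).2 (h10 g ((Density.mem_inertiaSubgroupIn_iff.1 hg).1)),
          sub_eq_zero.1 (by rw [← map_one (residue O), ← map_sub]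
                            exact (residue_eq_zero_iff _).2 (h11 g hg))⟩
      obtain ⟨a10, a11⟩ := hz σ₀ hσ₀
      obtain ⟨c10, c11⟩ := hz σ hσ
      ext i j
      fin_cases i <;> fin_cases j <;>
        simp [Deformation.mapRep_apply, Matrix.mul_apply, Fin.sum_univ_two, Matrix.det_fin_two,
          a10, a11, c10, c11]
    have hall : RT.StrictOrdEqns p (padicPlace p) σ₀ (Deformation.matOf ρ.ρ b) := by
      have hA : (padicPlace p).LiesOverPrime p :=
        TwoAdic.Selmer.liesOverPrime_padicPlace ⟨p, hp⟩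
      by_cases hN3 : p = 3 → 2 ∣ M
      · exact strictOrdEqns_of_killedFamily hp3 hpM hN3 hpO hdet b c₀ hfam hA hσ₀ ha ha₀ hres
      · obtain ⟨h3, h2M⟩ := Classical.not_imp.1 hN3
        exact strictOrdEqns_of_killedFamily hp3 (M := M * 2)
          (fun h => (hp.dvd_mul.mp h).elim hpM fun h2 =>
            hp2 ((Nat.prime_dvd_prime_iff_eq hp Nat.prime_two).mp h2))
          (fun _ => dvd_mul_left 2 M) hpO hdet b c₀
          (exists_killedFamily_auxLevel hp Nat.prime_two (by omega) hpM h2M habs c₀ hfam)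
          hA hσ₀ ha ha₀ hres
    exact ⟨hall.trace_eq, hall.stable, hall.inertia, fun σ _ n a _ => by simp⟩

end Fermat.Agent.LevelP
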