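import Fermat.Agent.LevelP.Ordinary.Null
import Fermat.Agent.Curve.Fibre

/-!
# Classes with `p`-th power residues are trivial modulo the uniformiser

If both residues of a function with divisor `p • D` are `p`-th powers then a multiple of `D` prime
to `p` is equivalent to a fixed divisor with local generators congruent to `1` modulo `π`. The
vertical twist is removed by a function built from lifts of the idempotents of the special fibre,
the twists at the nodes by powers of `w`.

Owner: helper46.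
-/

set_option autoImplicit false

noncomputable section

namespace Fermat.Agent.LevelP

open AlgebraicCurve Fermat.Agent.Curve IsLocalRing

local notation "Qb" => AlgebraicClosure ℚ
local notation "Γℚ" => (AlgebraicClosure ℚ ≃ₐ[ℚ] AlgebraicClosure ℚ)

variable {p : ℕ} {A : ValuationSubring Qb} {F : Type*} [Field F] [Algebra Qb F]
  {Fb : Type*} [Field Fb] [Algebra (ResidueField A) Fb]

/-- The residue field of a valuation ring over `p` has characteristic `p`. -/
theorem charP_fibreField (hp : p.Prime) (hA : A.LiesOverPrime p)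
    (Fb : Type*) [Field Fb] [Algebra (ResidueField A) Fb] : CharP Fb p := by
  haveI : Fact p.Prime := ⟨hp⟩
  haveI := EC.charP_residueField A hp hA
  exact charP_of_injective_algebraMap (algebraMap (ResidueField A) Fb).injective p

namespace TwoCompData

variable (M : TwoCompData p A F Fb)

/-- For every function with divisor `q • D`, scaled to be a unit along a component, the residue
there is a `q`-th power. -/
def PowResidue (D : Divisor Qb F) (q : ℕ) : Prop :=
  ∀ (i : Bool) (f : F), f ≠ 0 → (∀ P, ((q : ℤ) • D) P = P.ord f) →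
    (M.V i).valuation f = 1 → ∃ h : Fb, h ^ q = M.residueAt i f

variable [IsFunctionField1 Qb F] [IsFunctionField1 (ResidueField A) Fb]
  [IsAlgClosed (ResidueField A)]

omit [IsFunctionField1 (ResidueField A) Fb] [IsAlgClosed (ResidueField A)] in
theorem divFixed_divisorOf {H : Subgroup Γℚ} {f : F} (hf : M.Fixed H f) :
    M.DivFixed H (divisorOf f) := by
  intro σ hσ
  ext P
  rw [SemilinearAut.divisor_smul_apply, divisorOf_apply, divisorOf_apply]
  have h := SemilinearAut.ord_smul (M.act σ) ((M.act σ)⁻¹ • P) f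
  rw [smul_inv_smul, hf σ hσ] at h
  exact h.symm

omit [IsFunctionField1 Qb F] [IsFunctionField1 (ResidueField A) Fb]
  [IsAlgClosed (ResidueField A)] in
/-- A fixed function of order `n` along the second component, a unit along the first, with both
normalised residues equal to `1`. -/
theorem exists_twist (L : Level p A) (n : ℤ) :
    ∃ t : F, M.Fixed L.H t ∧ M.VCongr L.π false 1 t 1 ∧
      M.VCongr L.π true 1 (algebraMap Qb F (L.π ^ (-n)) * t) 1 := by
  have key : ∀ a : Bool → Fb, ∃ δ, M.Fixed L.H δ ∧ ∀ i, ∃ h : δ ∈ M.V i, M.red i ⟨δ, h⟩ = a i := by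
    intro a
    obtain ⟨δ, hδ, h⟩ := M.exists_lift a
    exact ⟨δ, fun σ hσ => hδ σ (L.le_inertia hσ), h⟩
  obtain ⟨δ, hδf, hδ⟩ := key fun i => if i then 0 else 1
  obtain ⟨ε, hεf, hε⟩ := key fun i => if i then 1 else 0
  choose hδV hδr using hδ
  choose hεV hεr using hε
  have h1f : M.Fixed L.H (1 : F) := fun σ _ => smul_one _
  have h0f : M.Fixed L.H (0 : F) := fun σ _ => smul_zero _
  have hδ₀ : M.VCongr L.π false 1 δ 1 :=
    (M.vcongr_one_iff L false hδf h1f (hδV _) (one_mem _)).2
      ((hδr false).trans (map_one (M.red false)).symm)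
  have hε₁ : M.VCongr L.π true 1 ε 1 :=
    (M.vcongr_one_iff L true hεf h1f (hεV _) (one_mem _)).2
      ((hεr true).trans (map_one (M.red true)).symm)
  obtain ⟨d₁, hd₁, e₁⟩ := (M.vcongr_one_iff L true hδf h0f (hδV _) (zero_mem _)).2
    ((hδr true).trans (map_zero (M.red true)).symm)
  obtain ⟨d₀, hd₀, e₀⟩ := (M.vcongr_one_iff L false hεf h0f (hεV _) (zero_mem _)).2
    ((hεr false).trans (map_zero (M.red false)).symm)
  rw [sub_zero, pow_one] at e₀ e₁
  set N := n.natAbs + 1 with hN
  have hπ : algebraMap Qb F L.π ≠ 0 := (map_ne_zero _).2 L.ne_zero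
  obtain ⟨l₀, hl₀⟩ := Int.eq_ofNat_of_zero_le (show 0 ≤ n + N - 1 by omega)
  obtain ⟨l₁, hl₁⟩ := Int.eq_ofNat_of_zero_le (show 0 ≤ -n + N - 1 by omega)
  have hz : ∀ (k : ℤ) (l : ℕ), k + N - 1 = l →
      algebraMap Qb F (L.π ^ k) * algebraMap Qb F L.π ^ N = algebraMap Qb F L.π ^ (l + 1) := by
    intro k l hkl
    rw [map_zpow₀, ← zpow_natCast, ← zpow_natCast, ← zpow_add₀ hπ]
    congr 1
    push_cast
    omega
  refine ⟨δ ^ N + algebraMap Qb F (L.π ^ n) * ε ^ N,
    (M.fixedFns L.H).add_mem (fixed_pow hδf N)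
      (fixed_mul (M.fixed_algebraMap fun σ hσ => by rw [map_zpow₀, L.fixed σ hσ])
        (fixed_pow hεf N)), ?_, ?_⟩
  · have h2 : M.VCongr L.π false 1 (algebraMap Qb F (L.π ^ n) * ε ^ N) 0 := by
      refine ⟨algebraMap Qb F L.π ^ l₀ * d₀ ^ N,
        mul_mem (pow_mem (M.pi_mem L _) _) (pow_mem hd₀ _), ?_⟩
      rw [sub_zero, e₀, mul_pow, ← mul_assoc, hz n l₀ hl₀]
      ring
    simpa using (hδ₀.pow (hδV _) (one_mem _) N).add h2
  · rw [mul_add, ← mul_assoc, ← map_mul, ← zpow_add₀ L.ne_zero, neg_add_cancel, zpow_zero,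
      map_one, one_mul]
    have h2 : M.VCongr L.π true 1 (algebraMap Qb F (L.π ^ (-n)) * δ ^ N) 0 := by
      refine ⟨algebraMap Qb F L.π ^ l₁ * d₁ ^ N,
        mul_mem (pow_mem (M.pi_mem L _) _) (pow_mem hd₁ _), ?_⟩
      rw [sub_zero, e₁, mul_pow, ← mul_assoc, hz (-n) l₁ hl₁]
      ring
    simpa using h2.add (hε₁.pow (hεV _) (one_mem _) N)

omit [IsFunctionField1 Qb F] [IsFunctionField1 (ResidueField A) Fb]
  [IsAlgClosed (ResidueField A)] in
theorem not_dvd_r' (hp5 : 5 ≤ p) {y : M.Pt} (hy : M.IsNode y) : ¬ p ∣ M.r y :=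
  fun h => M.not_dvd_r hp5 y hy.1 hy.2 (h.mul_left 12)

/-- The product of the orders of the residue of `w` at the nodes. -/
def nodeProd : ℕ := ∏ y ∈ M.finite_node.toFinset, M.r y

omit [IsFunctionField1 Qb F] [IsFunctionField1 (ResidueField A) Fb]
  [IsAlgClosed (ResidueField A)] in
theorem not_dvd_nodeProd (hp : p.Prime) (hr : ∀ y, M.IsNode y → ¬ p ∣ M.r y) : ¬ p ∣ M.nodeProd := fun hd => by
  obtain ⟨y, hy, hyd⟩ := (Prime.dvd_finsetProd_iff hp.prime _).1 hd
  exact hr y (M.finite_node.mem_toFinset.1 hy) hyd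

/-- A multiple of a class with `p ^ b`-th power residues is trivial modulo `π`; the factor `c`
makes the twist between the components divisible by `p ^ b`. -/
theorem exists_trivial_one_pow (hp : p.Prime) (hA : A.LiesOverPrime p) {b c : ℕ}
    (hc : ∀ y, M.IsNode y → ∀ d : ℤ, ((p ^ b : ℕ) : ℤ) ∣ d * M.r y → ((p ^ b : ℕ) : ℤ) ∣ d * c)
    (L : Level p A) {D : Divisor Qb F} (hD : M.DivFixed L.H D)
    (hpD : Divisor.IsPrincipal (((p ^ b : ℕ) : ℤ) • D)) (hres : M.PowResidue D (p ^ b)) :
    ∃ D' : Divisor Qb F, M.DivFixed L.H D' ∧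
      Divisor.IsPrincipal (D' - ((M.nodeProd * c : ℕ) : ℤ) • D) ∧ M.Trivial L D' 1 := by
  haveI := charP_fibreField hp hA Fb
  haveI : Fact p.Prime := ⟨hp⟩
  set q := p ^ b with hq
  have hq0 : q ≠ 0 := pow_ne_zero b hp.ne_zero
  have hπ0 : L.π ≠ 0 := L.ne_zero
  obtain ⟨f, hf, hff, hford⟩ := M.descend_principal L.H L.le_inertia _
    (fun σ hσ => ((DistribMulAction.toAddMonoidHom (Divisor Qb F) (M.act σ)).map_zsmul (q : ℤ)
      D).trans (congrArg ((q : ℤ) • ·) (hD σ hσ))) hpD
  have hcf : ∀ n : ℤ, M.Fixed L.H (algebraMap Qb F (L.π ^ n)) := fun n =>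
    M.fixed_algebraMap fun σ hσ => by rw [map_zpow₀, L.fixed σ hσ]
  have hc0 : ∀ n : ℤ, algebraMap Qb F (L.π ^ n) ≠ 0 := fun n =>
    (map_ne_zero _).2 (zpow_ne_zero _ hπ0)
  have hcv : ∀ (i : Bool) (n : ℤ), M.VOrd L.π i (algebraMap Qb F (L.π ^ n)) n := fun i n =>
    M.vord_algebraMap (map_zpow₀ _ _ _)
  choose ν hν using fun i => M.exists_vord L i hf hff
  have hcp : ∀ n : ℤ, algebraMap Qb F (L.π ^ n) ^ q = algebraMap Qb F (L.π ^ ((q : ℤ) * n)) :=
    fun n => by rw [← map_pow, ← zpow_natCast (L.π ^ n) q, ← zpow_mul, mul_comm n]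
  -- residues and their lift
  have hfn : ∀ i, M.VOrd L.π i (algebraMap Qb F (L.π ^ (-ν i)) * f) 0 := fun i => by
    simpa using (hcv i (-ν i)).mul (hν i) hπ0
  choose h hh using fun i => hres i _ (mul_ne_zero (hc0 (-ν i)) hf) (fun P => by
    rw [P.ord_mul (hc0 _) hf, Fermat.Agent.Curve.ord_algebraMap, zero_add, hford P])
    (hfn i).valuation_eq_one
  have hh0 : ∀ i, h i ≠ 0 := fun i hi => by
    have := hh i
    rw [hi, zero_pow hq0] at this
    exact residueAt_ne_zero (hfn i).valuation_eq_one this.symm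
  obtain ⟨G, hGI, hG⟩ := M.exists_lift h
  choose hGV hGr using hG
  have hGv : ∀ i, (M.V i).valuation G = 1 := fun i =>
    M.valuation_eq_one_of_red (hGV i) (by rw [hGr]; exact hh0 i)
  have hGf : M.Fixed L.H G := fun σ hσ => hGI σ (L.le_inertia hσ)
  have hG0 : G ≠ 0 := (M.V false).valuation.ne_zero_iff.1 (by rw [hGv]; exact one_ne_zero)
  -- the twist between the components is divisible by `p`
  have hdiv : (q : ℤ) ∣ (ν true - ν false) * c := by
    set n₀ := ν false
    set n₁ := ν true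
    obtain ⟨y, hy⟩ := M.nonempty_node
    obtain ⟨ψ, hψf, hψg⟩ := M.exists_localGen hp L D hD y
    have hψ'0 : ψ / G ≠ 0 := div_ne_zero hψg.1 hG0
    choose μ hμ using fun i => M.exists_vord L i hψ'0 (fixed_div hψf hGf)
    set u := (ψ / G) ^ q / (algebraMap Qb F (L.π ^ (-n₀)) * f / G ^ q) with hu
    have hden0 : algebraMap Qb F (L.π ^ (-n₀)) * f / G ^ q ≠ 0 :=
      div_ne_zero (mul_ne_zero (hc0 _) hf) (pow_ne_zero q hG0)
    have hden : ∀ i, M.VOrd L.π i (algebraMap Qb F (L.π ^ (-n₀)) * f / G ^ q) (ν i - n₀) := by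
      intro i
      have := ((hcv i (-n₀)).mul (hν i) hπ0).div ((vord_zero_iff.2 (hGv i)).pow q) hπ0
      rwa [mul_zero, sub_zero, neg_add_eq_sub] at this
    have hgen : M.LocalGen y 0 u := by
      refine ⟨div_ne_zero (pow_ne_zero q hψ'0) hden0, fun P hP => ?_⟩
      rw [hu, Fermat.Agent.Curve.ord_div P (pow_ne_zero q hψ'0) hden0,
        Fermat.Agent.Curve.ord_pow, Fermat.Agent.Curve.ord_div P hψg.1 hG0,
        Fermat.Agent.Curve.ord_div P (mul_ne_zero (hc0 _) hf) (pow_ne_zero q hG0),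
        P.ord_mul (hc0 _) hf, Fermat.Agent.Curve.ord_algebraMap, Fermat.Agent.Curve.ord_pow,
        ← hford P, hψg.2 P hP, Finsupp.smul_apply, smul_eq_mul, Finsupp.zero_apply]
      ring
    have hu₀ : M.VOrd L.π false u (q * μ false) := by
      simpa [hu, n₀] using ((hμ false).pow q).div (hden false) hπ0
    have hu₁ : M.VOrd L.π true u (q * μ true - (n₁ - n₀)) := ((hμ true).pow q).div (hden true) hπ0
    have hslope := M.slope_eq hp L hy (fixed_div (fixed_pow (fixed_div hψf hGf) q)
      (fixed_div (fixed_mul (hcf _) hff) (fixed_pow hGf q))) hgen hu₀ hu₁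
    -- the residue of the normalised `u` is a `p`-th power
    have hunorm : (M.loc y false).ord
        (M.residueAt false (algebraMap Qb F (L.π ^ (-((q : ℤ) * μ false))) * u)) =
        (q : ℤ) * (M.loc y false).ord
          (M.residueAt false (algebraMap Qb F (L.π ^ (-μ false)) * (ψ / G))) := by
      have hX : M.VOrd L.π false (algebraMap Qb F (L.π ^ (-μ false)) * (ψ / G)) 0 := by
        simpa using (hcv false (-μ false)).mul (hμ false) hπ0
      have hY : (M.V false).valuation (algebraMap Qb F (L.π ^ (-n₀)) * f / G ^ q) = 1 := by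
        simpa [VOrd, n₀] using hden false
      have hres1 : M.residueAt false (algebraMap Qb F (L.π ^ (-n₀)) * f / G ^ q) = 1 := by
        rw [div_eq_mul_inv, residueAt_mul (M.mem_of_valuation_eq_one (hfn false).valuation_eq_one)
          (M.mem_of_valuation_eq_one (by rw [map_inv₀, map_pow, hGv, one_pow, inv_one])),
          residueAt_inv (by rw [map_pow, hGv, one_pow]), residueAt_pow (hGV false),
          M.residueAt_of_mem (hGV false), hGr, ← hh, mul_inv_cancel₀ (pow_ne_zero q (hh0 false))]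
      rw [hu, ← mul_div_assoc, show algebraMap Qb F (L.π ^ (-((q : ℤ) * μ false))) * (ψ / G) ^ q
          = (algebraMap Qb F (L.π ^ (-μ false)) * (ψ / G)) ^ q by
        rw [mul_pow, hcp, mul_neg],
        div_eq_mul_inv, residueAt_mul (pow_mem (M.mem_of_valuation_eq_one hX.valuation_eq_one) q)
          (M.mem_of_valuation_eq_one (by rw [map_inv₀, hY, inv_one])),
        residueAt_inv hY, hres1, inv_one, mul_one,
        residueAt_pow (M.mem_of_valuation_eq_one hX.valuation_eq_one),
        Fermat.Agent.Curve.ord_pow]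
    rw [hunorm] at hslope
    refine hc y hy _ ?_
    refine ⟨(μ true - μ false) * M.r y - 12 * (L.e : ℤ) * (M.loc y false).ord
      (M.residueAt false (algebraMap Qb F (L.π ^ (-μ false)) * (ψ / G))), ?_⟩
    linear_combination hslope
  -- pass to the multiple by `c`
  set D₂ := (c : ℤ) • D with hD₂
  have hD₂f : M.DivFixed L.H D₂ := fun σ hσ =>
    ((DistribMulAction.toAddMonoidHom (Divisor Qb F) (M.act σ)).map_zsmul (c : ℤ) D).trans
      (congrArg ((c : ℤ) • ·) (hD σ hσ))
  set f₂ := f ^ c with hf₂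
  set G₂ := G ^ c with hG₂
  have hf₂0 : f₂ ≠ 0 := pow_ne_zero c hf
  have hG₂0 : G₂ ≠ 0 := pow_ne_zero c hG0
  have hG₂f : M.Fixed L.H G₂ := fixed_pow hGf c
  have hf₂f : M.Fixed L.H f₂ := fixed_pow hff c
  have hG₂V : ∀ i, G₂ ∈ M.V i := fun i => pow_mem (hGV i) c
  have hG₂v : ∀ i, (M.V i).valuation G₂ = 1 := fun i => by rw [hG₂, map_pow, hGv, one_pow]
  have hν₂ : ∀ i, M.VOrd L.π i f₂ (c * ν i) := fun i => (hν i).pow c
  have hfn₂ : ∀ i, M.VOrd L.π i (algebraMap Qb F (L.π ^ (-(c * ν i))) * f₂) 0 := fun i => by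
    simpa using (hcv i (-(c * ν i))).mul (hν₂ i) hπ0
  have hh₂ : ∀ i, (h i ^ c) ^ q = M.residueAt i (algebraMap Qb F (L.π ^ (-(c * ν i))) * f₂) :=
    fun i => by
      have e : algebraMap Qb F (L.π ^ (-(c * ν i))) * f₂ =
          (algebraMap Qb F (L.π ^ (-ν i)) * f) ^ c := by
        rw [mul_pow, hf₂, ← map_pow, ← zpow_natCast (L.π ^ (-ν i)) c, ← zpow_mul]
        congr 3
        ring
      rw [e, residueAt_pow (M.mem_of_valuation_eq_one (hfn i).valuation_eq_one), ← hh, ← pow_mul,
        ← pow_mul, mul_comm]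
  have hG₂r : ∀ i, M.residueAt i G₂ = h i ^ c := fun i => by
    rw [hG₂, residueAt_pow (hGV i), M.residueAt_of_mem (hGV i), hGr]
  have hh₂0 : ∀ i, h i ^ c ≠ 0 := fun i => pow_ne_zero c (hh0 i)
  have hford₂ : ∀ P, ((q : ℤ) • D₂) P = P.ord f₂ := fun P => by
    rw [hf₂, Fermat.Agent.Curve.ord_pow, ← hford P, hD₂, Finsupp.smul_apply, Finsupp.smul_apply,
      Finsupp.smul_apply, smul_eq_mul, smul_eq_mul, smul_eq_mul]
    ring
  set n₀ := (c : ℤ) * ν false with hn₀
  obtain ⟨n', hn'⟩ := hdiv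
  replace hn' : (c : ℤ) * ν true - n₀ = q * n' := by rw [hn₀, ← hn']; ring
  -- the modified divisor
  obtain ⟨t, htf, ht₀, ht₁⟩ := M.exists_twist L n'
  have ht0v : M.VOrd L.π false t 0 :=
    vord_zero_iff.2 (ht₀.valuation_eq_one L one_pos (map_one _))
  have ht1v : M.VOrd L.π true t n' := by
    have h1 := (vord_zero_iff.2 (ht₁.valuation_eq_one L one_pos (map_one _))).mul (hcv true n') hπ0
    rwa [zero_add, mul_right_comm, ← map_mul, ← zpow_add₀ hπ0, neg_add_cancel, zpow_zero, map_one,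
      one_mul] at h1
  have ht0 : t ≠ 0 := ht0v.ne_zero hπ0
  set E := D₂ - divisorOf (G₂ * t) with hE
  have hGt0 : G₂ * t ≠ 0 := mul_ne_zero hG₂0 ht0
  have hEf : M.DivFixed L.H E := fun σ hσ => by
    rw [hE, smul_sub, hD₂f σ hσ, M.divFixed_divisorOf (fixed_mul hG₂f htf) σ hσ]
  set F' : F := algebraMap Qb F (L.π ^ (-n₀)) * f₂ / (G₂ * t) ^ q with hF'
  have hF'0 : F' ≠ 0 := div_ne_zero (mul_ne_zero (hc0 _) hf₂0) (pow_ne_zero q hGt0)
  have hF'f : M.Fixed L.H F' :=
    fixed_div (fixed_mul (hcf _) hf₂f) (fixed_pow (fixed_mul hG₂f htf) q)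
  have hF'ord : ∀ P, P.ord F' = (q : ℤ) * E P := fun P => by
    rw [hF', Fermat.Agent.Curve.ord_div P (mul_ne_zero (hc0 _) hf₂0) (pow_ne_zero q hGt0),
      P.ord_mul (hc0 _) hf₂0, Fermat.Agent.Curve.ord_algebraMap,
      Fermat.Agent.Curve.ord_pow P (G₂ * t) q, P.ord_mul hG₂0 ht0, ← hford₂ P, hE, Finsupp.sub_apply, divisorOf_apply, P.ord_mul hG₂0 ht0,
      Finsupp.smul_apply, smul_eq_mul]
    ring
  have hF'v : ∀ i, M.VOrd L.π i F' 0 := by
    intro i
    have hG' : M.VOrd L.π i G₂ 0 := vord_zero_iff.2 (hG₂v i)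
    cases i
    · simpa [hF', n₀] using ((hcv false (-n₀)).mul (hν₂ false) hπ0).div ((hG'.mul ht0v hπ0).pow q) hπ0
    · have := ((hcv true (-n₀)).mul (hν₂ true) hπ0).div ((hG'.mul ht1v hπ0).pow q) hπ0
      rw [zero_add, ← hn', show -n₀ + (c : ℤ) * ν true - ((c : ℤ) * ν true - n₀) = 0 by ring]
        at this
      exact this
  have hF'res : ∀ i, M.residueAt i F' = 1 := by
    suffices key : ∀ (i : Bool) (z : ℤ), M.VCongr L.π i 1 (algebraMap Qb F (L.π ^ (-z)) * t) 1 →
        (c : ℤ) * ν i - n₀ = q * z → M.residueAt i F' = 1 by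
      intro i
      cases i
      · refine key false 0 ?_ (by simp [n₀])
        simpa using ht₀
      · exact key true n' ht₁ hn'
    intro i z hz hcc
    set t' := algebraMap Qb F (L.π ^ (-z)) * t with ht'
    have ht'v : (M.V i).valuation t' = 1 := hz.valuation_eq_one L one_pos (map_one _)
    have hE' : F' = algebraMap Qb F (L.π ^ (-(c * ν i))) * f₂ / (G₂ * t') ^ q := by
      rw [hF', ht', eq_comm, mul_left_comm G₂, mul_pow (algebraMap Qb F (L.π ^ (-z))),
        show algebraMap Qb F (L.π ^ (-(c * ν i))) =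
          algebraMap Qb F (L.π ^ (-n₀)) * algebraMap Qb F (L.π ^ (-z)) ^ q by
          rw [← map_pow, ← map_mul, ← zpow_natCast, ← zpow_mul, ← zpow_add₀ hπ0]
          congr 2
          linear_combination -hcc,
        mul_assoc, mul_left_comm, mul_div_mul_left _ _ (pow_ne_zero q (hc0 _))]
    have hGt' : (M.V i).valuation ((G₂ * t') ^ q) = 1 := by
      rw [map_pow, map_mul, hG₂v, ht'v, one_mul, one_pow]
    rw [hE', div_eq_mul_inv, residueAt_mul (M.mem_of_valuation_eq_one (hfn₂ i).valuation_eq_one)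
        (M.mem_of_valuation_eq_one (by rw [map_inv₀, hGt', inv_one])), residueAt_inv hGt',
      residueAt_pow (mul_mem (hG₂V i) (M.mem_of_valuation_eq_one ht'v)),
      residueAt_mul (hG₂V i) (M.mem_of_valuation_eq_one ht'v),
      residueAt_congr L one_pos hz (one_mem _), residueAt_one, mul_one,
      hG₂r, ← hh₂, mul_inv_cancel₀ (pow_ne_zero q (hh₂0 i))]
  -- the multiple
  set k := M.nodeProd with hk
  -- local generators, units along the components
  have hgen : ∀ y, ∃ χ, M.Fixed L.H χ ∧ χ ≠ 0 ∧ (∀ P, M.sp P = y → P.ord χ = (k : ℤ) * E P) ∧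
      ∀ i, M.On y i → (M.V i).valuation χ = 1 := by
    intro y
    obtain ⟨ψ, hψf, hψg⟩ := M.exists_localGen hp L E hEf y
    choose μ hμ using fun i => M.exists_vord L i hψg.1 hψf
    suffices key : ∃ s j : ℤ, (j = 0 ∨ M.IsNode y) ∧ ∀ i, M.On y i →
        (k : ℤ) * μ i + s + j * (if i then 12 * (L.e : ℤ) else 0) = 0 by
      obtain ⟨s, j, hj, hz⟩ := key
      have hw := M.vord_w L
      have hw0 : M.w ≠ 0 := hw.1.ne_zero hπ0
      refine ⟨ψ ^ k * algebraMap Qb F (L.π ^ s) * M.w ^ j,
        fixed_mul (fixed_mul (fixed_pow hψf k) (hcf s))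
          (fixed_zpow (fun σ hσ => M.w_fixed σ (L.le_inertia hσ)) j),
        mul_ne_zero (mul_ne_zero (pow_ne_zero k hψg.1) (hc0 s)) (zpow_ne_zero j hw0),
        fun P hP => ?_, fun i hi => ?_⟩
      · rw [P.ord_mul (mul_ne_zero (pow_ne_zero k hψg.1) (hc0 s)) (zpow_ne_zero j hw0),
          P.ord_mul (pow_ne_zero k hψg.1) (hc0 s), Fermat.Agent.Curve.ord_pow,
          Fermat.Agent.Curve.ord_algebraMap, Place.ord_zpow, hψg.2 P hP, add_zero]
        rcases hj with rfl | hj
        · simp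
        · rw [M.w_ord y hj.1 hj.2 P hP, mul_zero, add_zero]
      · have hwi : M.VOrd L.π i M.w (if i then 12 * (L.e : ℤ) else 0) := by
          cases i
          · exact hw.1
          · exact hw.2
        refine VOrd.valuation_eq_one (π := L.π) ?_
        have := (((hμ i).pow k).mul (hcv i s) hπ0).mul (hwi.zpow j) hπ0
        rwa [hz i hi] at this
    by_cases hy : M.IsNode y
    · have hu0 : M.LocalGen y 0 (ψ ^ q / F') :=
        ⟨div_ne_zero (pow_ne_zero q hψg.1) hF'0, fun P hP => by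
          rw [Fermat.Agent.Curve.ord_div P (pow_ne_zero q hψg.1) hF'0,
            Fermat.Agent.Curve.ord_pow, hψg.2 P hP, hF'ord, sub_self, Finsupp.zero_apply]⟩
      have hX : M.VOrd L.π false (algebraMap Qb F (L.π ^ (-μ false)) * ψ) 0 := by
        simpa using (hcv false (-μ false)).mul (hμ false) hπ0
      have hslope := M.slope_eq hp L hy (fixed_div (fixed_pow hψf q) hF'f) hu0
        (((hμ false).pow q).div (hF'v false) hπ0) (((hμ true).pow q).div (hF'v true) hπ0)
      set o := (M.loc y false).ord (M.residueAt false (algebraMap Qb F (L.π ^ (-μ false)) * ψ))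
      have hres' : (M.loc y false).ord (M.residueAt false
          (algebraMap Qb F (L.π ^ (-((q : ℤ) * μ false - 0))) * (ψ ^ q / F'))) = (q : ℤ) * o := by
        rw [sub_zero, ← mul_div_assoc,
          show algebraMap Qb F (L.π ^ (-((q : ℤ) * μ false))) * ψ ^ q
            = (algebraMap Qb F (L.π ^ (-μ false)) * ψ) ^ q by
          rw [mul_pow, hcp, mul_neg],
          div_eq_mul_inv, residueAt_mul (pow_mem (M.mem_of_valuation_eq_one hX.valuation_eq_one) q)
            (M.mem_of_valuation_eq_one (by rw [map_inv₀, (hF'v false).valuation_eq_one, inv_one])),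
          residueAt_inv (hF'v false).valuation_eq_one, hF'res, inv_one, mul_one,
          residueAt_pow (M.mem_of_valuation_eq_one hX.valuation_eq_one),
          Fermat.Agent.Curve.ord_pow]
      rw [hres', sub_zero, sub_zero] at hslope
      have hslope' : 12 * (L.e : ℤ) * o = (μ true - μ false) * M.r y :=
        mul_left_cancel₀ (Nat.cast_ne_zero.2 hq0 : (q : ℤ) ≠ 0)
          (by linear_combination hslope)
      obtain ⟨q, hq⟩ : M.r y ∣ k := hk ▸
        Finset.dvd_prod_of_mem _ (M.finite_node.mem_toFinset.2 hy)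
      refine ⟨-((k : ℤ) * μ false), -(o * q), Or.inr hy, fun i _ => ?_⟩
      cases i
      · simp
      · simp only [if_true]
        rw [hq]
        push_cast
        linear_combination (-(q : ℤ)) * hslope'
    · obtain ⟨i₀, hi₀⟩ := M.exists_on y
      refine ⟨-((k : ℤ) * μ i₀), 0, Or.inl rfl, fun i hi => ?_⟩
      obtain rfl : i = i₀ := by
        by_contra hne
        refine hy ?_
        cases i <;> cases i₀
        · exact absurd rfl hne
        · exact ⟨hi, hi₀⟩
        · exact ⟨hi₀, hi⟩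
        · exact absurd rfl hne
      ring
  choose χ hχf hχ0 hχord hχv using hgen
  -- the residues of the generators
  have hlift : ∀ y, ∃ l, M.Fixed L.H l ∧ M.RegUnit y l ∧
      ∀ i, M.On y i → M.residueAt i l = M.residueAt i (χ y) := by
    intro y
    set u := χ y ^ q / F' ^ k with hu
    have hden0 : F' ^ k ≠ 0 := pow_ne_zero k hF'0
    have hden : ∀ i, (M.V i).valuation (F' ^ k) = 1 := fun i => by
      rw [map_pow, (hF'v i).valuation_eq_one, one_pow]
    have huU : M.RegUnit y u := by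
      refine regUnit_of_ord (div_ne_zero (pow_ne_zero q (hχ0 y)) hden0) (fun P hP => ?_)
        fun i hi => by rw [hu, map_div₀, map_pow, hχv y i hi, one_pow, hden, div_one]
      rw [hu, Fermat.Agent.Curve.ord_div P (pow_ne_zero q (hχ0 y)) hden0,
        Fermat.Agent.Curve.ord_pow, Fermat.Agent.Curve.ord_pow, hχord y P hP, hF'ord]
      ring
    have hur : ∀ i, M.On y i → M.residueAt i u = M.residueAt i (χ y) ^ q := by
      intro i hi
      rw [hu, div_eq_mul_inv,
        residueAt_mul (pow_mem (M.mem_of_valuation_eq_one (hχv y i hi)) q)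
          (M.mem_of_valuation_eq_one (by rw [map_inv₀, hden, inv_one])), residueAt_inv (hden i),
        residueAt_pow (M.mem_of_valuation_eq_one (hF'v i).valuation_eq_one), hF'res, one_pow,
        inv_one, mul_one, residueAt_pow (M.mem_of_valuation_eq_one (hχv y i hi))]
    have hord : ∀ i, M.On y i → (M.loc y i).ord (M.residueAt i (χ y)) = 0 := by
      intro i hi
      have h0 := (huU.ord_residueAt hi).2
      rw [hur i hi, Fermat.Agent.Curve.ord_pow] at h0
      exact (mul_eq_zero.1 h0).resolve_left (Nat.cast_ne_zero.2 hq0)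
    have hmem : ∀ i, M.On y i → M.residueAt i (χ y) ∈ (M.loc y i).toValuationSubring := fun i hi =>
      mem_of_ord_nonneg _ (hord i hi).ge
    have hne : ∀ i, M.On y i → evalAt (M.loc y i) (M.residueAt i (χ y)) ≠ 0 := by
      intro i hi h0
      rcases evalAt_spec _ (hmem i hi) with h | h
      · rw [h0, map_zero, sub_zero] at h
        exact residueAt_ne_zero (hχv y i hi) h
      · rw [h0, map_zero, sub_zero, hord i hi] at h
        exact lt_irrefl _ h
    have heval : ∀ i, M.On y i → evalAt (M.loc y i) (M.residueAt i u)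
        = evalAt (M.loc y i) (M.residueAt i (χ y)) ^ q := by
      intro i hi
      obtain ⟨φ, hφ, -⟩ := exists_residueHom (M.loc y i)
      rw [hur i hi, ← hφ ⟨_, pow_mem (hmem i hi) q⟩, ← hφ ⟨_, hmem i hi⟩, ← map_pow]
      rfl
    obtain ⟨l, hlI, hlreg, hl⟩ := M.exists_regular_lift y (fun i => M.residueAt i (χ y)) hmem
      fun h₀ h₁ => by
        haveI := EC.charP_residueField A hp hA
        refine iterateFrobenius_inj (ResidueField A) p b ?_
        simp only [iterateFrobenius_def, ← hq]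
        rw [← heval false h₀, ← heval true h₁, M.residueAt_of_mem (huU.2.1.2 _ h₀),
          M.residueAt_of_mem (huU.2.1.2 _ h₁)]
        exact M.red_node y u huU.2.1.1 huU.2.1.2 h₀ h₁ _ _
    have hreg : M.Reg y l := ⟨hlreg, fun i hi => (hl i hi).1⟩
    have hlv : ∀ i, M.On y i → (M.V i).valuation l = 1 := fun i hi => by
      obtain ⟨hm, hr⟩ := hl i hi
      exact M.valuation_eq_one_of_red hm (by rw [hr]; exact residueAt_ne_zero (hχv y i hi))
    obtain ⟨i₀, hi₀⟩ := M.exists_on y
    refine ⟨l, fun σ hσ => hlI σ (L.le_inertia hσ), regUnit_of_evalAt hreg hlv ⟨i₀, hi₀, ?_⟩,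
      fun i hi => ?_⟩
    · obtain ⟨hm, hr⟩ := hl i₀ hi₀
      rw [hr]
      exact hne i₀ hi₀
    · obtain ⟨hm, hr⟩ := hl i hi
      rw [M.residueAt_of_mem hm, hr]
  choose l hlf hlU hlres using hlift
  refine ⟨(k : ℤ) • E, fun σ hσ =>
    ((DistribMulAction.toAddMonoidHom (Divisor Qb F) (M.act σ)).map_zsmul (k : ℤ) E).trans
      (congrArg ((k : ℤ) • ·) (hEf σ hσ)), ?_,
    trivial_iff.2 ⟨1, fun y => χ y / l y, one_ne_zero, fun σ _ => smul_one _, fun i => map_one _,
      fun y => fixed_div (hχf y) (hlf y), fun y => div_ne_zero (hχ0 y) (hlU y).1,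
      fun y P hP => ?_, fun y i hi => ?_⟩⟩
  · refine ⟨((G₂ * t) ^ k)⁻¹, inv_ne_zero (pow_ne_zero k hGt0), fun P => ?_⟩
    rw [P.ord_inv, Fermat.Agent.Curve.ord_pow, Finsupp.sub_apply, Finsupp.smul_apply,
      Finsupp.smul_apply, hE, Finsupp.sub_apply, hD₂, Finsupp.smul_apply, divisorOf_apply,
      smul_eq_mul, smul_eq_mul, smul_eq_mul, Nat.cast_mul]
    ring
  · rw [Fermat.Agent.Curve.ord_div P (hχ0 y) (hlU y).1, hχord y P hP, (hlU y).ord_eq_zero hP,
      P.ord_one, Finsupp.smul_apply, smul_eq_mul]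
    ring
  · have hv := (hlU y).valuation_eq_one hi
    have hm : χ y / l y ∈ M.V i :=
      M.mem_of_valuation_eq_one (by rw [map_div₀, hχv y i hi, hv, div_one])
    refine (M.vcongr_one_iff L i (fixed_div (hχf y) (hlf y)) (fun σ _ => smul_one _) hm
      (one_mem _)).2 ?_
    rw [← M.residueAt_of_mem hm, div_eq_mul_inv,
      residueAt_mul (M.mem_of_valuation_eq_one (hχv y i hi))
        (M.mem_of_valuation_eq_one (by rw [map_inv₀, hv, inv_one])), residueAt_inv hv,
      hlres y i hi, mul_inv_cancel₀ (residueAt_ne_zero (hχv y i hi))]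
    exact (map_one _).symm

/-- A multiple prime to `p` of a class with `p`-th power residues is trivial modulo `π`. -/
theorem exists_trivial_one (hp : p.Prime) (hA : A.LiesOverPrime p)
    (hr : ∀ y, M.IsNode y → ¬ p ∣ M.r y) (L : Level p A)
    {D : Divisor Qb F} (hD : M.DivFixed L.H D) (hpD : Divisor.IsPrincipal ((p : ℤ) • D))
    (hres : M.PowResidue D p) :
    ∃ D' : Divisor Qb F, M.DivFixed L.H D' ∧
      Divisor.IsPrincipal (D' - (M.nodeProd : ℤ) • D) ∧ M.Trivial L D' 1 := by
  have h := M.exists_trivial_one_pow hp hA (b := 1) (c := 1) (fun y hy d hd => by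
    rw [pow_one] at hd ⊢
    rw [Nat.cast_one, mul_one]
    exact ((Nat.prime_iff_prime_int.1 hp).dvd_or_dvd hd).resolve_right
      fun h => hr y hy (Int.natCast_dvd_natCast.1 h)) L hD (by rwa [pow_one]) (by rwa [pow_one])
  simpa using h

end TwoCompData

end Fermat.Agent.LevelP
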