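import Fermat.Agent.LevelP.Ordinary.Levels

/-!
# Classes over the tame field

Over constants with `e = 1` a `p`-torsion class trivial modulo `π` is principal (`p ≥ 3`). Over
constants with `e = p - 1` the first order term of a non-principal one is not killed by Frobenius,
and this survives in any larger field.

Owner: helper46.
-/

set_option autoImplicit false

noncomputable section

namespace Fermat.Agent.LevelP

open AlgebraicCurve Fermat.Agent.Curve IsLocalRing

local notation "Qb" => AlgebraicClosure ℚ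
local notation "Γℚ" => (AlgebraicClosure ℚ ≃ₐ[ℚ] AlgebraicClosure ℚ)

variable {p : ℕ} {A : ValuationSubring Qb} {F : Type*} [Field F] [Algebra Qb F]
  {Fb : Type*} [Field Fb] [Algebra (ResidueField A) Fb] {M : TwoCompData p A F Fb}

namespace TwoCompData

/-- Congruence modulo the uniformiser does not depend on the field of constants. -/
theorem vcongr_one_transfer {L L' : Level p A} {i : Bool} {f g : F}
    (h : M.VCongr L.π i 1 f g) (hg : g ∈ M.V i) (hf' : M.Fixed L'.H f) (hg' : M.Fixed L'.H g) :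
    M.VCongr L'.π i 1 f g :=
  (M.vcongr_one_iff L' i hf' hg' (h.mem L.π_mem hg) hg).2
    (h.red_eq L one_pos (h.mem L.π_mem hg) hg)

/-- A null family over one field of constants is null over any other over which it is defined. -/
theorem Null.descend {L L' : Level p A} {a : M.Pt → F} (ha : M.Null L a)
    (hf : ∀ y, M.Fixed L'.H (a y)) : M.Null L' a := by
  obtain ⟨G, -, hGV, hc⟩ := ha
  obtain ⟨G', hG'I, hG'⟩ := M.exists_lift fun i => M.red i ⟨G, hGV i⟩
  refine ⟨G', fun σ hσ => hG'I σ (L'.le_inertia hσ), fun i => (hG' i).1, fun y => ?_⟩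
  obtain ⟨c, -, hcr, hcc⟩ := hc y
  obtain ⟨c', hc'I, hc'reg, hc'⟩ := M.exists_regular_lift y (fun i => M.residueAt i c)
    (fun i hi => by
      rw [M.residueAt_of_mem (hcr.2 i hi)]
      exact M.red_regular y c hcr.1 hcr.2 i hi _)
    (fun h₀ h₁ => by
      rw [M.residueAt_of_mem (hcr.2 _ h₀), M.residueAt_of_mem (hcr.2 _ h₁)]
      exact M.red_node y c hcr.1 hcr.2 h₀ h₁ _ _)
  refine ⟨c', fun σ hσ => hc'I σ (L'.le_inertia hσ), ⟨hc'reg, fun i hi => (hc' i hi).1⟩,
    fun i hi => ?_⟩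
  obtain ⟨hV₁, hr₁⟩ := hG' i
  obtain ⟨hV₂, hr₂⟩ := hc' i hi
  have haV : a y ∈ M.V i := (hcc i hi).mem L.π_mem (add_mem (hGV i) (hcr.2 i hi))
  refine (M.vcongr_one_iff L' i (hf y) ((M.fixedFns L'.H).add_mem
    (fun σ hσ => hG'I σ (L'.le_inertia hσ)) (fun σ hσ => hc'I σ (L'.le_inertia hσ))) haV
    (add_mem hV₁ hV₂)).2 ?_
  rw [(hcc i hi).red_eq L one_pos haV (add_mem (hGV i) (hcr.2 i hi))]
  rw [M.residueAt_of_mem (hcr.2 i hi)] at hr₂
  calc M.red i ⟨G + c, _⟩ = M.red i ⟨G, hGV i⟩ + M.red i ⟨c, hcr.2 i hi⟩ := by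
        rw [← map_add]; rfl
    _ = M.red i ⟨G', hV₁⟩ + M.red i ⟨c', hV₂⟩ := by rw [hr₁, hr₂]
    _ = M.red i ⟨G' + c', _⟩ := by rw [← map_add]; rfl

variable [IsFunctionField1 Qb F] [IsFunctionField1 (ResidueField A) Fb]
  [IsAlgClosed (ResidueField A)]

/-- **Unramified constants.** -/
theorem isPrincipal_of_unramified (hp : p.Prime) (hp3 : 3 ≤ p) (hA : A.LiesOverPrime p)
    (L : Level p A) (he : L.e = 1) {D : Divisor Qb F} (hdeg : Divisor.degree D = 0)
    (hD : M.DivFixed L.H D) (hpD : Divisor.IsPrincipal ((p : ℤ) • D)) (h : M.Trivial L D 1) :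
    D.IsPrincipal :=
  isPrincipal_of_trivial hp hA L hdeg hD hpD one_pos (by omega) h

/-- **Tame constants.** The first order term of a non-principal class is not killed by Frobenius. -/
theorem not_null_pow_coeff (hp : p.Prime) (hp3 : 3 ≤ p) (hA : A.LiesOverPrime p) (L : Level p A)
    (he : L.e = p - 1) {D : Divisor Qb F} (hdeg : Divisor.degree D = 0) (hD : M.DivFixed L.H D)
    (hpD : Divisor.IsPrincipal ((p : ℤ) • D)) (hnp : ¬ D.IsPrincipal) {g : F} {ψ : M.Pt → F}
    (h : M.Rep L D 1 g ψ) : ¬ M.Null L fun y => L.coeff 1 (ψ y) ^ p := by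
  intro hnull
  have h1 : M.Null L fun y => algebraMap Qb F L.kappa * L.coeff 1 (ψ y) := by
    refine ((h.null_artinSchreier hp hA hD hpD one_pos (by omega)).sub hnull).congr
      fun y i _ => ?_
    rw [add_sub_cancel_left]
    exact VCongr.refl _
  refine hnp (isPrincipal_of_trivial hp hA L hdeg hD hpD (m₀ := 2) two_pos (by omega)
    (h.trivial_succ one_pos (Null.of_smul L.valuation_kappa L.kappa_fixed h1)))

omit [IsFunctionField1 Qb F] [IsFunctionField1 (ResidueField A) Fb]
  [IsAlgClosed (ResidueField A)] in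
/-- A representative over the tame field, seen in a field of index `p` over it. -/
theorem Rep.of_tame {L₁ L : Level p A} (hle : L.H ≤ L₁.H) (he : L.e = p * L₁.e)
    {D : Divisor Qb F} {g : F} {ψ : M.Pt → F} (h : M.Rep L₁ D 1 g ψ) :
    M.Rep L D p g ψ := by
  refine ⟨h.g_ne, fixed_mono hle h.g_fixed, h.g_unit, fun y => fixed_mono hle (h.fixed y),
    h.ne_zero, h.ord_eq, fun y i hi => ?_⟩
  obtain ⟨d, hd, e⟩ := h.congr y i hi
  have hμ : L₁.π / L.π ^ p ∈ A := by
    rw [← A.valuation_le_one_iff, map_div₀, map_pow, L₁.valuation_eq_pow L he,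
      div_self (pow_ne_zero _ L.valuation_ne_zero)]
  refine ⟨algebraMap Qb F (L₁.π / L.π ^ p) * d,
    mul_mem ((M.algebraMap_mem_iff i _).2 hμ) hd, ?_⟩
  rw [e, pow_one, ← mul_assoc, ← map_pow, ← map_mul,
    mul_div_cancel₀ _ (pow_ne_zero _ L.ne_zero)]

end TwoCompData

end Fermat.Agent.LevelP
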